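import Fermat.Agent.Corollaries.K4.Small.Desc5

/-!
# Corollaries, K4P: `m ^ 2 - m n + n ^ 2` and `m ^ 2 + 3 m n + n ^ 2` are not both squares

for coprime non-zero integers `m`, `n`. The elliptic curve behind it is
`w ^ 2 = (v ^ 2 + 3 v + 1) (v ^ 2 - v + 1)`, of conductor `15`: its only rational points are the two points with
`v = 0` and the two points at infinity. The proof is a descent on `m ^ 2 + n ^ 2`.
-/

set_option autoImplicit false

namespace Fermat.Agent.Cor.Small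

/-- `u v = m n`: four numbers. -/
theorem four_numbers {m n u v : ℤ} (hm : m ≠ 0) (h : u * v = m * n) :
    ∃ A B C D : ℤ, m = A * C ∧ n = B * D ∧ v = A * B ∧ u = C * D := by
  obtain ⟨C, A, ⟨D, hD⟩, ⟨B, hB⟩, hCA⟩ := exists_dvd_and_dvd_of_dvd_mul (Dvd.intro n h.symm)
  refine ⟨A, B, C, D, by rw [hCA, mul_comm], ?_, hB, hD⟩
  apply mul_left_cancel₀ hm
  rw [← h, hD, hB, hCA]
  ring

/-- two coprime positive integers whose product is a square -/
theorem two_squares {P Q z : ℤ} (hc : IsCoprime P Q) (hP : 0 < P) (hQ : 0 < Q) (h : P * Q = z ^ 2) :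
    ∃ g h : ℤ, P = g ^ 2 ∧ Q = h ^ 2 ∧ g * h = z := by
  obtain ⟨g, hg⟩ := Int.sq_of_isCoprime hc h
  obtain ⟨k, hk⟩ := Int.sq_of_isCoprime hc.symm (show Q * P = z ^ 2 by rw [mul_comm, h])
  have hg' : P = g ^ 2 := by
    rcases hg with hg | hg
    · exact hg
    · have := sq_nonneg g
      omega
  have hk' : Q = k ^ 2 := by
    rcases hk with hk | hk
    · exact hk
    · have := sq_nonneg k
      omega
  have h1 : (g * k) ^ 2 = z ^ 2 := by rw [← h, hg', hk']; ring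
  rcases sq_eq_sq_iff_eq_or_eq_neg.mp h1 with h1 | h1
  · exact ⟨g, k, hg', hk', h1⟩
  · exact ⟨-g, k, by rw [hg']; ring, hk', by linear_combination -h1⟩

/-- an odd square is `1` modulo `8` -/
theorem sq_odd {x : ℤ} (hx : Odd x) : ∃ k : ℤ, x ^ 2 = 8 * k + 1 := by
  obtain ⟨t, rfl⟩ := hx
  obtain ⟨k, hk⟩ := Int.even_mul_succ_self t
  exact ⟨k, by linear_combination 4 * hk⟩

/-- The first half of a step. -/
theorem quad15 {A D K : ℤ} (hA : Odd A) (hD : Odd D) (hAD : IsCoprime A D)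
    (hK : K ^ 2 = 4 * A ^ 4 - 7 * A ^ 2 * D ^ 2 + 4 * D ^ 4) :
    ∃ g h : ℤ, g * h = A * D ∧
      (4 * (A ^ 2 + D ^ 2) = 15 * g ^ 2 + h ^ 2 ∨ 4 * (A ^ 2 + D ^ 2) = 3 * g ^ 2 + 5 * h ^ 2) := by
  wlog h3 : (3 : ℤ) ∣ 2 * (A ^ 2 + D ^ 2) - K generalizing K with H
  · refine H (K := -K) (by rw [← hK]; ring) ?_
    have h1 : (3 : ℤ) ∣ (2 * (A ^ 2 + D ^ 2) - K) * (2 * (A ^ 2 + D ^ 2) - -K) :=
      ⟨5 * (A * D) ^ 2, by linear_combination -hK⟩
    exact (Int.prime_three.dvd_mul.mp h1).resolve_left h3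
  obtain ⟨P, hP⟩ : ∃ P, P = 2 * (A ^ 2 + D ^ 2) - K := ⟨_, rfl⟩
  obtain ⟨Q, hQ⟩ : ∃ Q, Q = 2 * (A ^ 2 + D ^ 2) + K := ⟨_, rfl⟩
  have hPQ : P * Q = 15 * (A * D) ^ 2 := by rw [hP, hQ]; linear_combination -hK
  have hsum : P + Q = 4 * (A ^ 2 + D ^ 2) := by rw [hP, hQ]; ring
  have hA0 : A ≠ 0 := by rintro rfl; exact absurd hA (by decide)
  have hD0 : D ≠ 0 := by rintro rfl; exact absurd hD (by decide)
  have hpos : 0 < P * Q := by rw [hPQ]; positivity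
  have hpos' : 0 < P + Q := by rw [hsum]; positivity
  have hP0 : 0 < P := by
    rcases pos_and_pos_or_neg_and_neg_of_mul_pos hpos with h | h
    · exact h.1
    · linarith [h.1, h.2]
  have hQ0 : 0 < Q := pos_of_mul_pos_right hpos hP0.le
  have hq : ∀ q : ℤ, Prime q → q ∣ A * D → q ∣ A ^ 2 + D ^ 2 → False := by
    intro q hq h1 h2
    rcases hq.dvd_mul.mp h1 with h1 | h1
    · have h4 : q ∣ D ^ 2 := (dvd_add_right (Dvd.dvd.pow h1 (by norm_num))).mp h2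
      exact hq.not_isUnit (hAD.isUnit_of_dvd' h1 (hq.dvd_of_dvd_pow h4))
    · have h4 : q ∣ A ^ 2 := (dvd_add_left (Dvd.dvd.pow h1 (by norm_num))).mp h2
      exact hq.not_isUnit (hAD.isUnit_of_dvd' (hq.dvd_of_dvd_pow h4) h1)
  have hoddAD : Odd (A * D) := hA.mul hD
  have hcop : IsCoprime P Q := isCoprime_of_prime fun q hq' h1 h2 => by
    have h4 : q ∣ 15 * (A * D) ^ 2 := hPQ ▸ h1.mul_right Q
    have h5 : q ∣ 4 * (A ^ 2 + D ^ 2) := hsum ▸ dvd_add h1 h2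
    have h6 : ¬ q ∣ 4 := by
      intro h6
      have h7 : q ∣ 2 := hq'.dvd_of_dvd_pow (show q ∣ 2 ^ 2 by norm_num; exact h6)
      have h8 : (2 : ℤ) ∣ q := ((hq'.dvd_prime_iff_associated Int.prime_two).mp h7).symm.dvd
      have h9 : (2 : ℤ) ∣ 15 * (A * D) ^ 2 := h8.trans h4
      rcases Int.prime_two.dvd_mul.mp h9 with h9 | h9
      · norm_num at h9
      · have h10 := Int.prime_two.dvd_of_dvd_pow h9
        exact (Int.not_even_iff_odd.mpr hoddAD) (even_iff_two_dvd.mpr h10)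
    have h7 : q ∣ A ^ 2 + D ^ 2 := (hq'.dvd_mul.mp h5).resolve_left h6
    have h8 : q * q ∣ 15 * (A * D) ^ 2 := hPQ ▸ mul_dvd_mul h1 h2
    rcases hq'.dvd_mul.mp h4 with h9 | h9
    · rcases hq'.dvd_mul.mp (show q ∣ 3 * 5 by norm_num; exact h9) with h10 | h10
      · have h11 : (3 : ℤ) ∣ q := ((hq'.dvd_prime_iff_associated Int.prime_three).mp h10).symm.dvd
        have h12 : (3 : ℤ) * 3 ∣ 15 * (A * D) ^ 2 := (mul_dvd_mul h11 h11).trans h8
        have h13 : (3 : ℤ) ∣ 5 * (A * D) ^ 2 := by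
          obtain ⟨c, hc⟩ := h12
          exact ⟨c, by linarith⟩
        rcases Int.prime_three.dvd_mul.mp h13 with h14 | h14
        · norm_num at h14
        · exact hq 3 Int.prime_three (Int.prime_three.dvd_of_dvd_pow h14) (h11.trans h7)
      · have h5p : Prime (5 : ℤ) := by norm_num
        have h11 : (5 : ℤ) ∣ q := ((hq'.dvd_prime_iff_associated h5p).mp h10).symm.dvd
        have h12 : (5 : ℤ) * 5 ∣ 15 * (A * D) ^ 2 := (mul_dvd_mul h11 h11).trans h8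
        have h13 : (5 : ℤ) ∣ 3 * (A * D) ^ 2 := by
          obtain ⟨c, hc⟩ := h12
          exact ⟨c, by linarith⟩
        rcases h5p.dvd_mul.mp h13 with h14 | h14
        · norm_num at h14
        · exact hq 5 h5p (h5p.dvd_of_dvd_pow h14) (h11.trans h7)
    · exact hq q hq' (hq'.dvd_of_dvd_pow h9) h7
  rw [← hP] at h3
  obtain ⟨P', rfl⟩ := h3
  have h5p : Prime (5 : ℤ) := by norm_num
  have h5 : (5 : ℤ) ∣ (3 * P') * Q := ⟨3 * (A * D) ^ 2, by rw [hPQ]; ring⟩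
  rcases h5p.dvd_mul.mp h5 with h5 | h5
  · have h6 : (5 : ℤ) ∣ P' := by
      rcases h5p.dvd_mul.mp h5 with h6 | h6
      · norm_num at h6
      · exact h6
    obtain ⟨R, rfl⟩ := h6
    obtain ⟨g, h, hg, hh, hgh⟩ := two_squares (P := R) (Q := Q) (z := A * D)
      (hcop.of_mul_left_right.of_mul_left_right) (by linarith) hQ0 (by linarith)
    exact ⟨g, h, hgh, Or.inl (by rw [← hsum, ← hg, ← hh]; ring)⟩
  · obtain ⟨R, rfl⟩ := h5
    obtain ⟨g, h, hg, hh, hgh⟩ := two_squares (P := P') (Q := R) (z := A * D)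
      (hcop.of_mul_left_right.of_mul_right_right) (by linarith) (by linarith) (by linarith)
    exact ⟨g, h, hgh, Or.inr (by rw [← hsum, ← hg, ← hh])⟩

/-- `a ^ 2 x = d ^ 2 y` with `a`, `d` coprime, `d ≠ 0`: `x = k d ^ 2`, `y = k a ^ 2`. -/
theorem exists_quot {a d x y : ℤ} (hd : d ≠ 0) (hc : IsCoprime a d) (h : a ^ 2 * x = d ^ 2 * y) :
    ∃ k : ℤ, x = k * d ^ 2 ∧ y = k * a ^ 2 := by
  have h1 : d ^ 2 ∣ a ^ 2 * x := Dvd.intro y h.symm
  obtain ⟨k, hk⟩ := (IsCoprime.pow hc.symm).dvd_of_dvd_mul_left h1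
  refine ⟨k, by rw [hk]; ring, ?_⟩
  apply mul_left_cancel₀ (pow_ne_zero 2 hd)
  rw [← h, hk]
  ring

/-- The second half of a step. -/
theorem step15 {A D K : ℤ} (hA : Odd A) (hD : Odd D) (hAD : IsCoprime A D)
    (hK : K ^ 2 = 4 * A ^ 4 - 7 * A ^ 2 * D ^ 2 + 4 * D ^ 4) :
    ∃ m n α β : ℤ, IsCoprime m n ∧ m ^ 2 - m * n + n ^ 2 = α ^ 2 ∧
      m ^ 2 + 3 * m * n + n ^ 2 = β ^ 2 ∧ m ^ 2 + n ^ 2 < A ^ 2 + D ^ 2 ∧
      (m * n = 0 → A ^ 2 = D ^ 2) := by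
  obtain ⟨g, h, hgh, hcase⟩ := quad15 hA hD hAD hK
  have hA0 : A ≠ 0 := by rintro rfl; exact absurd hA (by decide)
  obtain ⟨a₁, d₁, a₂, d₂, rfl, rfl, rfl, rfl⟩ := four_numbers hA0
    (show h * g = A * D by rw [mul_comm, hgh])
  obtain ⟨oa₁, oa₂⟩ := Int.odd_mul.mp hA
  obtain ⟨od₁, od₂⟩ := Int.odd_mul.mp hD
  have c₁ : IsCoprime a₁ d₂ := hAD.of_mul_left_left.of_mul_right_right
  have c₂ : IsCoprime a₂ d₁ := hAD.of_mul_left_right.of_mul_right_left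
  have hd₂ : d₂ ≠ 0 := by rintro rfl; exact absurd od₂ (by decide)
  obtain ⟨x₁, hx₁⟩ := sq_odd oa₁
  obtain ⟨x₂, hx₂⟩ := sq_odd oa₂
  obtain ⟨y₁, hy₁⟩ := sq_odd od₁
  obtain ⟨y₂, hy₂⟩ := sq_odd od₂
  have hunit : ∀ k : ℤ, k ∣ a₂ ^ 2 → k ∣ d₁ ^ 2 → k = 1 ∨ k = -1 := by
    intro k h1 h2
    exact Int.isUnit_iff.mp ((IsCoprime.pow c₂).isUnit_of_dvd' h1 h2)
  rcases hcase with hcase | hcase
  · exfalso
    obtain ⟨k, h1, h2⟩ := exists_quot (x := 4 * a₂ ^ 2 - 15 * d₁ ^ 2) (y := a₂ ^ 2 - 4 * d₁ ^ 2)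
      hd₂ c₁ (by linear_combination hcase)
    rcases hunit k ⟨4 * d₂ ^ 2 - 15 * a₁ ^ 2, by linear_combination 4 * h1 - 15 * h2⟩
      ⟨d₂ ^ 2 - 4 * a₁ ^ 2, by linear_combination h1 - 4 * h2⟩ with rfl | rfl
    · rw [hx₂, hy₁, hy₂] at h1
      omega
    · rw [hx₂, hy₁, hy₂] at h1
      omega
  · obtain ⟨k, h1, h2⟩ := exists_quot (x := 4 * a₂ ^ 2 - 3 * d₁ ^ 2) (y := 5 * a₂ ^ 2 - 4 * d₁ ^ 2)
      hd₂ c₁ (by linear_combination hcase)
    have hk : k = 1 := by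
      rcases hunit k ⟨4 * d₂ ^ 2 - 3 * a₁ ^ 2, by linear_combination 4 * h1 - 3 * h2⟩
        ⟨5 * d₂ ^ 2 - 4 * a₁ ^ 2, by linear_combination 5 * h1 - 4 * h2⟩ with h3 | rfl
      · exact h3
      · exfalso
        rw [hx₂, hy₁, hy₂] at h1
        omega
    rw [hk, one_mul] at h1 h2
    obtain ⟨n, m, hn, hm⟩ := exists_half (a := a₂) (b := a₁) (c := 4 * (x₂ - x₁))
      (by rw [hx₂, hx₁]; ring)
    have e₂ : a₂ = m + n := by linarith
    have e₁ : a₁ = m - n := by linarith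
    have hmn : m * n = d₁ ^ 2 - a₂ ^ 2 := by
      rw [e₂, e₁] at h2
      rw [e₂]
      linarith [show 4 * (m * n) = 4 * (d₁ ^ 2 - (m + n) ^ 2) by linear_combination h2]
    have hsq : m ^ 2 + n ^ 2 = 3 * a₂ ^ 2 - 2 * d₁ ^ 2 := by
      have h3 : a₂ ^ 2 = m ^ 2 + 2 * (m * n) + n ^ 2 := by rw [e₂]; ring
      linarith
    have hβ : m ^ 2 + 3 * m * n + n ^ 2 = d₁ ^ 2 := by linear_combination hsq + 3 * hmn
    refine ⟨m, n, d₂, d₁, ?_, by linear_combination hsq - hmn + h1, hβ, ?_, fun h0 => ?_⟩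
    · refine isCoprime_of_prime fun q hq h3 h4 => ?_
      have h5 : q ∣ d₁ ^ 2 := by
        rw [← hβ]
        exact dvd_add (dvd_add (Dvd.dvd.pow h3 (by norm_num)) (h4.mul_left _))
          (Dvd.dvd.pow h4 (by norm_num))
      exact hq.not_isUnit (c₂.isUnit_of_dvd' (e₂ ▸ dvd_add h3 h4) (hq.dvd_of_dvd_pow h5))
    · have ha₁ : 0 < a₁ ^ 2 := by
        have : a₁ ≠ 0 := by rintro rfl; exact absurd oa₁ (by decide)
        positivity
      have ha₂ : 0 < a₂ ^ 2 := by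
        have : a₂ ≠ 0 := by rintro rfl; exact absurd oa₂ (by decide)
        positivity
      have hd₁ : 0 < d₁ ^ 2 := by
        have : d₁ ≠ 0 := by rintro rfl; exact absurd od₁ (by decide)
        positivity
      have hd₂' : 0 < d₂ ^ 2 := by positivity
      have h3 : 2 * (m ^ 2 + n ^ 2) = a₁ ^ 2 + a₂ ^ 2 := by rw [e₁, e₂]; ring
      have h4 : 0 < d₁ ^ 2 * d₂ ^ 2 := mul_pos hd₁ hd₂'
      have h5 : 0 ≤ (a₁ ^ 2 - 1) * (a₂ ^ 2 - 1) := mul_nonneg (by omega) (by omega)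
      have h6 : 1 ≤ a₁ ^ 2 * a₂ ^ 2 := Int.add_one_le_iff.mpr (mul_pos ha₁ ha₂)
      rw [mul_pow, mul_pow]
      nlinarith
    · have h3 : d₁ ^ 2 = a₂ ^ 2 := by rw [hmn] at h0; linarith
      rw [mul_pow, mul_pow]
      have h4 : a₁ ^ 2 = a₂ ^ 2 := by linear_combination -h2 - 4 * h3
      have h5 : d₂ ^ 2 = a₂ ^ 2 := by linear_combination -h1 - 3 * h3
      rw [h3, h4, h5]

/-- The step, with parity: `A D` odd. -/
theorem core15 {A B C D : ℤ} (hA : Odd A) (hD : Odd D) (hAD : IsCoprime A D)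
    (hB : B ≠ 0) (hC : C ≠ 0) (h1 : A ^ 2 - D ^ 2 = B * C) (h2 : B ^ 2 - C ^ 2 = A * D) :
    ∃ m n α β : ℤ, IsCoprime m n ∧ m ^ 2 - m * n + n ^ 2 = α ^ 2 ∧
      m ^ 2 + 3 * m * n + n ^ 2 = β ^ 2 ∧ m ^ 2 + n ^ 2 < A ^ 2 * C ^ 2 + B ^ 2 * D ^ 2 ∧
      m * n ≠ 0 := by
  obtain ⟨m, n, α, β, h3, h4, h5, h6, h7⟩ := step15 (K := 2 * C ^ 2 + A * D) hA hD hAD (by
    have h3 : (A ^ 2 - D ^ 2) ^ 2 = B ^ 2 * C ^ 2 := by rw [h1]; ring
    linear_combination -4 * h3 - 4 * C ^ 2 * h2)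
  refine ⟨m, n, α, β, h3, h4, h5, h6.trans_le ?_, fun h0 => ?_⟩
  · have hC2 : 0 < C ^ 2 := by positivity
    have hB2 : 0 < B ^ 2 := by positivity
    have hC2' : 1 ≤ C ^ 2 := hC2
    have hB2' : 1 ≤ B ^ 2 := hB2
    nlinarith [sq_nonneg A, sq_nonneg D, mul_nonneg (sq_nonneg A) (sub_nonneg.mpr hC2'),
      mul_nonneg (sq_nonneg D) (sub_nonneg.mpr hB2')]
  · have h8 := h7 h0
    rw [h8, sub_self] at h1
    exact mul_ne_zero hB hC h1.symm

/-- The step without parity and with a sign. -/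
theorem full15 {A B C D ε : ℤ} (hε : ε = 1 ∨ ε = -1) (hAD : IsCoprime A D) (hBC : IsCoprime B C)
    (hA : A ≠ 0) (hB : B ≠ 0) (hC : C ≠ 0) (hD : D ≠ 0) (h1 : A ^ 2 - D ^ 2 = ε * (B * C))
    (h2 : B ^ 2 - C ^ 2 = ε * (A * D)) :
    ∃ m n α β : ℤ, IsCoprime m n ∧ m ^ 2 - m * n + n ^ 2 = α ^ 2 ∧
      m ^ 2 + 3 * m * n + n ^ 2 = β ^ 2 ∧ m ^ 2 + n ^ 2 < A ^ 2 * C ^ 2 + B ^ 2 * D ^ 2 ∧
      m * n ≠ 0 := by
  wlog hε1 : ε = 1 generalizing A B C D ε with H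
  · have hε' : ε = -1 := hε.resolve_left hε1
    rw [hε'] at h1 h2
    obtain ⟨m, n, α, β, h3, h4, h5, h6, h7⟩ := H (A := D) (B := C) (C := B) (D := A) (ε := 1)
      (Or.inl rfl) hAD.symm hBC.symm hD hC hB hA (by linear_combination -h1)
      (by linear_combination -h2) rfl
    exact ⟨m, n, α, β, h3, h4, h5, by linarith, h7⟩
  rw [hε1, one_mul] at h1 h2
  by_cases hodd : Odd (A * D)
  · obtain ⟨h3, h4⟩ := Int.odd_mul.mp hodd
    exact core15 h3 h4 hAD hB hC h1 h2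
  · have hodd' : Odd (B * C) := by
      rw [← h1]
      rw [Int.not_odd_iff_even, Int.even_mul] at hodd
      rcases hodd with h3 | h3
      · have h4 : ¬ Even D := fun h4 => by
          have := hAD.isUnit_of_dvd' (even_iff_two_dvd.mp h3) (even_iff_two_dvd.mp h4)
          exact Int.prime_two.not_isUnit this
        exact (h3.pow_of_ne_zero (by norm_num)).sub_odd (Int.not_even_iff_odd.mp h4).pow
      · have h4 : ¬ Even A := fun h4 => by
          have := hAD.isUnit_of_dvd' (even_iff_two_dvd.mp h4) (even_iff_two_dvd.mp h3)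
          exact Int.prime_two.not_isUnit this
        exact (Int.not_even_iff_odd.mp h4).pow.sub_even (h3.pow_of_ne_zero (by norm_num))
    obtain ⟨h3, h4⟩ := Int.odd_mul.mp hodd'
    obtain ⟨m, n, α, β, h5, h6, h7, h8, h9⟩ := core15 h3 h4 hBC hA hD h2 h1
    exact ⟨m, n, α, β, h5, h6, h7, by linarith, h9⟩

/-- **Descent**: for coprime `m`, `n` with `m n ≠ 0` the numbers `m ^ 2 - m n + n ^ 2` and
`m ^ 2 + 3 m n + n ^ 2` are not both squares. -/
theorem desc15 {m n α β : ℤ} (h : IsCoprime m n) (h1 : m ^ 2 - m * n + n ^ 2 = α ^ 2)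
    (h2 : m ^ 2 + 3 * m * n + n ^ 2 = β ^ 2) : m * n = 0 := by
  induction hN : (m ^ 2 + n ^ 2).natAbs using Nat.strong_induction_on generalizing m n α β with
  | _ N ih =>
  by_contra hmn
  have hm : m ≠ 0 := left_ne_zero_of_mul hmn
  have hn : n ≠ 0 := right_ne_zero_of_mul hmn
  obtain ⟨u, v, hu, hv⟩ := exists_half (a := β) (b := α) (c := 2 * (m * n))
    (by rw [← h1, ← h2]; ring)
  have huv : u * v = m * n := by
    have h3 : (β - α) * (β + α) = 4 * (m * n) := by linear_combination h1 - h2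
    rw [hu, hv] at h3
    linarith
  have hα : α = v - u := by linarith
  have hcop : IsCoprime u v := isCoprime_of_prime fun q hq h3 h4 => by
    have h5 : q ∣ α ^ 2 := by
      rw [hα]
      exact Dvd.dvd.pow (dvd_sub h4 h3) (by norm_num)
    rw [← h1] at h5
    have h6 : q ∣ m * n := huv ▸ h3.mul_right v
    rcases hq.dvd_mul.mp h6 with h7 | h7
    · have h8 : q ∣ n ^ 2 :=
        (dvd_add_right (dvd_sub (Dvd.dvd.pow h7 (by norm_num)) (h7.mul_right n))).mp h5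
      exact hq.not_isUnit (h.isUnit_of_dvd' h7 (hq.dvd_of_dvd_pow h8))
    · have h8 : q ∣ m ^ 2 := by
        have h9 : m ^ 2 - m * n + n ^ 2 = m ^ 2 + n * (n - m) := by ring
        rw [h9] at h5
        exact (dvd_add_left (h7.mul_right _)).mp h5
      exact hq.not_isUnit (h.isUnit_of_dvd' (hq.dvd_of_dvd_pow h8) h7)
  obtain ⟨A, B, C, D, rfl, rfl, rfl, rfl⟩ := four_numbers hm huv
  have hA : A ≠ 0 := left_ne_zero_of_mul hm
  have hC : C ≠ 0 := right_ne_zero_of_mul hm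
  have hB : B ≠ 0 := left_ne_zero_of_mul hn
  have hD : D ≠ 0 := right_ne_zero_of_mul hn
  have cAB : IsCoprime A B := h.of_mul_left_left.of_mul_right_left
  have cAD : IsCoprime A D := h.of_mul_left_left.of_mul_right_right
  have cBC : IsCoprime B C := h.of_mul_left_right.of_mul_right_left.symm
  have cCD : IsCoprime C D := h.of_mul_left_right.of_mul_right_right
  have key : (A ^ 2 - D ^ 2) * (B ^ 2 - C ^ 2) = A * B * C * D := by
    rw [hα] at h1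
    linear_combination -h1
  have hkey0 : (A ^ 2 - D ^ 2) * (B ^ 2 - C ^ 2) ≠ 0 := by
    rw [key]
    exact mul_ne_zero (mul_ne_zero (mul_ne_zero hA hB) hC) hD
  have d1 : A ^ 2 - D ^ 2 ∣ B * C := by
    have c1 : IsCoprime (A ^ 2 - D ^ 2) A := by
      have := (cAD.symm.pow_left (m := 2)).neg_left.add_mul_left_left A
      rwa [show -D ^ 2 + A * A = A ^ 2 - D ^ 2 by ring] at this
    have c2 : IsCoprime (A ^ 2 - D ^ 2) D := by
      have := (cAD.pow_left (m := 2)).add_mul_left_left (-D)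
      rwa [show A ^ 2 + D * -D = A ^ 2 - D ^ 2 by ring] at this
    refine (c1.mul_right c2).dvd_of_dvd_mul_left ?_
    exact ⟨B ^ 2 - C ^ 2, by rw [key]; ring⟩
  have d2 : B ^ 2 - C ^ 2 ∣ A * D := by
    have c1 : IsCoprime (B ^ 2 - C ^ 2) B := by
      have := (cBC.symm.pow_left (m := 2)).neg_left.add_mul_left_left B
      rwa [show -C ^ 2 + B * B = B ^ 2 - C ^ 2 by ring] at this
    have c2 : IsCoprime (B ^ 2 - C ^ 2) C := by
      have := (cBC.pow_left (m := 2)).add_mul_left_left (-C)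
      rwa [show B ^ 2 + C * -C = B ^ 2 - C ^ 2 by ring] at this
    refine (c1.mul_right c2).dvd_of_dvd_mul_left ?_
    exact ⟨A ^ 2 - D ^ 2, by rw [mul_comm (B ^ 2 - C ^ 2), key]; ring⟩
  obtain ⟨k, hk⟩ := d1
  obtain ⟨l, hl⟩ := d2
  have hkl : k * l = 1 := by
    have h3 : (A ^ 2 - D ^ 2) * (B ^ 2 - C ^ 2) * (k * l) =
        (A ^ 2 - D ^ 2) * (B ^ 2 - C ^ 2) * 1 := by
      rw [mul_one]
      calc (A ^ 2 - D ^ 2) * (B ^ 2 - C ^ 2) * (k * l)
          = ((A ^ 2 - D ^ 2) * k) * ((B ^ 2 - C ^ 2) * l) := by ring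
        _ = (A ^ 2 - D ^ 2) * (B ^ 2 - C ^ 2) := by rw [← hk, ← hl, key]; ring
    exact mul_left_cancel₀ hkey0 h3
  have hkl' : (k = 1 ∨ k = -1) ∧ l = k := by
    rcases Int.eq_one_or_neg_one_of_mul_eq_one hkl with h3 | h3
    · rw [h3, one_mul] at hkl
      exact ⟨Or.inl h3, by rw [hkl, h3]⟩
    · rw [h3] at hkl
      exact ⟨Or.inr h3, by linarith⟩
  obtain ⟨hk1, rfl⟩ := hkl'
  have hll : l * l = 1 := hkl
  obtain ⟨m', n', α', β', h3, h4, h5, h6, h7⟩ := full15 (ε := l) hk1 cAD cBC hA hB hC hD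
    (by rw [hk]; linear_combination -(A ^ 2 - D ^ 2) * hll)
    (by rw [hl]; linear_combination -(B ^ 2 - C ^ 2) * hll)
  refine h7 (ih (m' ^ 2 + n' ^ 2).natAbs ?_ h3 h4 h5 rfl)
  rw [← hN]
  have h8 : 0 ≤ m' ^ 2 + n' ^ 2 := by positivity
  have h9 : (A * C) ^ 2 + (B * D) ^ 2 = A ^ 2 * C ^ 2 + B ^ 2 * D ^ 2 := by ring
  rw [h9]
  omega

/-- **The curve `w ^ 2 = (v ^ 2 + 3 v + 1) (v ^ 2 - v + 1)`** has no rational point with `v ≠ 0`. -/
theorem no_sq15 {v w : ℚ} (h : (v ^ 2 + 3 * v + 1) * (v ^ 2 - v + 1) = w ^ 2) : v = 0 := by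
  set m : ℤ := v.num with hm
  set n : ℤ := (v.den : ℤ) with hn
  have hn0 : 0 < n := by rw [hn]; exact_mod_cast v.den_pos
  have hnq : (n : ℚ) ≠ 0 := by exact_mod_cast hn0.ne'
  have hv : v = m / n := by rw [hm, hn]; exact (Rat.num_div_den v).symm
  have hmn : IsCoprime m n := by
    rw [hm, hn, Int.isCoprime_iff_gcd_eq_one]
    exact v.reduced
  have h1 : (w * n ^ 2) ^ 2 =
      (((m ^ 2 + 3 * m * n + n ^ 2) * (m ^ 2 - m * n + n ^ 2) : ℤ) : ℚ) := by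
    rw [mul_pow, ← h, hv]
    push_cast
    field_simp
  obtain ⟨z, hz⟩ := exists_sq_of_rat h1
  have hodd : ¬ (2 : ℤ) ∣ m ^ 2 - m * n + n ^ 2 := by
    intro h2
    have h3 : ∀ a b : ZMod 2, a ^ 2 - a * b + b ^ 2 = 0 → a = 0 ∧ b = 0 := by decide
    have h4 := h3 (m : ZMod 2) (n : ZMod 2) (by
      have := (ZMod.intCast_zmod_eq_zero_iff_dvd _ 2).mpr h2
      push_cast at this
      exact this)
    exact Int.prime_two.not_isUnit (hmn.isUnit_of_dvd'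
      ((ZMod.intCast_zmod_eq_zero_iff_dvd _ 2).mp h4.1)
      ((ZMod.intCast_zmod_eq_zero_iff_dvd _ 2).mp h4.2))
  have hcop : IsCoprime (m ^ 2 + 3 * m * n + n ^ 2) (m ^ 2 - m * n + n ^ 2) := by
    refine isCoprime_of_prime fun q hq h2 h3 => ?_
    have h4 : q ∣ 2 ^ 2 * (m * n) := by
      have := dvd_sub h2 h3
      rwa [show m ^ 2 + 3 * m * n + n ^ 2 - (m ^ 2 - m * n + n ^ 2) = 2 ^ 2 * (m * n) by ring]
        at this
    rcases hq.dvd_mul.mp h4 with h5 | h5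
    · have h6 : q ∣ 2 := hq.dvd_of_dvd_pow h5
      exact hodd (((hq.dvd_prime_iff_associated Int.prime_two).mp h6).symm.dvd.trans h3)
    · rcases hq.dvd_mul.mp h5 with h7 | h7
      · have h8 : q ∣ n ^ 2 :=
          (dvd_add_right (dvd_sub (Dvd.dvd.pow h7 (by norm_num)) (h7.mul_right n))).mp h3
        exact hq.not_isUnit (hmn.isUnit_of_dvd' h7 (hq.dvd_of_dvd_pow h8))
      · have h8 : q ∣ m ^ 2 := by
          have h9 : m ^ 2 - m * n + n ^ 2 = m ^ 2 + n * (n - m) := by ring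
          rw [h9] at h3
          exact (dvd_add_left (h7.mul_right _)).mp h3
        exact hq.not_isUnit (hmn.isUnit_of_dvd' (hq.dvd_of_dvd_pow h8) h7)
  have hpos : 0 < m ^ 2 - m * n + n ^ 2 := by
    nlinarith [sq_nonneg (2 * m - n), hn0]
  obtain ⟨α, hα⟩ := Int.sq_of_isCoprime hcop.symm
    (show (m ^ 2 - m * n + n ^ 2) * (m ^ 2 + 3 * m * n + n ^ 2) = z ^ 2 by rw [← hz]; ring)
  obtain ⟨β, hβ⟩ := Int.sq_of_isCoprime hcop hz
  have hα' : m ^ 2 - m * n + n ^ 2 = α ^ 2 := by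
    rcases hα with h2 | h2
    · exact h2
    · have := sq_nonneg α
      omega
  have hβ' : m ^ 2 + 3 * m * n + n ^ 2 = β ^ 2 := by
    rcases hβ with h2 | h2
    · exact h2
    · exfalso
      rw [h2, hα'] at hz
      have hα0 : α ≠ 0 := by
        rintro rfl
        rw [hα'] at hpos
        norm_num at hpos
      have hβ0 : β ≠ 0 := by
        rintro rfl
        -- `m ^ 2 + 3 m n + n ^ 2 = 0` is impossible
        have h4 : (2 * m + 3 * n) ^ 2 = 5 * n ^ 2 := by linear_combination 4 * h2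
        have h5 : IsSquare (5 : ℚ) := by
          refine ⟨(2 * m + 3 * n) / n, ?_⟩
          have h6 : ((2 * m + 3 * n : ℚ)) ^ 2 = 5 * n ^ 2 := by exact_mod_cast h4
          field_simp
          linear_combination -h6
        have h7 : ¬ IsSquare (5 : ℤ) := by
          rintro ⟨r, hr⟩
          have h8 : r ≤ 2 := by nlinarith
          have h9 : -2 ≤ r := by nlinarith
          interval_cases r <;> omega
        exact h7 (Rat.isSquare_intCast_iff.mp (by exact_mod_cast h5))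
      have h3 : 0 < β ^ 2 * α ^ 2 := by positivity
      nlinarith [sq_nonneg z]
  have h2 := desc15 hmn hα' hβ'
  have hm0 : m = 0 := (mul_eq_zero.mp h2).resolve_right hn0.ne'
  rw [hv, hm0, Int.cast_zero, zero_div]

end Fermat.Agent.Cor.Small
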