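import Fermat.Agent.Corollaries.K4.Small.Split

/-!
# `m⁴ - 11 m² e² + 32 e⁴ = w²` and `y² = Z (Z² - 11 Z + 32)`

`desc7`: the coprime solutions have `e = 0` or `m² = 4`, `e² = 1`; `no_sq7`: the rational points
of `y² = Z (Z² - 11 Z + 32)` have `Z = 0, 4, 8`.
-/

set_option autoImplicit false

namespace Fermat.Agent.Cor.Small.D7

theorem dvd_of_sq_dvd {q c f : ℤ} (hq : Prime q) (hc : Prime c) (h : q * q ∣ c * f ^ 4) :
    q ∣ f := by
  by_contra hqf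
  have h1 : IsCoprime (q * q) (f ^ 4) := by
    have h2 : IsCoprime q f := (Irreducible.coprime_iff_not_dvd hq.irreducible).mpr hqf
    exact (h2.pow_right (n := 4)).mul_left (h2.pow_right (n := 4))
  have h3 : q * q ∣ c := h1.dvd_of_dvd_mul_right h
  exact hq.not_isUnit (hc.irreducible.squarefree q h3)

theorem exists_sq_odd {x : ℤ} (hx : Odd x) : ∃ a : ℤ, x ^ 2 = 8 * a + 1 := by
  obtain ⟨j, rfl⟩ := hx
  obtain ⟨t, ht⟩ := Int.even_mul_succ_self j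
  exact ⟨t, by linear_combination 4 * ht⟩

theorem prime7 : Prime (7 : ℤ) := by
  rw [← Nat.cast_ofNat (n := 7), ← Nat.prime_iff_prime_int]
  norm_num

/-- the quartic `4 k⁴ - 11 k² e² + 8 e⁴`: the first parity -/
theorem odd_of_eqA {k e w : ℤ} (he : Odd e)
    (hw : 4 * k ^ 4 - 11 * k ^ 2 * e ^ 2 + 8 * e ^ 4 = w ^ 2) : Odd k := by
  rcases Int.even_or_odd k with hk | hk
  swap
  · exact hk
  exfalso
  obtain ⟨c, rfl⟩ := hk
  have hw2 : Even w := by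
    have h1 : Even (w ^ 2) := by
      rw [← hw]
      exact ⟨2 * (c + c) ^ 4 - 22 * c ^ 2 * e ^ 2 + 4 * e ^ 4, by ring⟩
    exact (Int.even_pow.mp h1).1
  obtain ⟨v, rfl⟩ := hw2
  have h2 : 16 * c ^ 4 - 11 * c ^ 2 * e ^ 2 + 2 * e ^ 4 = v ^ 2 := by linarith
  obtain ⟨b, hb⟩ := exists_sq_odd he
  have hv : (∃ y : ℤ, v ^ 2 = 4 * y) ∨ ∃ z : ℤ, v ^ 2 = 8 * z + 1 := by
    rcases Int.even_or_odd v with ⟨y, hy⟩ | hv
    · exact Or.inl ⟨y ^ 2, by rw [hy]; ring⟩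
    · exact Or.inr (exists_sq_odd hv)
  rcases Int.even_or_odd c with ⟨x, hx⟩ | hc
  · have h4 : 16 * c ^ 4 - 11 * c ^ 2 * e ^ 2 + 2 * e ^ 4 =
        4 * (64 * x ^ 4 - 11 * (x ^ 2 * (8 * b + 1)) + 32 * b ^ 2 + 8 * b) + 2 := by
      have h5 : e ^ 4 = (8 * b + 1) ^ 2 := by rw [← hb]; ring
      rw [h5, hb, hx]; ring
    rcases hv with ⟨y, hy⟩ | ⟨z, hz⟩
    · omega
    · omega
  · obtain ⟨a, ha⟩ := exists_sq_odd hc
    have h4 : 16 * c ^ 4 - 11 * c ^ 2 * e ^ 2 + 2 * e ^ 4 =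
        8 * (128 * a ^ 2 + 32 * a - 88 * (a * b) - 11 * a - 11 * b + 16 * b ^ 2 + 4 * b) + 7 := by
      have h5 : e ^ 4 = (8 * b + 1) ^ 2 := by rw [← hb]; ring
      have h6 : c ^ 4 = (8 * a + 1) ^ 2 := by rw [← ha]; ring
      rw [h5, h6, hb, ha]; ring
    rcases hv with ⟨y, hy⟩ | ⟨z, hz⟩
    · omega
    · omega

/-- **the quartic `4 k⁴ - 11 k² e² + 8 e⁴ = w²`**, `e` odd: only `k² = e² = 1` -/
theorem descA_aux (n : ℕ) : ∀ {k e w : ℤ}, e.natAbs ≤ n → IsCoprime k e → Odd e →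
    4 * k ^ 4 - 11 * k ^ 2 * e ^ 2 + 8 * e ^ 4 = w ^ 2 → k ^ 2 = 1 ∧ e ^ 2 = 1 := by
  induction n using Nat.strong_induction_on with
  | _ n ih =>
  intro k e w hn hcop he hw
  have hk : Odd k := odd_of_eqA he hw
  have he0 : e ≠ 0 := by rintro rfl; exact absurd he (by decide)
  -- WLOG `0 ≤ w`
  obtain ⟨w, hw0, hw⟩ : ∃ w : ℤ, 0 ≤ w ∧
      4 * k ^ 4 - 11 * k ^ 2 * e ^ 2 + 8 * e ^ 4 = w ^ 2 := ⟨|w|, abs_nonneg w, by rw [hw, sq_abs]⟩
  set P : ℤ := 4 * w - 8 * k ^ 2 + 11 * e ^ 2 with hP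
  set Q : ℤ := 4 * w + 8 * k ^ 2 - 11 * e ^ 2 with hQ
  have hPQ : P * Q = 7 ^ 1 * e ^ 4 := by rw [hP, hQ]; linear_combination (-16) * hw
  have hPodd : Odd P := by
    rw [hP]
    have h1 : Odd (11 * e ^ 2) := (by decide : Odd (11 : ℤ)).mul he.pow
    have h2 : Even (4 * w - 8 * k ^ 2) := ⟨2 * w - 4 * k ^ 2, by ring⟩
    exact h2.add_odd h1
  have hcPQ : IsCoprime P Q := isCoprime_of_prime fun q hq h1 h2 => by
    have h3 : q ∣ e := dvd_of_sq_dvd hq prime7 (by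
      have := mul_dvd_mul h1 h2
      rwa [hPQ, pow_one] at this)
    have h4 : q ∣ 16 * k ^ 2 := by
      have h5 : 16 * k ^ 2 = (Q - P) + 22 * e * e := by rw [hP, hQ]; ring
      rw [h5]
      exact dvd_add (dvd_sub h2 h1) (Dvd.dvd.mul_left h3 _)
    have h6 : q ∣ 2 ∨ q ∣ k := by
      have h7 : (16 : ℤ) * k ^ 2 = 2 ^ 4 * k ^ 2 := by norm_num
      rw [h7] at h4
      rcases hq.dvd_or_dvd h4 with h | h
      · exact Or.inl (hq.dvd_of_dvd_pow h)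
      · exact Or.inr (hq.dvd_of_dvd_pow h)
    rcases h6 with h6 | h6
    · obtain ⟨j, hj⟩ := hPodd
      have h8 : q ∣ 1 := by
        have h9 : (1 : ℤ) = P - 2 * j := by rw [hj]; ring
        rw [h9]
        exact dvd_sub h1 (Dvd.dvd.mul_right h6 _)
      exact hq.not_dvd_one h8
    · exact hq.not_isUnit (hcop.isUnit_of_dvd' h6 h3)
  obtain ⟨g, h, ε, hgh, hcgh, hε, hcase⟩ := split4 prime7 1 he0 hcPQ hPQ
  have hgodd : Odd g := (Int.odd_mul.mp (hgh ▸ he)).1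
  have hhodd : Odd h := (Int.odd_mul.mp (hgh ▸ he)).2
  have hg0 : g ≠ 0 := by rintro rfl; exact absurd hgodd (by decide)
  have hh0 : h ≠ 0 := by rintro rfl; exact absurd hhodd (by decide)
  have hg4 : 0 < g ^ 4 := by positivity
  have hh4 : 0 < h ^ 4 := by positivity
  have hsum : P + Q = 8 * w := by rw [hP, hQ]; ring
  have hdiff : Q - P = 16 * k ^ 2 - 22 * e ^ 2 := by rw [hP, hQ]; ring
  have hε1 : ε = 1 := by
    rcases hε with h1 | h1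
    · exact h1
    · exfalso
      rcases hcase with ⟨h2, h3⟩ | ⟨h2, h3⟩ <;> rw [h1] at h2 h3 <;> nlinarith
  rw [hε1, one_mul, one_mul, pow_one] at hcase
  obtain ⟨a, ha⟩ := exists_sq_odd hgodd
  obtain ⟨b, hb⟩ := exists_sq_odd hhodd
  have h16 : 16 * k ^ 2 = g ^ 4 - 7 * h ^ 4 + 22 * g ^ 2 * h ^ 2 := by
    rcases hcase with ⟨h2, h3⟩ | ⟨h2, h3⟩
    · exfalso
      have h4 : 16 * k ^ 2 = 7 * h ^ 4 - g ^ 4 + 22 * (g ^ 2 * h ^ 2) := by
        have : e ^ 2 = g ^ 2 * h ^ 2 := by rw [hgh]; ring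
        linarith [this]
      have h5 : 7 * h ^ 4 - g ^ 4 + 22 * (g ^ 2 * h ^ 2) =
          7 * (8 * b + 1) ^ 2 - (8 * a + 1) ^ 2 + 22 * ((8 * a + 1) * (8 * b + 1)) := by
        rw [← ha, ← hb]; ring
      have h6 : 16 * (k ^ 2 - (28 * b ^ 2 + 7 * b - 4 * a ^ 2 - a + 88 * (a * b) + 11 * a + 11 * b
          + 1)) = 12 := by linear_combination h4 + h5
      omega
    · have : e ^ 2 = g ^ 2 * h ^ 2 := by rw [hgh]; ring
      linarith [this]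
  obtain ⟨c, hc⟩ := hk
  set R : ℤ := a + 11 * b - c + 1 with hR
  set S : ℤ := a + 11 * b + c + 2 with hS
  have hR8 : 8 * R = g ^ 2 + 11 * h ^ 2 - 4 * k := by rw [hR, ha, hb, hc]; ring
  have hS8 : 8 * S = g ^ 2 + 11 * h ^ 2 + 4 * k := by rw [hS, ha, hb, hc]; ring
  have hRS : R * S = 2 ^ 1 * h ^ 4 := by
    have h1 : 64 * (R * S) = 64 * (2 ^ 1 * h ^ 4) := by
      linear_combination (8 * S) * hR8 + (g ^ 2 + 11 * h ^ 2 - 4 * k) * hS8 - h16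
    linarith
  have hcRS : IsCoprime R S := isCoprime_of_prime fun q hq h1 h2 => by
    have h3 : q ∣ h := dvd_of_sq_dvd hq Int.prime_two (by
      have := mul_dvd_mul h1 h2
      rwa [hRS, pow_one] at this)
    have h4 : q ∣ g ^ 2 := by
      have h5 : g ^ 2 = 4 * (R + S) - 11 * h * h := by linarith
      rw [h5]
      exact dvd_sub (Dvd.dvd.mul_left (dvd_add h1 h2) _) (Dvd.dvd.mul_left h3 _)
    exact hq.not_isUnit (hcgh.isUnit_of_dvd' (hq.dvd_of_dvd_pow h4) h3)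
  obtain ⟨s, r, ε', hsr, hcsr, hε', hcase'⟩ := split4 Int.prime_two 1 hh0 hcRS hRS
  have hsum' : 4 * (R + S) = g ^ 2 + 11 * h ^ 2 := by linarith
  have hsodd : Odd s := (Int.odd_mul.mp (hsr ▸ hhodd)).1
  have hrodd : Odd r := (Int.odd_mul.mp (hsr ▸ hhodd)).2
  have hs0 : s ≠ 0 := by rintro rfl; exact absurd hsodd (by decide)
  have hr0 : r ≠ 0 := by rintro rfl; exact absurd hrodd (by decide)
  have hs4 : 0 < s ^ 4 := by positivity
  have hr4 : 0 < r ^ 4 := by positivity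
  have hε1' : ε' = 1 := by
    rcases hε' with h1 | h1
    · exact h1
    · exfalso
      have hg2 : 0 < g ^ 2 := by positivity
      have hh2 : 0 < h ^ 2 := by positivity
      rcases hcase' with ⟨h2, h3⟩ | ⟨h2, h3⟩ <;> rw [h1] at h2 h3 <;> nlinarith
  rw [hε1', one_mul, one_mul, pow_one] at hcase'
  have hnew : 4 * s ^ 4 - 11 * s ^ 2 * r ^ 2 + 8 * r ^ 4 = g ^ 2 := by
    have h1 : h ^ 2 = s ^ 2 * r ^ 2 := by rw [hsr]; ring
    rcases hcase' with ⟨h2, h3⟩ | ⟨h2, h3⟩ <;> linarith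
  have he2 : e ^ 2 = g ^ 2 * s ^ 2 * r ^ 2 := by rw [hgh, hsr]; ring
  have hfin : g ^ 2 = 1 → s ^ 2 = 1 → r ^ 2 = 1 → k ^ 2 = 1 ∧ e ^ 2 = 1 := by
    intro h1 h2 h3
    have h4 : h ^ 2 = 1 := by rw [hsr, mul_pow, h2, h3]; norm_num
    refine ⟨?_, by rw [he2, h1, h2, h3]; norm_num⟩
    have h5 : g ^ 4 = 1 := by rw [show g ^ 4 = (g ^ 2) ^ 2 by ring, h1]; norm_num
    have h6 : h ^ 4 = 1 := by rw [show h ^ 4 = (h ^ 2) ^ 2 by ring, h4]; norm_num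
    rw [h5, h6, h1, h4] at h16
    linarith
  rcases lt_or_ge r.natAbs e.natAbs with hlt | hge
  · obtain ⟨h1, h2⟩ := ih r.natAbs (lt_of_lt_of_le hlt hn) le_rfl hcsr hrodd hnew
    refine hfin ?_ h1 h2
    rw [← hnew, show s ^ 4 = (s ^ 2) ^ 2 by ring, show r ^ 4 = (r ^ 2) ^ 2 by ring, h1, h2]
    norm_num
  · have h1 : e ^ 2 ≤ r ^ 2 := Int.natAbs_le_iff_sq_le.mp hge
    have hg2 : 0 < g ^ 2 := by positivity
    have hs2 : 0 < s ^ 2 := by positivity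
    have hr2 : 0 < r ^ 2 := by positivity
    have hgs : g ^ 2 * s ^ 2 ≤ 1 := by
      by_contra hlt
      push Not at hlt
      nlinarith
    have hg1 : g ^ 2 = 1 := by nlinarith
    have hs1 : s ^ 2 = 1 := by nlinarith
    refine hfin hg1 hs1 ?_
    have h2 : (8 * r ^ 2 - 3) * (r ^ 2 - 1) = 0 := by
      rw [hg1, show s ^ 4 = (s ^ 2) ^ 2 by ring, hs1] at hnew
      linear_combination hnew
    rcases mul_eq_zero.mp h2 with h3 | h3
    · omega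
    · linarith

theorem descA {k e w : ℤ} (hcop : IsCoprime k e) (he : Odd e)
    (hw : 4 * k ^ 4 - 11 * k ^ 2 * e ^ 2 + 8 * e ^ 4 = w ^ 2) : k ^ 2 = 1 ∧ e ^ 2 = 1 :=
  descA_aux _ le_rfl hcop he hw

/-- both odd is impossible -/
theorem not_both_odd {m e w : ℤ} (hm : Odd m) (he : Odd e)
    (hw : m ^ 4 - 11 * m ^ 2 * e ^ 2 + 32 * e ^ 4 = w ^ 2) : False := by
  obtain ⟨a, ha⟩ := exists_sq_odd hm
  obtain ⟨b, hb⟩ := exists_sq_odd he
  have h1 : m ^ 4 - 11 * m ^ 2 * e ^ 2 + 32 * e ^ 4 =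
      (8 * a + 1) ^ 2 - 11 * ((8 * a + 1) * (8 * b + 1)) + 32 * (8 * b + 1) ^ 2 := by
    rw [← ha, ← hb]; ring
  rcases Int.even_or_odd w with ⟨v, hv⟩ | hwo
  · have h2 : 8 * (8 * a ^ 2 + 2 * a - 88 * (a * b) - 11 * a - 11 * b + 256 * b ^ 2 + 64 * b + 4)
        - 10 = 4 * v ^ 2 := by
      have h3 : w ^ 2 = 4 * v ^ 2 := by rw [hv]; ring
      linear_combination h3 + hw - h1
    omega
  · obtain ⟨c, hc⟩ := exists_sq_odd hwo
    have h2 : 8 * (8 * a ^ 2 + 2 * a - 88 * (a * b) - 11 * a - 11 * b + 256 * b ^ 2 + 64 * b + 4)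
        - 10 = 8 * c + 1 := by
      linear_combination hc + hw - h1
    omega

/-- **the descent for `m⁴ - 11 m² e² + 32 e⁴ = w²`** -/
theorem desc7_aux (n : ℕ) : ∀ {m e w : ℤ}, e.natAbs ≤ n → IsCoprime m e →
    m ^ 4 - 11 * m ^ 2 * e ^ 2 + 32 * e ^ 4 = w ^ 2 → e = 0 ∨ (m ^ 2 = 4 ∧ e ^ 2 = 1) := by
  induction n using Nat.strong_induction_on with
  | _ n ih =>
  intro m e w hn hcop hw
  rcases eq_or_ne e 0 with he0 | he0
  · exact Or.inl he0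
  rcases Int.even_or_odd e with ⟨f, hf⟩ | he
  swap
  · rcases Int.even_or_odd m with ⟨k, hk⟩ | hm
    swap
    · exact (not_both_odd hm he hw).elim
    right
    have hw2 : Even w := by
      have h1 : Even (w ^ 2) := by
        rw [← hw, hk]
        exact ⟨8 * k ^ 4 - 22 * k ^ 2 * e ^ 2 + 16 * e ^ 4, by ring⟩
      exact (Int.even_pow.mp h1).1
    obtain ⟨v, hv⟩ := hw2
    have h1 : 4 * k ^ 4 - 11 * k ^ 2 * e ^ 2 + 8 * e ^ 4 = v ^ 2 := by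
      rw [hk, hv] at hw
      linarith
    have hc : IsCoprime k e := by
      rw [hk, ← two_mul] at hcop
      exact hcop.of_mul_left_right
    obtain ⟨h2, h3⟩ := descA hc he h1
    exact ⟨by rw [hk, ← two_mul, mul_pow, h2]; norm_num, h3⟩
  -- `e = 2 f`
  exfalso
  have he2 : e = 2 * f := by rw [hf]; ring
  have hf0 : f ≠ 0 := by rintro rfl; exact he0 (by rw [he2]; ring)
  have hm : Odd m := by
    by_contra h
    rw [Int.not_odd_iff_even] at h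
    obtain ⟨j, hj⟩ := h
    have h1 : (2 : ℤ) ∣ m := ⟨j, by rw [hj]; ring⟩
    have h2 : (2 : ℤ) ∣ e := ⟨f, he2⟩
    exact Int.prime_two.not_isUnit (hcop.isUnit_of_dvd' h1 h2)
  obtain ⟨w, hw0, hw⟩ : ∃ w : ℤ, 0 ≤ w ∧
      m ^ 4 - 11 * m ^ 2 * e ^ 2 + 32 * e ^ 4 = w ^ 2 := ⟨|w|, abs_nonneg w, by rw [hw, sq_abs]⟩
  have hwodd : Odd w := by
    have h1 : Odd (w ^ 2) := by
      rw [← hw, he2]
      have h2 : m ^ 4 - 11 * m ^ 2 * (2 * f) ^ 2 + 32 * (2 * f) ^ 4 =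
          2 * (256 * f ^ 4 - 22 * m ^ 2 * f ^ 2) + m ^ 4 := by ring
      rw [h2]
      exact (even_two_mul _).add_odd hm.pow
    by_contra h
    rw [Int.not_odd_iff_even] at h
    exact (Int.not_even_iff_odd.mpr h1) (h.pow_of_ne_zero (by norm_num))
  obtain ⟨u, hu⟩ := hwodd
  obtain ⟨a, ha⟩ := exists_sq_odd hm
  set P : ℤ := u - 4 * a + 11 * f ^ 2 with hP
  set Q : ℤ := u + 4 * a + 1 - 11 * f ^ 2 with hQ
  have hsum : P + Q = w := by rw [hP, hQ, hu]; ring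
  have hdiff : Q - P = m ^ 2 - 22 * f ^ 2 := by rw [hP, hQ, ha]; ring
  have hPQ : P * Q = 7 ^ 1 * f ^ 4 := by
    have h1 : 4 * (P * Q) = (P + Q) ^ 2 - (Q - P) ^ 2 := by ring
    rw [hsum, hdiff, ← hw, he2] at h1
    linarith
  have hcPQ : IsCoprime P Q := isCoprime_of_prime fun q hq h1 h2 => by
    have h3 : q ∣ f := dvd_of_sq_dvd hq prime7 (by
      have := mul_dvd_mul h1 h2
      rwa [hPQ, pow_one] at this)
    have h4 : q ∣ m ^ 2 := by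
      have h5 : m ^ 2 = (Q - P) + 22 * f * f := by rw [hdiff]; ring
      rw [h5]
      exact dvd_add (dvd_sub h2 h1) (Dvd.dvd.mul_left h3 _)
    exact hq.not_isUnit (hcop.isUnit_of_dvd' (hq.dvd_of_dvd_pow h4)
      (he2 ▸ Dvd.dvd.mul_left h3 _))
  obtain ⟨g, h, ε, hgh, hcgh, hε, hcase⟩ := split4 prime7 1 hf0 hcPQ hPQ
  have hg0 : g ≠ 0 := by rintro rfl; exact hf0 (by rw [hgh, zero_mul])
  have hh0 : h ≠ 0 := by rintro rfl; exact hf0 (by rw [hgh, mul_zero])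
  have hg4 : 0 < g ^ 4 := by positivity
  have hh4 : 0 < h ^ 4 := by positivity
  have hε1 : ε = 1 := by
    rcases hε with h1 | h1
    · exact h1
    · exfalso
      rcases hcase with ⟨h2, h3⟩ | ⟨h2, h3⟩ <;> rw [h1] at h2 h3 <;> linarith
  rw [hε1, one_mul, one_mul, pow_one] at hcase
  have hf2 : f ^ 2 = g ^ 2 * h ^ 2 := by rw [hgh]; ring
  -- parity of `g`, `h`
  have hgpar : (Even g ∧ Odd h) ∨ (Odd g ∧ Even h) := by
    have h1 : g ^ 4 + 7 * h ^ 4 = 2 * u + 1 := by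
      rcases hcase with ⟨h2, h3⟩ | ⟨h2, h3⟩ <;> linarith
    rcases Int.even_or_odd g with hg | hg <;> rcases Int.even_or_odd h with hh | hh
    · exact (by
        obtain ⟨x, hx⟩ := hg.pow_of_ne_zero (n := 4) (by norm_num)
        obtain ⟨y, hy⟩ := hh.pow_of_ne_zero (n := 4) (by norm_num)
        omega)
    · exact Or.inl ⟨hg, hh⟩
    · exact Or.inr ⟨hg, hh⟩
    · exact (by
        obtain ⟨x, hx⟩ := hg.pow (n := 4)
        obtain ⟨y, hy⟩ := hh.pow (n := 4)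
        omega)
  have h16 : m ^ 2 = g ^ 4 - 7 * h ^ 4 + 22 * g ^ 2 * h ^ 2 := by
    rcases hcase with ⟨h2, h3⟩ | ⟨h2, h3⟩
    · exfalso
      have h4 : m ^ 2 = 7 * h ^ 4 - g ^ 4 + 22 * (g ^ 2 * h ^ 2) := by linarith
      rcases hgpar with ⟨⟨x, hx⟩, hh⟩ | ⟨hg, ⟨y, hy⟩⟩
      · obtain ⟨b, hb⟩ := exists_sq_odd hh
        have h5 : 7 * h ^ 4 - g ^ 4 + 22 * (g ^ 2 * h ^ 2) =
            7 * (8 * b + 1) ^ 2 - 16 * x ^ 4 + 22 * ((2 * x) ^ 2 * (8 * b + 1)) := by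
          rw [← hb, hx]; ring
        have h6 : 8 * (a - (56 * b ^ 2 + 14 * b - 2 * x ^ 4 + 88 * (x ^ 2 * b) + 11 * x ^ 2)) = 6 := by
          linear_combination h4 + h5 - ha
        omega
      · obtain ⟨b, hb⟩ := exists_sq_odd hg
        have h5 : 7 * h ^ 4 - g ^ 4 + 22 * (g ^ 2 * h ^ 2) =
            112 * y ^ 4 - (8 * b + 1) ^ 2 + 22 * ((8 * b + 1) * (2 * y) ^ 2) := by
          rw [← hb, hy]; ring
        have h6 : 8 * (a - (14 * y ^ 4 - 8 * b ^ 2 - 2 * b + 88 * (b * y ^ 2) + 11 * y ^ 2)) = -2 := by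
          linear_combination h4 + h5 - ha
        omega
    · linarith
  have hoddG : Odd (g ^ 2 + 11 * h ^ 2) := by
    rcases hgpar with ⟨hg, hh⟩ | ⟨hg, hh⟩
    · exact (hg.pow_of_ne_zero (by norm_num)).add_odd ((by decide : Odd (11 : ℤ)).mul hh.pow)
    · exact hg.pow.add_even ((hh.pow_of_ne_zero (by norm_num)).mul_left _)
  obtain ⟨t, ht⟩ := hoddG
  obtain ⟨c, hc⟩ := hm
  set R : ℤ := t - c with hR
  set S : ℤ := t + c + 1 with hS
  have hR2 : 2 * R = g ^ 2 + 11 * h ^ 2 - m := by rw [hR, ht, hc]; ring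
  have hS2 : 2 * S = g ^ 2 + 11 * h ^ 2 + m := by rw [hS, ht, hc]; ring
  have hRS : R * S = 2 ^ 5 * h ^ 4 := by
    have h1 : 4 * (R * S) = 4 * (2 ^ 5 * h ^ 4) := by
      linear_combination (2 * S) * hR2 + (g ^ 2 + 11 * h ^ 2 - m) * hS2 - h16
    linarith
  have hsum' : R + S = g ^ 2 + 11 * h ^ 2 := by linarith
  have hcRS : IsCoprime R S := isCoprime_of_prime fun q hq h1 h2 => by
    have h3 : q ∣ 2 ^ 5 * h ^ 4 := hRS ▸ Dvd.dvd.mul_right h1 _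
    have h4 : q ∣ g ^ 2 + 11 * h ^ 2 := hsum' ▸ dvd_add h1 h2
    rcases hq.dvd_or_dvd h3 with h5 | h5
    · have h6 : q ∣ 2 := hq.dvd_of_dvd_pow h5
      have h8 : q ∣ 1 := by
        have h9 : (1 : ℤ) = (g ^ 2 + 11 * h ^ 2) - 2 * t := by rw [ht]; ring
        rw [h9]
        exact dvd_sub h4 (Dvd.dvd.mul_right h6 _)
      exact hq.not_dvd_one h8
    · have h6 : q ∣ h := hq.dvd_of_dvd_pow h5
      have h7 : q ∣ g ^ 2 := by
        have h9 : g ^ 2 = (g ^ 2 + 11 * h ^ 2) - 11 * h * h := by ring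
        rw [h9]
        exact dvd_sub h4 (Dvd.dvd.mul_left h6 _)
      exact hq.not_isUnit (hcgh.isUnit_of_dvd' (hq.dvd_of_dvd_pow h7) h6)
  obtain ⟨s, r, ε', hsr, hcsr, hε', hcase'⟩ := split4 Int.prime_two 5 hh0 hcRS hRS
  have hs0 : s ≠ 0 := by rintro rfl; exact hh0 (by rw [hsr, zero_mul])
  have hr0 : r ≠ 0 := by rintro rfl; exact hh0 (by rw [hsr, mul_zero])
  have hs4 : 0 < s ^ 4 := by positivity
  have hr4 : 0 < r ^ 4 := by positivity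
  have hg2 : 0 < g ^ 2 := by positivity
  have hh2 : 0 < h ^ 2 := by positivity
  have hε1' : ε' = 1 := by
    rcases hε' with h1 | h1
    · exact h1
    · exfalso
      rcases hcase' with ⟨h2, h3⟩ | ⟨h2, h3⟩ <;> rw [h1] at h2 h3 <;> linarith
  rw [hε1', one_mul, one_mul] at hcase'
  have hh2' : h ^ 2 = s ^ 2 * r ^ 2 := by rw [hsr]; ring
  have hnew : s ^ 4 - 11 * s ^ 2 * r ^ 2 + 32 * r ^ 4 = g ^ 2 := by
    rcases hcase' with ⟨h2, h3⟩ | ⟨h2, h3⟩ <;> linarith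
  have hs2 : 0 < s ^ 2 := by positivity
  have hr2 : 0 < r ^ 2 := by positivity
  have hlt : r.natAbs < e.natAbs := by
    rw [Int.natAbs_lt_iff_sq_lt]
    have h1 : e ^ 2 = 4 * (g ^ 2 * s ^ 2) * r ^ 2 := by rw [he2, hgh, hsr]; ring
    rw [h1]
    have h2 : 1 ≤ g ^ 2 * s ^ 2 := by
      have : 0 < g ^ 2 * s ^ 2 := by positivity
      omega
    nlinarith
  rcases ih r.natAbs (lt_of_lt_of_le hlt hn) le_rfl hcsr hnew with h1 | ⟨h1, h2⟩
  · exact hr0 h1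
  · have h3 : g ^ 2 = 4 := by
      rw [← hnew, show s ^ 4 = (s ^ 2) ^ 2 by ring, show r ^ 4 = (r ^ 2) ^ 2 by ring, h1, h2]
      norm_num
    have h4 : h ^ 2 = 4 := by rw [hh2', h1, h2]; norm_num
    have h5 : (2 : ℤ) ∣ g := Int.prime_two.dvd_of_dvd_pow (n := 2) ⟨2, by rw [h3]; norm_num⟩
    have h6 : (2 : ℤ) ∣ h := Int.prime_two.dvd_of_dvd_pow (n := 2) ⟨2, by rw [h4]; norm_num⟩
    exact Int.prime_two.not_isUnit (hcgh.isUnit_of_dvd' h5 h6)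

end Fermat.Agent.Cor.Small.D7

namespace Fermat.Agent.Cor.Small

/-- **`m⁴ - 11 m² e² + 32 e⁴ = w²`** in coprime integers: `e = 0` or `m² = 4`, `e² = 1`. -/
theorem desc7 {m e w : ℤ} (h : IsCoprime m e)
    (hw : m ^ 4 - 11 * m ^ 2 * e ^ 2 + 32 * e ^ 4 = w ^ 2) : e = 0 ∨ (m ^ 2 = 4 ∧ e ^ 2 = 1) :=
  D7.desc7_aux _ le_rfl h hw

end Fermat.Agent.Cor.Small

namespace Fermat.Agent.Cor.Small.D7

/-- coprime positive factors of a square -/
theorem sq_split {x y z : ℤ} (hx : 0 < x) (hc : IsCoprime x y) (h : x * y = z ^ 2) :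
    ∃ k w : ℤ, x = k ^ 2 ∧ y = w ^ 2 := by
  obtain ⟨k, hk | hk⟩ := Int.sq_of_isCoprime hc h
  · obtain ⟨w, hw | hw⟩ := Int.sq_of_isCoprime hc.symm (by rw [mul_comm, h])
    · exact ⟨k, w, hk, hw⟩
    · have h1 : x * w ^ 2 = -z ^ 2 := by rw [← h, hw]; ring
      have h2 : w ^ 2 = 0 := by
        by_contra h3
        have h4 : 0 < w ^ 2 := lt_of_le_of_ne (sq_nonneg w) (Ne.symm h3)
        have h5 : 0 < x * w ^ 2 := mul_pos hx h4
        have h6 : 0 ≤ z ^ 2 := sq_nonneg z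
        linarith
      exact ⟨k, 0, hk, by rw [hw, h2]; norm_num⟩
  · exfalso
    have := sq_nonneg k
    linarith

/-- one level of the `2`-adic descent, `a` prime to `B` -/
theorem level {A B a b z : ℤ} (ha : 0 < a) (hab : IsCoprime a b) (hB : IsCoprime a B)
    (h : a * (A * a ^ 2 - 11 * (a * b) + B * b ^ 2) = z ^ 2) :
    ∃ k w : ℤ, a = k ^ 2 ∧ A * a ^ 2 - 11 * (a * b) + B * b ^ 2 = w ^ 2 := by
  refine sq_split ha ?_ h
  have h1 : IsCoprime a (B * b ^ 2) := hB.mul_right hab.pow_right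
  have h2 : A * a ^ 2 - 11 * (a * b) + B * b ^ 2 = B * b ^ 2 + a * (A * a - 11 * b) := by ring
  rw [h2]
  exact IsCoprime.add_mul_left_right h1 _

/-- halving `a` -/
theorem half {A B a b z : ℤ} (h : (2 * a) * (A * (2 * a) ^ 2 - 11 * ((2 * a) * b) + (2 * B) * b ^ 2) =
    z ^ 2) : ∃ z' : ℤ, a * ((2 * A) * a ^ 2 - 11 * (a * b) + B * b ^ 2) = z' ^ 2 := by
  have hz : Even z := by
    have h1 : Even (z ^ 2) := by
      rw [← h]
      exact ⟨a * (A * (2 * a) ^ 2 - 11 * ((2 * a) * b) + (2 * B) * b ^ 2), by ring⟩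
    exact (Int.even_pow.mp h1).1
  obtain ⟨v, hv⟩ := hz
  refine ⟨v, ?_⟩
  have h2 : z ^ 2 = 4 * v ^ 2 := by rw [hv]; ring
  rw [h2] at h
  linarith

theorem coprime_two_pow {a : ℤ} (ha : Odd a) (n : ℕ) : IsCoprime a (2 ^ n) := by
  refine IsCoprime.pow_right ?_
  obtain ⟨j, rfl⟩ := ha
  exact ⟨1, -j, by ring⟩

/-- **the integer form of `no_sq7`** -/
theorem int7 {a b z : ℤ} (ha : 0 < a) (hb : 0 < b) (hab : IsCoprime a b)
    (h : a * b * (a ^ 2 - 11 * (a * b) + 32 * b ^ 2) = z ^ 2) :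
    b = 1 ∧ (a = 4 ∨ a = 8) := by
  -- `b` is a square
  have hcb : IsCoprime b (a * (a ^ 2 - 11 * (a * b) + 32 * b ^ 2)) := by
    refine IsCoprime.mul_right hab.symm ?_
    have h2 : a ^ 2 - 11 * (a * b) + 32 * b ^ 2 = a ^ 2 + b * (32 * b - 11 * a) := by ring
    rw [h2]
    exact IsCoprime.add_mul_left_right hab.symm.pow_right _
  obtain ⟨e, z₀, he, hz₀⟩ := sq_split hb hcb (by rw [← h]; ring)
  have he0 : e ≠ 0 := by rintro rfl; rw [he] at hb; norm_num at hb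
  have hae : IsCoprime a e := by
    rw [he] at hab
    exact (IsCoprime.pow_right_iff (by norm_num)).mp hab
  have h0 : a * (1 * a ^ 2 - 11 * (a * b) + 2 ^ 5 * b ^ 2) = z₀ ^ 2 := by rw [← hz₀]; ring
  -- level 0
  rcases Int.even_or_odd a with ⟨a₁, ha₁⟩ | hodd
  swap
  · exfalso
    obtain ⟨k, w, hk, hw⟩ := level ha hab (coprime_two_pow hodd 5) h0
    have hke : IsCoprime k e := by
      rw [hk] at hae
      exact (IsCoprime.pow_left_iff (by norm_num)).mp hae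
    have h1 : k ^ 4 - 11 * k ^ 2 * e ^ 2 + 32 * e ^ 4 = w ^ 2 := by
      rw [← hw, he, hk]; ring
    rcases desc7 hke h1 with h2 | ⟨h2, -⟩
    · exact he0 h2
    · rw [hk, h2] at hodd
      exact absurd hodd (by decide)
  have hbodd : Odd b := by
    by_contra hbe
    rw [Int.not_odd_iff_even] at hbe
    obtain ⟨c, hc⟩ := hbe
    exact Int.prime_two.not_isUnit (hab.isUnit_of_dvd' ⟨a₁, by rw [ha₁]; ring⟩
      ⟨c, by rw [hc]; ring⟩)
  have heodd : Odd e := by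
    by_contra h1
    rw [Int.not_odd_iff_even] at h1
    rw [he] at hbodd
    exact (Int.not_even_iff_odd.mpr hbodd) (h1.pow_of_ne_zero (by norm_num))
  -- the general step from level to level
  have step : ∀ {x : ℤ}, 0 < 2 * x → IsCoprime (2 * x) b → IsCoprime (2 * x) e →
      0 < x ∧ IsCoprime x b ∧ IsCoprime x e := fun h1 h2 h3 =>
    ⟨by linarith, h2.of_mul_left_right, h3.of_mul_left_right⟩
  have sqr : ∀ {x k : ℤ}, x = k ^ 2 → IsCoprime x e → IsCoprime k e := fun h1 h2 => by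
    rw [h1] at h2
    exact (IsCoprime.pow_left_iff (by norm_num)).mp h2
  have hodd2 : ∀ {x k : ℤ}, x = k ^ 2 → Odd x → Odd k := fun {x k} h1 h2 => by
    by_contra h3
    rw [Int.not_odd_iff_even] at h3
    rw [h1] at h2
    exact (Int.not_even_iff_odd.mpr h2) (h3.pow_of_ne_zero (by norm_num))
  have ha₁' : a = 2 * a₁ := by rw [ha₁]; ring
  rw [ha₁'] at ha hab hae h0 ⊢
  obtain ⟨hp1, hcb1, hce1⟩ := step ha hab hae
  obtain ⟨z₁, hz₁⟩ := half (A := 1) (B := 2 ^ 4) (a := a₁) (b := b) (z := z₀) (by rw [← h0]; ring)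
  -- level 1
  rcases Int.even_or_odd a₁ with ⟨a₂, ha₂⟩ | hodd
  swap
  · exfalso
    obtain ⟨k, w, hk, hw⟩ := level hp1 hcb1 (coprime_two_pow hodd 4) hz₁
    have hkodd := hodd2 hk hodd
    obtain ⟨x, hx⟩ := exists_sq_odd hkodd
    obtain ⟨y, hy⟩ := exists_sq_odd heodd
    have h1 : 2 * 1 * a₁ ^ 2 - 11 * (a₁ * b) + 2 ^ 4 * b ^ 2 =
        2 * (8 * x + 1) ^ 2 - 11 * ((8 * x + 1) * (8 * y + 1)) + 16 * (8 * y + 1) ^ 2 := by
      rw [← hx, ← hy, hk, he]; ring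
    rcases Int.even_or_odd w with ⟨v, hv⟩ | hwo
    · have h2 : w ^ 2 = 4 * v ^ 2 := by rw [hv]; ring
      have h3 : 8 * (16 * x ^ 2 + 4 * x - 88 * (x * y) - 11 * x - 11 * y + 128 * y ^ 2 + 32 * y)
          + 7 = 4 * v ^ 2 := by linear_combination h2 + hw - h1
      omega
    · obtain ⟨c, hc⟩ := exists_sq_odd hwo
      have h3 : 8 * (16 * x ^ 2 + 4 * x - 88 * (x * y) - 11 * x - 11 * y + 128 * y ^ 2 + 32 * y)
          + 7 = 8 * c + 1 := by linear_combination hc + hw - h1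
      omega
  have ha₂' : a₁ = 2 * a₂ := by rw [ha₂]; ring
  rw [ha₂'] at hp1 hcb1 hce1 hz₁ ⊢
  obtain ⟨hp2, hcb2, hce2⟩ := step hp1 hcb1 hce1
  obtain ⟨z₂, hz₂⟩ := half (A := 2) (B := 2 ^ 3) (a := a₂) (b := b) (z := z₁) (by rw [← hz₁]; ring)
  -- level 2
  rcases Int.even_or_odd a₂ with ⟨a₃, ha₃⟩ | hodd
  swap
  · obtain ⟨k, w, hk, hw⟩ := level hp2 hcb2 (coprime_two_pow hodd 3) hz₂
    have h1 : 4 * k ^ 4 - 11 * k ^ 2 * e ^ 2 + 8 * e ^ 4 = w ^ 2 := by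
      rw [← hw, he, hk]; ring
    obtain ⟨h2, h3⟩ := descA (sqr hk hce2) heodd h1
    exact ⟨by rw [he, h3], Or.inl (by rw [hk, h2]; norm_num)⟩
  have ha₃' : a₂ = 2 * a₃ := by rw [ha₃]; ring
  rw [ha₃'] at hp2 hcb2 hce2 hz₂ ⊢
  obtain ⟨hp3, hcb3, hce3⟩ := step hp2 hcb2 hce2
  obtain ⟨z₃, hz₃⟩ := half (A := 4) (B := 2 ^ 2) (a := a₃) (b := b) (z := z₂) (by rw [← hz₂]; ring)
  -- level 3
  rcases Int.even_or_odd a₃ with ⟨a₄, ha₄⟩ | hodd
  swap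
  · obtain ⟨k, w, hk, hw⟩ := level hp3 hcb3 (coprime_two_pow hodd 2) hz₃
    have h1 : 4 * e ^ 4 - 11 * e ^ 2 * k ^ 2 + 8 * k ^ 4 = w ^ 2 := by
      rw [← hw, he, hk]; ring
    obtain ⟨h2, h3⟩ := descA (sqr hk hce3).symm (hodd2 hk hodd) h1
    exact ⟨by rw [he, h2], Or.inr (by rw [hk, h3]; norm_num)⟩
  exfalso
  have ha₄' : a₃ = 2 * a₄ := by rw [ha₄]; ring
  rw [ha₄'] at hp3 hcb3 hce3 hz₃
  obtain ⟨hp4, hcb4, hce4⟩ := step hp3 hcb3 hce3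
  obtain ⟨z₄, hz₄⟩ := half (A := 8) (B := 2 ^ 1) (a := a₄) (b := b) (z := z₃) (by rw [← hz₃]; ring)
  -- level 4
  rcases Int.even_or_odd a₄ with ⟨a₅, ha₅⟩ | hodd
  swap
  · obtain ⟨k, w, hk, hw⟩ := level hp4 hcb4 (coprime_two_pow hodd 1) hz₄
    have hkodd := hodd2 hk hodd
    obtain ⟨x, hx⟩ := exists_sq_odd hkodd
    obtain ⟨y, hy⟩ := exists_sq_odd heodd
    have h1 : 2 * 8 * a₄ ^ 2 - 11 * (a₄ * b) + 2 ^ 1 * b ^ 2 =
        16 * (8 * x + 1) ^ 2 - 11 * ((8 * x + 1) * (8 * y + 1)) + 2 * (8 * y + 1) ^ 2 := by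
      rw [← hx, ← hy, hk, he]; ring
    rcases Int.even_or_odd w with ⟨v, hv⟩ | hwo
    · have h2 : w ^ 2 = 4 * v ^ 2 := by rw [hv]; ring
      have h3 : 8 * (128 * x ^ 2 + 32 * x - 88 * (x * y) - 11 * x - 11 * y + 16 * y ^ 2 + 4 * y)
          + 7 = 4 * v ^ 2 := by linear_combination h2 + hw - h1
      omega
    · obtain ⟨c, hc⟩ := exists_sq_odd hwo
      have h3 : 8 * (128 * x ^ 2 + 32 * x - 88 * (x * y) - 11 * x - 11 * y + 16 * y ^ 2 + 4 * y)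
          + 7 = 8 * c + 1 := by linear_combination hc + hw - h1
      omega
  have ha₅' : a₄ = 2 * a₅ := by rw [ha₅]; ring
  rw [ha₅'] at hp4 hcb4 hce4 hz₄
  obtain ⟨hp5, hcb5, hce5⟩ := step hp4 hcb4 hce4
  obtain ⟨z₅, hz₅⟩ := half (A := 16) (B := 1) (a := a₅) (b := b) (z := z₄) (by rw [← hz₄]; ring)
  -- level 5
  obtain ⟨k, w, hk, hw⟩ := level hp5 hcb5 isCoprime_one_right hz₅
  have h1 : e ^ 4 - 11 * e ^ 2 * k ^ 2 + 32 * k ^ 4 = w ^ 2 := by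
    rw [← hw, he, hk]; ring
  rcases desc7 (sqr hk hce5).symm h1 with h2 | ⟨h2, -⟩
  · rw [hk, h2] at hp5
    norm_num at hp5
  · obtain ⟨y, hy⟩ := exists_sq_odd heodd
    omega

end Fermat.Agent.Cor.Small.D7

namespace Fermat.Agent.Cor.Small

/-- **the rational points of `y² = Z (Z² - 11 Z + 32)`**: `Z = 0, 4, 8` -/
theorem no_sq7 {Z y : ℚ} (h : y ^ 2 = Z * (Z ^ 2 - 11 * Z + 32)) : Z = 0 ∨ Z = 4 ∨ Z = 8 := by
  rcases eq_or_ne Z 0 with h0 | h0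
  · exact Or.inl h0
  right
  have hpos : 0 < Z ^ 2 - 11 * Z + 32 := by nlinarith [sq_nonneg (2 * Z - 11)]
  have hZ : 0 < Z := by
    by_contra hneg
    have h1 : Z < 0 := lt_of_le_of_ne (not_lt.mp hneg) h0
    have h2 : Z * (Z ^ 2 - 11 * Z + 32) < 0 := mul_neg_of_neg_of_pos h1 hpos
    have h3 := sq_nonneg y
    linarith
  have hden : (Z.den : ℚ) ≠ 0 := Nat.cast_ne_zero.mpr Z.den_ne_zero
  have hZe : Z = (Z.num : ℚ) / (Z.den : ℚ) := (Rat.num_div_den Z).symm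
  have hsq : IsSquare ((Z.num * (Z.den : ℤ) * (Z.num ^ 2 - 11 * (Z.num * (Z.den : ℤ)) +
      32 * (Z.den : ℤ) ^ 2) : ℤ)) := by
    rw [← Rat.isSquare_intCast_iff]
    refine ⟨y * (Z.den : ℚ) ^ 2, ?_⟩
    have h1 : y * (Z.den : ℚ) ^ 2 * (y * (Z.den : ℚ) ^ 2) = y ^ 2 * (Z.den : ℚ) ^ 4 := by ring
    rw [h1, h]
    push_cast
    have h2 : (Z.num : ℚ) = Z * Z.den := by rw [Rat.mul_den_eq_num]
    rw [h2]
    ring
  obtain ⟨z, hz⟩ := hsq
  have hnum : 0 < Z.num := Rat.num_pos.mpr hZ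
  have hcop : IsCoprime Z.num (Z.den : ℤ) := by
    rw [Int.isCoprime_iff_gcd_eq_one, Int.gcd, Int.natAbs_natCast]
    exact Z.reduced
  obtain ⟨hb, ha⟩ := D7.int7 hnum (by exact_mod_cast Z.den_pos) hcop (z := z)
    (by rw [hz]; ring)
  have hZn : Z = (Z.num : ℚ) := by
    have h1 : (Z.den : ℚ) = 1 := by exact_mod_cast hb
    rw [← Rat.mul_den_eq_num, h1, mul_one]
  rcases ha with ha | ha
  · left; rw [hZn, ha]; norm_num
  · right; rw [hZn, ha]; norm_num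

end Fermat.Agent.Cor.Small
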