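import Fermat.Agent.Corollaries.K4.Small.Seven
import Fermat.Agent.Corollaries.PP.Seq

/-!
# Corollaries, K4P: the equations `A xᵖ + B yᵖ = z²`, with the exponent `7`

The files `PP/Two.lean`, `PP/Seq.lean`, `PP/Main.lean` (helper65) use the irreducibility of `W[p]` for every
semistable `W`, which holds for `p = 11` and `p ≥ 17` only. The curves there have a rational point of order two, so
`Seven.lean` gives the same theorems for `p = 7` too. The proofs are those of the files cited.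
-/

set_option autoImplicit false

namespace Fermat.Agent.Cor.PPS.Aux

open WeierstrassCurve

/-- `W[p]` is irreducible for every semistable curve of the family `curveTwo`. -/
def IrredTwo (p : ℕ) : Prop :=
  ∀ s t : ℤ, (curveTwo s t).Δ ≠ 0 → (curveTwo s t).IsSemistableModel →
    (curveTwo s t).ModRepIsIrreducible p

/-- `p = 7`, `p = 11` and every prime `p ≥ 17`. -/
theorem irredTwo {p : ℕ} (hp : p.Prime) (h : p = 7 ∨ p = 11 ∨ 17 ≤ p) : IrredTwo p := by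
  intro s t hΔ hss
  rcases h with rfl | h
  · refine irreducible_seven_of_root hΔ hss (x := 0) ?_
    simp [curveTwo, WeierstrassCurve.b₆]
  · exact modRepIsIrreducible hp h hΔ hss

/-- **The key statement.** `a + b = c²` with `a`, `b` coprime, `b = 64 t`: for every level `L` of
genus zero there is a prime `q ∤ L` with `p ∤ v_q(t² a)`. -/
theorem exists_prime_two {p : ℕ} (hp : p.Prime) (hp2 : p ≠ 2) (hirr : IrredTwo p)
    {a t c : ℤ} (h : a + 64 * t = c ^ 2) (ha : a ≠ 0) (ht : t ≠ 0) (hat : IsCoprime a t)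
    (hodd : ¬ (2 : ℤ) ∣ a) {L : ℕ} (hL : L ∈ zeroLevels) :
    ∃ q : ℕ, q.Prime ∧ ¬ q ∣ L ∧ ¬ p ∣ padicValInt q (t ^ 2 * a) := by
  -- the sign of `c`
  obtain ⟨s, hs⟩ : ∃ s : ℤ, c ^ 2 = (1 + 4 * s) ^ 2 := by
    have hc : ¬ (2 : ℤ) ∣ c := by
      intro h2
      apply hodd
      have h3 : (2 : ℤ) ∣ c ^ 2 := dvd_pow h2 two_ne_zero
      omega
    rcases (by omega : c % 4 = 1 ∨ c % 4 = 3) with h4 | h4
    · exact ⟨c / 4, by rw [show 1 + 4 * (c / 4) = c by omega]⟩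
    · exact ⟨(-c) / 4, by rw [show 1 + 4 * (-c / 4) = -c by omega, neg_sq]⟩
  have ha' : a = (1 + 4 * s) ^ 2 - 64 * t := by rw [← hs, ← h]; ring
  have hΔ : (curveTwo s t).Δ = t ^ 2 * a := by rw [curveTwo_Δ, ← ha']
  have hΔ0 : (curveTwo s t).Δ ≠ 0 := by
    rw [hΔ]; exact mul_ne_zero (pow_ne_zero _ ht) ha
  have hss : (curveTwo s t).IsSemistableModel := curveTwo_semistable (by rwa [← ha'])
  obtain ⟨q, h1, -, h2, h3⟩ := exists_prime_not_dvd_of_mem hΔ0 hss hp hp2 (hirr _ _ hΔ0 hss) hL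
  exact ⟨q, h1, h2, by rwa [hΔ] at h3⟩

/-- **No solution of `a + b = c²`** with `a`, `b` coprime, `64 ∣ b`, if `p` divides the valuations
of `a` and `b` at the odd primes not dividing a level `L` of genus zero, and `L` is even or
`v₂(b) ≡ 6 mod p`. -/
theorem no_solution_two {p : ℕ} (hp : p.Prime) (hp2 : p ≠ 2) (hirr : IrredTwo p)
    {a b c : ℤ} (h : a + b = c ^ 2) (ha : a ≠ 0) (hb : b ≠ 0) (hab : IsCoprime a b)
    (h64 : (64 : ℤ) ∣ b) {L : ℕ} (hL : L ∈ zeroLevels)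
    (hva : ∀ q : ℕ, q.Prime → q ≠ 2 → ¬ q ∣ L → p ∣ padicValInt q a)
    (hvb : ∀ q : ℕ, q.Prime → q ≠ 2 → ¬ q ∣ L → p ∣ padicValInt q b)
    (hv2 : 2 ∣ L ∨ p ∣ padicValInt 2 (b / 64)) : False := by
  obtain ⟨t, rfl⟩ := h64
  have ht : t ≠ 0 := right_ne_zero_of_mul hb
  have hat : IsCoprime a t := hab.of_mul_right_right
  have hodd : ¬ (2 : ℤ) ∣ a := by
    intro h2
    have h3 : (2 : ℤ) ∣ 64 * t := Dvd.dvd.mul_right (by norm_num) t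
    exact Int.prime_two.not_isUnit (hab.isUnit_of_dvd' h2 h3)
  obtain ⟨q, hq, hqL, hv⟩ := exists_prime_two hp hp2 hirr h ha ht hat hodd hL
  apply hv
  have : Fact q.Prime := ⟨hq⟩
  rw [padicValInt.mul (pow_ne_zero _ ht) ha, padicValInt_pow_eq]
  by_cases hq2 : q = 2
  · subst hq2
    have h1 : p ∣ padicValInt 2 t := by
      have := hv2.resolve_left hqL
      rwa [Int.mul_ediv_cancel_left _ (by norm_num)] at this
    rw [padicValInt.eq_zero_of_not_dvd (z := a) (by exact_mod_cast hodd), add_zero]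
    exact h1.mul_left 2
  · have h1 := hvb q hq hq2 hqL
    rw [padicValInt.mul (by norm_num) ht, padicValInt.eq_zero_of_not_dvd (z := 64), zero_add] at h1
    · exact dvd_add (h1.mul_left 2) (hva q hq hq2 hqL)
    · intro h2
      have h3 : (q : ℤ) ∣ 2 := (Nat.prime_iff_prime_int.mp hq).dvd_of_dvd_pow
        (by simpa using h2 : (q : ℤ) ∣ 2 ^ 6)
      have h5 : q ∣ 2 := by exact_mod_cast h3
      exact hq2 ((Nat.prime_dvd_prime_iff_eq hq Nat.prime_two).mp h5)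

/-- **The equation `A xᵖ + B yᵖ = z²`**, `A x`, `B y` coprime, `64 ∣ B yᵖ`: no solution with
`x y ≠ 0` if the primes of `A B` divide an even level `L` of genus zero. -/
theorem two_coeff {p : ℕ} (hp : p.Prime) (hp2 : p ≠ 2) (hirr : IrredTwo p)
    {A B x y z : ℤ} (h : A * x ^ p + B * y ^ p = z ^ 2) (hcop : IsCoprime (A * x) (B * y))
    (h64 : (64 : ℤ) ∣ B * y ^ p) (hx : A * x ≠ 0) (hy : B * y ≠ 0) {L : ℕ}
    (hL : L ∈ zeroLevels) (hA : ∀ q : ℕ, q.Prime → q ≠ 2 → (q : ℤ) ∣ A → q ∣ L)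
    (hB : ∀ q : ℕ, q.Prime → q ≠ 2 → (q : ℤ) ∣ B → q ∣ L)
    (h2 : 2 ∣ L ∨ p ∣ padicValInt 2 (B * y ^ p / 64)) : False := by
  have hA0 := left_ne_zero_of_mul hx
  have hx0 := right_ne_zero_of_mul hx
  have hB0 := left_ne_zero_of_mul hy
  have hy0 := right_ne_zero_of_mul hy
  have hcop' : IsCoprime (A * x ^ p) (B * y ^ p) := by
    have h1 : IsCoprime ((A * x) ^ p) ((B * y) ^ p) := hcop.pow
    refine (h1.of_isCoprime_of_dvd_left ?_).of_isCoprime_of_dvd_right ?_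
    · rw [mul_pow]; exact mul_dvd_mul_right (dvd_pow_self A hp.ne_zero) _
    · rw [mul_pow]; exact mul_dvd_mul_right (dvd_pow_self B hp.ne_zero) _
  refine no_solution_two hp hp2 hirr h (mul_ne_zero hA0 (pow_ne_zero _ hx0))
    (mul_ne_zero hB0 (pow_ne_zero _ hy0)) hcop' h64 hL ?_ ?_ h2
  · intro q hq hq2 hqL
    refine dvd_padicValInt_mul_pow_of_dvd hq hA0 hx0 ?_
    rw [padicValInt.eq_zero_of_not_dvd fun h => hqL (hA q hq hq2 h)]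
    exact dvd_zero p
  · intro q hq hq2 hqL
    refine dvd_padicValInt_mul_pow_of_dvd hq hB0 hy0 ?_
    rw [padicValInt.eq_zero_of_not_dvd fun h => hqL (hB q hq hq2 h)]
    exact dvd_zero p

/-- **`xᵖ + yᵖ = z²`, `x, y` coprime, `xy` even** (Darmon - Merel): no solution with `xy ≠ 0`. -/
theorem pow_add_pow_ne_sq {p : ℕ} (hp : p.Prime) (hp6 : 6 ≤ p) (hirr : IrredTwo p)
    {x y : ℤ} (hx : x ≠ 0) (hy : y ≠ 0) (hxy : IsCoprime x y) (heven : (2 : ℤ) ∣ x * y) (z : ℤ) :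
    x ^ p + y ^ p ≠ z ^ 2 := by
  have hp2 : p ≠ 2 := by omega
  have key : ∀ x y : ℤ, x ≠ 0 → y ≠ 0 → IsCoprime x y → (2 : ℤ) ∣ y → x ^ p + y ^ p ≠ z ^ 2 := by
    intro x y hx hy hxy h2 h
    refine two_coeff (A := 1) (B := 1) (L := 2) hp hp2 hirr (z := z) (by simpa using h)
      (by simpa using hxy) (by simpa using sixtyfour_dvd hp6 h2) (by simpa using hx)
      (by simpa using hy) (by decide) ?_ ?_ (Or.inl dvd_rfl)
    all_goals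
      intro q hq _ h1
      have h3 : q ∣ 1 := by exact_mod_cast h1
      exact absurd (Nat.dvd_one.mp h3) hq.ne_one
  rcases Int.prime_two.dvd_or_dvd heven with h2 | h2
  · intro h
    exact key y x hy hx hxy.symm h2 (by rw [add_comm]; exact h)
  · exact key x y hx hy hxy h2

/-- The same for all exponents divisible by `p`. -/
theorem pow_add_pow_ne_sq_of_dvd {p : ℕ} (hp : p.Prime) (hp6 : 6 ≤ p)
    (hirr : IrredTwo p) {n : ℕ} (hn : p ∣ n) {x y : ℤ} (hx : x ≠ 0) (hy : y ≠ 0)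
    (hxy : IsCoprime x y) (heven : (2 : ℤ) ∣ x * y) (z : ℤ) : x ^ n + y ^ n ≠ z ^ 2 := by
  obtain ⟨m, rfl⟩ := hn
  rcases Nat.eq_zero_or_pos m with rfl | hm
  · rw [mul_zero, pow_zero, pow_zero]
    intro h
    have h1 : z ^ 2 = 2 := by rw [← h]; norm_num
    have h3 : z ≤ 1 := by nlinarith
    have h4 : -1 ≤ z := by nlinarith
    interval_cases z <;> omega
  · rw [mul_comm, pow_mul, pow_mul]
    refine pow_add_pow_ne_sq hp hp6 hirr (pow_ne_zero _ hx) (pow_ne_zero _ hy) hxy.pow ?_ z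
    rw [← mul_pow]
    exact heven.trans (dvd_pow_self _ hm.ne')

/-- **`xᵖ + 2ᵏ yᵖ = z²`**, `x` odd, `x, y` coprime, `k ≥ 6` or `y` even: no solution with
`xy ≠ 0`. -/
theorem pow_add_two_pow_mul_pow_ne_sq {p : ℕ} (hp : p.Prime) (hp6 : 6 ≤ p)
    (hirr : IrredTwo p) {x y : ℤ} (hx : x ≠ 0) (hy : y ≠ 0) (hxy : IsCoprime x y)
    (hodd : ¬ (2 : ℤ) ∣ x) {k : ℕ} (hk : 6 ≤ k ∨ (2 : ℤ) ∣ y) (z : ℤ) :
    x ^ p + 2 ^ k * y ^ p ≠ z ^ 2 := by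
  intro h
  have h2 : IsCoprime x 2 := ((Int.prime_two.irreducible.coprime_iff_not_dvd).mpr hodd).symm
  refine two_coeff (A := 1) (B := 2 ^ k) (L := 2) hp (by omega) hirr (z := z)
    (by simpa using h) (by rw [one_mul]; exact (h2.pow_right).mul_right hxy) ?_
    (by simpa using hx) (mul_ne_zero (pow_ne_zero _ two_ne_zero) hy) (by decide) ?_ ?_
    (Or.inl dvd_rfl)
  · rcases hk with hk | hk
    · exact Dvd.dvd.mul_right (by simpa using pow_dvd_pow (2 : ℤ) hk) _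
    · exact (sixtyfour_dvd hp6 hk).mul_left _
  · intro q hq _ h1
    have h3 : q ∣ 1 := by exact_mod_cast h1
    exact absurd (Nat.dvd_one.mp h3) hq.ne_one
  · intro q hq hq2 h1
    have h3 : (q : ℤ) ∣ 2 := (Nat.prime_iff_prime_int.mp hq).dvd_of_dvd_pow h1
    exact_mod_cast h3

/-- **`xᵖ + 2ᵏ ℓᵐ yᵖ = z²`**, `ℓ = 3` or `5`, `64 ∣ 2ᵏ yᵖ`. -/
theorem pow_add_mul_pow_ne_sq {p : ℕ} (hp : p.Prime) (hp6 : 6 ≤ p)
    (hirr : IrredTwo p) {ℓ : ℕ} (hℓ : ℓ = 3 ∨ ℓ = 5) {x y : ℤ} (hx : x ≠ 0)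
    (hy : y ≠ 0) {k m : ℕ} (hxy : IsCoprime x (2 * (ℓ : ℤ) * y))
    (hk : 6 ≤ k ∨ (2 : ℤ) ∣ y) (z : ℤ) :
    x ^ p + 2 ^ k * (ℓ : ℤ) ^ m * y ^ p ≠ z ^ 2 := by
  intro h
  have hℓ0 : (ℓ : ℤ) ≠ 0 := by rcases hℓ with rfl | rfl <;> norm_num
  have hL : 2 * ℓ ∈ zeroLevels := by rcases hℓ with rfl | rfl <;> decide
  have hc1 : IsCoprime x 2 := hxy.of_mul_right_left.of_mul_right_left
  have hc2 : IsCoprime x (ℓ : ℤ) := hxy.of_mul_right_left.of_mul_right_right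
  refine two_coeff (A := 1) (B := 2 ^ k * (ℓ : ℤ) ^ m) (L := 2 * ℓ) hp (by omega) hirr (z := z)
    (by simpa using h)
    (by rw [one_mul]; exact ((hc1.pow_right).mul_right hc2.pow_right).mul_right
          hxy.of_mul_right_right) ?_
    (by simpa using hx)
    (mul_ne_zero (mul_ne_zero (pow_ne_zero _ two_ne_zero) (pow_ne_zero _ hℓ0)) hy) hL ?_ ?_
    (Or.inl (dvd_mul_right 2 ℓ))
  · rcases hk with hk | hk
    · exact Dvd.dvd.mul_right (Dvd.dvd.mul_right (by simpa using pow_dvd_pow (2 : ℤ) hk) _) _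
    · exact (sixtyfour_dvd hp6 hk).mul_left _
  · intro q hq _ h1
    have h3 : q ∣ 1 := by exact_mod_cast h1
    exact absurd (Nat.dvd_one.mp h3) hq.ne_one
  · intro q hq hq2 h1
    have hq' := Nat.prime_iff_prime_int.mp hq
    rcases hq'.dvd_or_dvd h1 with h3 | h3
    · have h4 := hq'.dvd_of_dvd_pow h3
      exact Dvd.dvd.mul_right (by exact_mod_cast h4) ℓ
    · have h4 := hq'.dvd_of_dvd_pow h3
      exact Dvd.dvd.mul_left (by exact_mod_cast h4) 2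

/-- **`xᵖ + 64 ℓᵐ yᵖ = z²`**, `ℓ ∈ {3, 5, 7, 13}`: no solution with `x y ≠ 0`, `x` prime to
`2 ℓ y`.  (For `ℓ = 17` there is `1 + 64 · 17 = 33²`, for the composite `15` in place of `ℓ`
`1 + 64 · 15 = 31²`.) -/
theorem pow_add_sixtyfour_mul_pow_ne_sq {p : ℕ} (hp : p.Prime) (hp6 : 6 ≤ p)
    (hirr : IrredTwo p) {ℓ : ℕ} (hℓ : ℓ ∈ [3, 5, 7, 13]) {x y : ℤ} (hx : x ≠ 0)
    (hy : y ≠ 0) {m : ℕ} (hxy : IsCoprime x (2 * (ℓ : ℤ) * y)) (z : ℤ) :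
    x ^ p + 64 * (ℓ : ℤ) ^ m * y ^ p ≠ z ^ 2 := by
  intro h
  have key : ∀ ℓ ∈ [3, 5, 7, 13], ℓ ∈ zeroLevels ∧ ¬ 2 ∣ ℓ ∧ ℓ ≠ 0 := by decide
  obtain ⟨hL, hℓ2, hℓ0'⟩ := key ℓ hℓ
  have hℓ0 : (ℓ : ℤ) ≠ 0 := by exact_mod_cast hℓ0'
  have hc1 : IsCoprime x 2 := hxy.of_mul_right_left.of_mul_right_left
  have hc2 : IsCoprime x (ℓ : ℤ) := hxy.of_mul_right_left.of_mul_right_right
  have hc3 : IsCoprime x 64 := by
    have := hc1.pow_right (n := 6)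
    norm_num at this
    exact this
  refine two_coeff (A := 1) (B := 64 * (ℓ : ℤ) ^ m) (L := ℓ) hp (by omega) hirr (z := z)
    (by simpa using h)
    (by rw [one_mul]; exact (hc3.mul_right hc2.pow_right).mul_right hxy.of_mul_right_right)
    (Dvd.dvd.mul_right (dvd_mul_right _ _) _) (by simpa using hx)
    (mul_ne_zero (mul_ne_zero (by norm_num) (pow_ne_zero _ hℓ0)) hy) hL ?_ ?_ (Or.inr ?_)
  · intro q hq _ h1
    have h3 : q ∣ 1 := by exact_mod_cast h1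
    exact absurd (Nat.dvd_one.mp h3) hq.ne_one
  · intro q hq hq2 h1
    have hq' := Nat.prime_iff_prime_int.mp hq
    rcases hq'.dvd_or_dvd h1 with h3 | h3
    · exfalso
      have h4 : (q : ℤ) ∣ 2 := hq'.dvd_of_dvd_pow (by simpa using h3 : (q : ℤ) ∣ 2 ^ 6)
      have h5 : q ∣ 2 := by exact_mod_cast h4
      exact hq2 ((Nat.prime_dvd_prime_iff_eq hq Nat.prime_two).mp h5)
    · have h4 := hq'.dvd_of_dvd_pow h3
      exact_mod_cast h4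
  · have : Fact (Nat.Prime 2) := ⟨Nat.prime_two⟩
    rw [mul_assoc, Int.mul_ediv_cancel_left _ (by norm_num)]
    refine dvd_padicValInt_mul_pow_of_dvd Nat.prime_two (pow_ne_zero _ hℓ0) hy ?_
    rw [padicValInt_pow_eq, padicValInt.eq_zero_of_not_dvd (by exact_mod_cast hℓ2), mul_zero]
    exact dvd_zero p

variable {p : ℕ}

/-- **`z² + 2ᵏ ≠ xᵖ`** for `x` odd and `k ≥ 6`. -/
theorem sq_add_two_pow_ne_pow (hp : p.Prime) (hp6 : 6 ≤ p) (hirr : IrredTwo p) {x : ℤ}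
    (hx : ¬ (2 : ℤ) ∣ x) {k : ℕ} (hk : 6 ≤ k) (z : ℤ) : z ^ 2 + 2 ^ k ≠ x ^ p := by
  intro h
  have hodd : Odd p := hp.odd_of_ne_two (by omega)
  have hx0 : x ≠ 0 := fun h0 => hx (by rw [h0]; exact dvd_zero 2)
  refine pow_add_two_pow_mul_pow_ne_sq hp hp6 hirr hx0 (y := -1) (by norm_num)
    isCoprime_one_right.neg_right hx (Or.inl hk) z ?_
  rw [hodd.neg_one_pow]
  linarith

/-- **`z² - 2ᵏ ≠ xᵖ`** for `x` odd and `k ≥ 6`. -/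
theorem sq_sub_two_pow_ne_pow (hp : p.Prime) (hp6 : 6 ≤ p) (hirr : IrredTwo p) {x : ℤ}
    (hx : ¬ (2 : ℤ) ∣ x) {k : ℕ} (hk : 6 ≤ k) (z : ℤ) : z ^ 2 - 2 ^ k ≠ x ^ p := by
  intro h
  have hx0 : x ≠ 0 := fun h0 => hx (by rw [h0]; exact dvd_zero 2)
  refine pow_add_two_pow_mul_pow_ne_sq hp hp6 hirr hx0 (y := 1) one_ne_zero
    isCoprime_one_right hx (Or.inl hk) z ?_
  rw [one_pow]
  linarith

/-- **`z² + 2ᵏ ℓᵐ ≠ xᵖ`** for `ℓ = 3, 5`, `x` prime to `2 ℓ` and `k ≥ 6`. -/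
theorem sq_add_mul_pow_ne_pow (hp : p.Prime) (hp6 : 6 ≤ p) (hirr : IrredTwo p)
    {ℓ : ℕ} (hℓ : ℓ = 3 ∨ ℓ = 5) {x : ℤ} (hx0 : x ≠ 0) (hx : IsCoprime x (2 * ℓ)) {k m : ℕ}
    (hk : 6 ≤ k) (z : ℤ) : z ^ 2 + 2 ^ k * (ℓ : ℤ) ^ m ≠ x ^ p := by
  intro h
  have hodd : Odd p := hp.odd_of_ne_two (by omega)
  refine pow_add_mul_pow_ne_sq hp hp6 hirr hℓ hx0 (y := -1) (by norm_num) (k := k) (m := m)
    (by rw [mul_neg_one]; exact hx.neg_right) (Or.inl hk) z ?_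
  rw [hodd.neg_one_pow]
  linarith

/-- **`z² - 2ᵏ ℓᵐ ≠ xᵖ`** for `ℓ = 3, 5`, `x` prime to `2 ℓ` and `k ≥ 6`. -/
theorem sq_sub_mul_pow_ne_pow (hp : p.Prime) (hp6 : 6 ≤ p) (hirr : IrredTwo p)
    {ℓ : ℕ} (hℓ : ℓ = 3 ∨ ℓ = 5) {x : ℤ} (hx0 : x ≠ 0) (hx : IsCoprime x (2 * ℓ)) {k m : ℕ}
    (hk : 6 ≤ k) (z : ℤ) : z ^ 2 - 2 ^ k * (ℓ : ℤ) ^ m ≠ x ^ p := by
  intro h
  refine pow_add_mul_pow_ne_sq hp hp6 hirr hℓ hx0 (y := 1) one_ne_zero (k := k) (m := m)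
    (by rw [mul_one]; exact hx) (Or.inl hk) z ?_
  rw [one_pow]
  linarith

/-! ### The Pell equation -/

/-- `z² = d w²ᵖ ± 1` with `64 ∣ d w²ᵖ`: no solution with `w ≠ 0` if the odd primes of `d` divide
an even level `L` of genus zero (so `d = 2ᵃ 3ᵇ` or `2ᵃ 5ᵇ`). -/
theorem pell_core (hp : p.Prime) (hp6 : 6 ≤ p) (hirr : IrredTwo p) {d w z e : ℤ}
    (he : e = 1 ∨ e = -1) (h : z ^ 2 = d * (w ^ p) ^ 2 + e) (hw : w ≠ 0) (hd : d ≠ 0)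
    (h64 : (64 : ℤ) ∣ d * (w ^ p) ^ 2) {L : ℕ} (hL : L ∈ zeroLevels) (h2L : 2 ∣ L)
    (hdL : ∀ q : ℕ, q.Prime → q ≠ 2 → (q : ℤ) ∣ d → q ∣ L) : False := by
  have hodd : Odd p := hp.odd_of_ne_two (by omega)
  have hep : e ^ p = e := by
    rcases he with rfl | rfl
    · exact one_pow p
    · exact hodd.neg_one_pow
  have he0 : e ≠ 0 := by rcases he with rfl | rfl <;> norm_num
  have hcop : IsCoprime e (d * w ^ 2) := by
    rcases he with rfl | rfl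
    · exact isCoprime_one_left
    · exact isCoprime_one_left.neg_left
  have hpow : (w ^ 2) ^ p = (w ^ p) ^ 2 := by rw [← pow_mul, ← pow_mul, mul_comm]
  refine two_coeff (A := 1) (x := e) (B := d) (y := w ^ 2) (z := z) (L := L) hp (by omega) hirr
    ?_ (by rw [one_mul]; exact hcop) (by rwa [hpow]) (by rwa [one_mul])
    (mul_ne_zero hd (pow_ne_zero _ hw)) hL ?_ hdL (Or.inl h2L)
  · rw [one_mul, hep, h, hpow]
    ring
  · intro q hq _ h1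
    have h3 : q ∣ 1 := by exact_mod_cast h1
    exact absurd (Nat.dvd_one.mp h3) hq.ne_one

/-- **The Pell equation**: in a solution of `z² - d Y² = 1`, `d = 2, 5, 6, 10`, the number
`Y ≠ 0` is never a `p`-th power. -/
theorem pell_ne (hp : p.Prime) (hp6 : 6 ≤ p) (hirr : IrredTwo p) {d : ℕ}
    (hd : d ∈ [2, 5, 6, 10]) {w z : ℤ} (hw : w ≠ 0) :
    z ^ 2 - (d : ℤ) * (w ^ p) ^ 2 ≠ 1 := by
  intro h
  have key : ∀ d ∈ [2, 5, 6, 10], d ≠ 0 ∧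
      (d % 8 = 2 ∨ d % 8 = 5 ∨ d % 8 = 6) := by decide
  obtain ⟨hd0, hd8⟩ := key d hd
  have h1 : z ^ 2 = (d : ℤ) * (w ^ p) ^ 2 + 1 := by linarith
  -- `w` is even
  have h2 : (2 : ℤ) ∣ w := by
    by_contra hcon
    have h3 : ¬ (2 : ℤ) ∣ w ^ p := fun h => hcon (Int.prime_two.dvd_of_dvd_pow h)
    have h4 : (w ^ p) ^ 2 % 8 = 1 := by
      have h5 : w ^ p % 8 = 1 ∨ w ^ p % 8 = 3 ∨ w ^ p % 8 = 5 ∨ w ^ p % 8 = 7 := by omega
      rcases h5 with h5 | h5 | h5 | h5 <;>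
        rw [pow_two, Int.mul_emod, h5] <;> norm_num
    have h6 : (z ^ 2) % 8 = (d + 1) % 8 := by
      rw [h1, Int.add_emod, Int.mul_emod, h4, mul_one, Int.emod_emod_of_dvd _ dvd_rfl,
        ← Int.add_emod]
    rcases sq_emod_eight z with h7 | h7 | h7 <;> omega
  have h64 : (64 : ℤ) ∣ (d : ℤ) * (w ^ p) ^ 2 :=
    ((sixtyfour_dvd hp6 h2).trans (dvd_pow_self _ two_ne_zero)).mul_left _
  have key2 : ∀ d ∈ [2, 5, 6, 10], (if 2 ∣ d then d else 2 * d) ∈ zeroLevels := by decide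
  refine pell_core hp hp6 hirr (Or.inl rfl) h1 hw (by exact_mod_cast hd0) h64 (key2 d hd) ?_ ?_
  · split_ifs with h3
    · exact h3
    · exact dvd_mul_right 2 d
  · intro q _ _ h3
    have h4 : q ∣ d := by exact_mod_cast h3
    split_ifs
    · exact h4
    · exact h4.mul_left 2

/-! ### Fibonacci numbers -/

/-- **No even Fibonacci number `F_n` (`n ≥ 1`) is a `p`-th power.** -/
theorem fib_ne_pow (hp : p.Prime) (hp6 : 6 ≤ p) (hirr : IrredTwo p) {n : ℕ}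
    (hn : 0 < n) (he : 2 ∣ Nat.fib n) (y : ℕ) : Nat.fib n ≠ y ^ p := by
  intro h
  have hy2 : 2 ∣ y := by
    rw [h] at he
    exact Nat.prime_two.dvd_of_dvd_pow he
  obtain ⟨w, rfl⟩ := hy2
  have hw : w ≠ 0 := by
    rintro rfl
    rw [mul_zero, zero_pow hp.ne_zero] at h
    exact (Nat.fib_pos.mpr hn).ne' h
  obtain ⟨m, rfl⟩ : ∃ m, p = m + 1 := ⟨p - 1, by omega⟩
  have hF : (Nat.fib n : ℤ) = 2 * (2 ^ m * (w : ℤ) ^ (m + 1)) := by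
    rw [h]
    push_cast
    rw [mul_pow, pow_succ 2 m]
    ring
  have hc := fib_sq_identity n
  rw [hF] at hc
  refine pell_core (d := 5 * (2 ^ m) ^ 2) (w := (w : ℤ))
    (z := (Nat.fib (n + 1) : ℤ) - 2 ^ m * (w : ℤ) ^ (m + 1)) (e := (-1) ^ n) (L := 10) hp hp6
    hirr (neg_one_pow_eq_or ℤ n) ?_ (by exact_mod_cast hw)
    (mul_ne_zero (by norm_num) (pow_ne_zero _ (pow_ne_zero _ two_ne_zero))) ?_ (by decide)
    (by norm_num) ?_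
  · rw [← hc]
    ring
  · have h1 : (64 : ℤ) ∣ (2 ^ m) ^ 2 := by
      rw [← pow_mul]
      have : (2 : ℤ) ^ 6 ∣ 2 ^ (m * 2) := pow_dvd_pow 2 (by omega)
      simpa using this
    exact (h1.mul_left 5).mul_right _
  · intro q hq hq2 h1
    have hq' := Nat.prime_iff_prime_int.mp hq
    rcases hq'.dvd_or_dvd h1 with h3 | h3
    · have h5 : q ∣ 5 := by exact_mod_cast h3
      exact h5.trans (by norm_num)
    · have h4 := hq'.dvd_of_dvd_pow (hq'.dvd_of_dvd_pow h3)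
      have h5 : q ∣ 2 := by exact_mod_cast h4
      exact h5.trans (by norm_num)

/-! ### Polygonal numbers -/

/-- **No even triangular number `≠ 0` is a `p`-th power.** -/
theorem triangular_ne_pow (hp : p.Prime) (hp6 : 6 ≤ p) (hirr : IrredTwo p) {n w : ℤ}
    (hw : w ≠ 0) (h2 : (2 : ℤ) ∣ w) : n * (n + 1) ≠ 2 * w ^ p := by
  intro h
  refine pow_add_two_pow_mul_pow_ne_sq hp hp6 hirr (x := 1) (y := w) (k := 3) one_ne_zero hw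
    isCoprime_one_left (by norm_num) (Or.inr h2) (2 * n + 1) ?_
  rw [one_pow]
  linear_combination -4 * h

/-- **No even (generalized) pentagonal number `≠ 0` is a `p`-th power.** -/
theorem pentagonal_ne_pow (hp : p.Prime) (hp6 : 6 ≤ p) (hirr : IrredTwo p) {n w : ℤ}
    (hw : w ≠ 0) (h2 : (2 : ℤ) ∣ w) : n * (3 * n - 1) ≠ 2 * w ^ p := by
  intro h
  refine pow_add_mul_pow_ne_sq hp hp6 hirr (ℓ := 3) (Or.inl rfl) (x := 1) (y := w) (k := 3)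
    (m := 1) one_ne_zero hw isCoprime_one_left (Or.inr h2) (6 * n - 1) ?_
  rw [one_pow]
  push_cast
  linear_combination -12 * h

/-- **No even octagonal number `n (3 n - 2) ≠ 0` is a `p`-th power.** -/
theorem octagonal_ne_pow (hp : p.Prime) (hp6 : 6 ≤ p) (hirr : IrredTwo p) {n w : ℤ}
    (hw : w ≠ 0) (h2 : (2 : ℤ) ∣ w) : n * (3 * n - 2) ≠ w ^ p := by
  intro h
  refine pow_add_mul_pow_ne_sq hp hp6 hirr (ℓ := 3) (Or.inl rfl) (x := 1) (y := w) (k := 0)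
    (m := 1) one_ne_zero hw isCoprime_one_left (Or.inr h2) (3 * n - 1) ?_
  rw [one_pow]
  push_cast
  linear_combination -3 * h

end Fermat.Agent.Cor.PPS.Aux

/-! ## The theorems -/

namespace Fermat.Agent.Cor.PPS

open WeierstrassCurve
open Aux (irredTwo)

variable {p : ℕ}

/-- **Darmon - Merel, even case**: `xⁿ + yⁿ = z²` with `x, y` coprime, `xy` even, `xy ≠ 0` is
impossible if `n` is divisible by `7`, by `11` or by a prime `p ≥ 17`. -/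
theorem pow_add_pow_ne_sq (hp : p.Prime) (h : p = 7 ∨ p = 11 ∨ 17 ≤ p) {n : ℕ} (hn : p ∣ n) {x y : ℤ}
    (hx : x ≠ 0) (hy : y ≠ 0) (hxy : IsCoprime x y) (heven : (2 : ℤ) ∣ x * y) (z : ℤ) :
    x ^ n + y ^ n ≠ z ^ 2 :=
  Aux.pow_add_pow_ne_sq_of_dvd hp (by omega) (irredTwo hp h) hn hx hy hxy heven z

/-- **The equation `A xᵖ + B yᵖ = z²`** (Ribet's method; Bennett - Skinner): `A x`, `B y` coprime
and `≠ 0`, `64 ∣ B yᵖ`, the odd primes of `A B` dividing a level `L` of genus zero, and `L` even or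
`v₂(B yᵖ) ≡ 6 mod p`: no solution. -/
theorem two_coeff (hp : p.Prime) (h : p = 7 ∨ p = 11 ∨ 17 ≤ p) {A B x y z : ℤ}
    (he : A * x ^ p + B * y ^ p = z ^ 2) (hcop : IsCoprime (A * x) (B * y))
    (h64 : (64 : ℤ) ∣ B * y ^ p) (hx : A * x ≠ 0) (hy : B * y ≠ 0) {L : ℕ}
    (hL : L ∈ zeroLevels) (hA : ∀ q : ℕ, q.Prime → q ≠ 2 → (q : ℤ) ∣ A → q ∣ L)
    (hB : ∀ q : ℕ, q.Prime → q ≠ 2 → (q : ℤ) ∣ B → q ∣ L)
    (h2 : 2 ∣ L ∨ p ∣ padicValInt 2 (B * y ^ p / 64)) : False :=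
  Aux.two_coeff hp (by omega) (irredTwo hp h) he hcop h64 hx hy hL hA hB h2

/-- **`xᵖ + 2ᵏ yᵖ = z²`**, `x` odd, `x, y` coprime, `xy ≠ 0`, `k ≥ 6` or `y` even: impossible. -/
theorem pow_add_two_pow_mul_pow_ne_sq (hp : p.Prime) (h : p = 7 ∨ p = 11 ∨ 17 ≤ p) {x y : ℤ}
    (hx : x ≠ 0) (hy : y ≠ 0) (hxy : IsCoprime x y) (hodd : ¬ (2 : ℤ) ∣ x) {k : ℕ}
    (hk : 6 ≤ k ∨ (2 : ℤ) ∣ y) (z : ℤ) : x ^ p + 2 ^ k * y ^ p ≠ z ^ 2 :=
  Aux.pow_add_two_pow_mul_pow_ne_sq hp (by omega) (irredTwo hp h) hx hy hxy hodd hk z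

/-- **`xᵖ + 2ᵏ ℓᵐ yᵖ = z²`**, `ℓ = 3` or `5`, `x` prime to `2 ℓ y`, `xy ≠ 0`, `k ≥ 6` or `y` even:
impossible. -/
theorem pow_add_mul_pow_ne_sq (hp : p.Prime) (h : p = 7 ∨ p = 11 ∨ 17 ≤ p) {ℓ : ℕ}
    (hℓ : ℓ = 3 ∨ ℓ = 5) {x y : ℤ} (hx : x ≠ 0) (hy : y ≠ 0) {k m : ℕ}
    (hxy : IsCoprime x (2 * (ℓ : ℤ) * y)) (hk : 6 ≤ k ∨ (2 : ℤ) ∣ y) (z : ℤ) :
    x ^ p + 2 ^ k * (ℓ : ℤ) ^ m * y ^ p ≠ z ^ 2 :=
  Aux.pow_add_mul_pow_ne_sq hp (by omega) (irredTwo hp h) hℓ hx hy hxy hk z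

/-- **`xᵖ + 64 ℓᵐ yᵖ = z²`**, `ℓ ∈ {3, 5, 7, 13}`, `x` prime to `2 ℓ y`, `xy ≠ 0`: impossible. -/
theorem pow_add_sixtyfour_mul_pow_ne_sq (hp : p.Prime) (h : p = 7 ∨ p = 11 ∨ 17 ≤ p) {ℓ : ℕ}
    (hℓ : ℓ ∈ [3, 5, 7, 13]) {x y : ℤ} (hx : x ≠ 0) (hy : y ≠ 0) {m : ℕ}
    (hxy : IsCoprime x (2 * (ℓ : ℤ) * y)) (z : ℤ) :
    x ^ p + 64 * (ℓ : ℤ) ^ m * y ^ p ≠ z ^ 2 :=
  Aux.pow_add_sixtyfour_mul_pow_ne_sq hp (by omega) (irredTwo hp h) hℓ hx hy hxy z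

/-- **Lebesgue - Nagell type**: `z² + 2ᵏ ≠ xⁿ` and `z² - 2ᵏ ≠ xⁿ` for `x` odd, `k ≥ 6`, `p ∣ n`,
`n ≠ 0`. -/
theorem sq_add_two_pow_ne_pow (hp : p.Prime) (h : p = 7 ∨ p = 11 ∨ 17 ≤ p) {n : ℕ} (hn : p ∣ n)
    (hn0 : n ≠ 0) {x : ℤ} (hx : ¬ (2 : ℤ) ∣ x) {k : ℕ} (hk : 6 ≤ k) (z : ℤ) :
    z ^ 2 + 2 ^ k ≠ x ^ n ∧ z ^ 2 - 2 ^ k ≠ x ^ n := by
  obtain ⟨m, rfl⟩ := hn
  have hm : m ≠ 0 := right_ne_zero_of_mul hn0
  have hx' : ¬ (2 : ℤ) ∣ x ^ m := fun h2 => hx (Int.prime_two.dvd_of_dvd_pow h2)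
  rw [mul_comm, pow_mul]
  exact ⟨Aux.sq_add_two_pow_ne_pow hp (by omega) (irredTwo hp h) hx' hk z,
    Aux.sq_sub_two_pow_ne_pow hp (by omega) (irredTwo hp h) hx' hk z⟩

/-- **`z² + 2ᵏ ℓᵐ ≠ xⁿ`** for `ℓ = 3, 5`, `x` prime to `2 ℓ`, `k ≥ 6`. -/
theorem sq_add_ne_pow (hp : p.Prime) (h : p = 7 ∨ p = 11 ∨ 17 ≤ p) {n : ℕ} (hn : p ∣ n)
    {ℓ : ℕ} (hℓ : ℓ = 3 ∨ ℓ = 5) {x : ℤ} (hx0 : x ≠ 0) (hx : IsCoprime x (2 * ℓ)) {k m : ℕ}
    (hk : 6 ≤ k) (z : ℤ) : z ^ 2 + 2 ^ k * (ℓ : ℤ) ^ m ≠ x ^ n := by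
  obtain ⟨r, rfl⟩ := hn
  rw [mul_comm p r, pow_mul]
  exact Aux.sq_add_mul_pow_ne_pow hp (by omega) (irredTwo hp h) hℓ (pow_ne_zero _ hx0)
    hx.pow_left hk z

/-- **`z² - 2ᵏ ℓᵐ ≠ xⁿ`** for `ℓ = 3, 5`, `x` prime to `2 ℓ`, `k ≥ 6`. -/
theorem sq_sub_ne_pow (hp : p.Prime) (h : p = 7 ∨ p = 11 ∨ 17 ≤ p) {n : ℕ} (hn : p ∣ n)
    {ℓ : ℕ} (hℓ : ℓ = 3 ∨ ℓ = 5) {x : ℤ} (hx0 : x ≠ 0) (hx : IsCoprime x (2 * ℓ)) {k m : ℕ}
    (hk : 6 ≤ k) (z : ℤ) : z ^ 2 - 2 ^ k * (ℓ : ℤ) ^ m ≠ x ^ n := by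
  obtain ⟨r, rfl⟩ := hn
  rw [mul_comm p r, pow_mul]
  exact Aux.sq_sub_mul_pow_ne_pow hp (by omega) (irredTwo hp h) hℓ (pow_ne_zero _ hx0)
    hx.pow_left hk z

/-- **Pell equations**: if `z² - d Y² = 1`, `d = 2, 5, 6, 10`, then `Y ≠ 0` is not an `n`-th power,
`p ∣ n`. -/
theorem pell_ne (hp : p.Prime) (h : p = 7 ∨ p = 11 ∨ 17 ≤ p) {n : ℕ} (hn : p ∣ n) {d : ℕ}
    (hd : d ∈ [2, 5, 6, 10]) {w z : ℤ} (hw : w ≠ 0) : z ^ 2 - (d : ℤ) * (w ^ n) ^ 2 ≠ 1 := by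
  obtain ⟨r, rfl⟩ := hn
  rw [mul_comm p r, pow_mul]
  exact Aux.pell_ne hp (by omega) (irredTwo hp h) hd (pow_ne_zero _ hw)

/-- **Even Fibonacci numbers**: `F_k ≠ yⁿ` for `k ≥ 1`, `F_k` even, `p ∣ n`. -/
theorem fib_ne_pow (hp : p.Prime) (h : p = 7 ∨ p = 11 ∨ 17 ≤ p) {n : ℕ} (hn : p ∣ n) {k : ℕ}
    (hk : 0 < k) (he : 2 ∣ Nat.fib k) (y : ℕ) : Nat.fib k ≠ y ^ n := by
  obtain ⟨r, rfl⟩ := hn
  rw [mul_comm p r, pow_mul]
  exact Aux.fib_ne_pow hp (by omega) (irredTwo hp h) hk he _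

/-- **Even triangular numbers**: `k (k + 1) / 2 ≠ wⁿ` for `w ≠ 0` even, `p ∣ n`, `n ≠ 0`. -/
theorem triangular_ne_pow (hp : p.Prime) (h : p = 7 ∨ p = 11 ∨ 17 ≤ p) {n : ℕ} (hn : p ∣ n)
    (hn0 : n ≠ 0) {k w : ℤ} (hw : w ≠ 0) (h2 : (2 : ℤ) ∣ w) : k * (k + 1) ≠ 2 * w ^ n := by
  obtain ⟨r, rfl⟩ := hn
  have hr : r ≠ 0 := right_ne_zero_of_mul hn0
  rw [mul_comm p r, pow_mul]
  exact Aux.triangular_ne_pow hp (by omega) (irredTwo hp h) (pow_ne_zero _ hw)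
    (dvd_pow h2 hr)

end Fermat.Agent.Cor.PPS
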