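import Fermat.Agent.Corollaries.K4.Frey
import Fermat.Agent.Corollaries.K1.Tower
import Fermat.Agent.S51_Galois

/-!
# The two-torsion of a Frey curve is rational

If the two-division polynomial of an elliptic curve over `ℚ` splits over `ℚ`, all points of order
two are rational; the Frey curve `fA A B` has the abscissae `0`, `A / 4`, `-B / 4`.
-/

set_option autoImplicit false

namespace Fermat.Agent.Cor

open WeierstrassCurve WeierstrassCurve.Affine WeierstrassCurve.Affine.Point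

/-- If the two-division polynomial splits over `ℚ`, the points of order two are rational. -/
theorem two_torsion_fixed {E : WeierstrassCurve ℚ} {r r' r'' : ℚ}
    (h₂ : E.b₂ = -4 * (r + r' + r'')) (h₄ : E.b₄ = 2 * (r * r' + r * r'' + r' * r''))
    (h₆ : E.b₆ = -4 * (r * r' * r'')) (x : K1.Pts E) (hx : 2 • x = 0) (σ : K1.Gam) :
    σ • x = x := by
  rcases x with _ | ⟨X, Y, h⟩
  · exact smul_zero (A := K1.Pts E) σ
  · have h1 : Point.some X Y h = - Point.some X Y h := by
      rw [eq_neg_iff_add_eq_zero, ← two_smul ℕ]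
      exact hx
    rw [neg_some] at h1
    have h2 : Y = (E⁄(AlgebraicClosure ℚ)).toAffine.negY X Y := (Point.some.inj h1).2
    have heq := (equation_iff _ _).mp h.1
    have b2 : (E⁄(AlgebraicClosure ℚ)).b₂ = algebraMap ℚ _ E.b₂ := WeierstrassCurve.map_b₂ E _
    have b4 : (E⁄(AlgebraicClosure ℚ)).b₄ = algebraMap ℚ _ E.b₄ := WeierstrassCurve.map_b₄ E _
    have b6 : (E⁄(AlgebraicClosure ℚ)).b₆ = algebraMap ℚ _ E.b₆ := WeierstrassCurve.map_b₆ E _
    have ha₁ : (E⁄(AlgebraicClosure ℚ)).a₁ = algebraMap ℚ _ E.a₁ := rfl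
    have ha₃ : (E⁄(AlgebraicClosure ℚ)).a₃ = algebraMap ℚ _ E.a₃ := rfl
    rw [h₂] at b2
    rw [h₄] at b4
    rw [h₆] at b6
    simp only [map_mul, map_add, map_neg, map_ofNat] at b2 b4 b6
    rw [WeierstrassCurve.b₂] at b2
    rw [WeierstrassCurve.b₄] at b4
    rw [WeierstrassCurve.b₆] at b6
    rw [negY] at h2
    have h3 : (X - algebraMap ℚ _ r) * (X - algebraMap ℚ _ r') * (X - algebraMap ℚ _ r'') = 0 := by
      have h4 : (4 : AlgebraicClosure ℚ) ≠ 0 := by norm_num
      refine mul_left_cancel₀ h4 ?_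
      linear_combination (-X ^ 2) * b2 - 2 * X * b4 - b6 - 4 * heq +
        (2 * Y + (E⁄(AlgebraicClosure ℚ)).a₁ * X + (E⁄(AlgebraicClosure ℚ)).a₃) * h2
    have h5 : ∃ q : ℚ, X = algebraMap ℚ _ q := by
      rcases mul_eq_zero.mp h3 with h3 | h3
      · rcases mul_eq_zero.mp h3 with h3 | h3
        · exact ⟨r, sub_eq_zero.mp h3⟩
        · exact ⟨r', sub_eq_zero.mp h3⟩
      · exact ⟨r'', sub_eq_zero.mp h3⟩
    obtain ⟨q, rfl⟩ := h5
    have h6 : Y = algebraMap ℚ _ (-(E.a₁ * q + E.a₃) / 2) := by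
      rw [map_div₀, map_neg, map_add, map_mul, map_ofNat, ← ha₁, ← ha₃]
      linear_combination h2 / 2
    subst h6
    obtain ⟨h', hσ⟩ := Fermat.Agent.S51gal.smul_some (W := E) σ h
    rw [hσ]
    simp only [AlgEquiv.commutes]

/-- The two-torsion of the Frey curve is rational. -/
theorem FreyTriple.two_torsion_fixed {A B C : ℤ} (h : FreyTriple A B C)
    (x : K1.Pts ((fA A B).map (Int.castRingHom ℚ))) (hx : 2 • x = 0) (σ : K1.Gam) :
    σ • x = x := by
  have h₂ : ((fA A B).b₂ : ℚ) = B - A := by exact_mod_cast fA_b₂ h.four h.sixteen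
  have h₄ : (8 : ℚ) * (fA A B).b₄ = -(A * B) := by exact_mod_cast fA_b₄ (A := A) h.sixteen
  have h₆ : ((fA A B).b₆ : ℚ) = 0 := by exact_mod_cast fA_b₆ (A := A) (B := B)
  refine Cor.two_torsion_fixed (r := 0) (r' := (A : ℚ) / 4) (r'' := -(B : ℚ) / 4) ?_ ?_ ?_ x hx σ
  · rw [WeierstrassCurve.map_b₂, eq_intCast, h₂]; ring
  · rw [WeierstrassCurve.map_b₄, eq_intCast]
    linear_combination h₄ / 8
  · rw [WeierstrassCurve.map_b₆, eq_intCast, h₆]; ring

end Fermat.Agent.Cor
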