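import Fermat.Agent.Corollaries.K4.Small.Main
import Fermat.Agent.Corollaries.K4.Small.FreyTwo
import Fermat.Agent.Corollaries.Surj.Main
import Fermat.Agent.Corollaries.Surj.Open

/-!
# Corollaries, K4P: surjectivity for semistable curves with rational points of order two

Let `W` be a semistable elliptic curve over `ℚ` whose points of order two are rational, for instance the Frey curve of
a coprime triple. Then `Gal(ℚ̄/ℚ)` acts on `W[p]`, on `W[p ^ n]` and on the Tate module `T_p W` through the full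
group of automorphisms, for every prime `p ≥ 5`.
-/

set_option autoImplicit false

noncomputable section

namespace Fermat.Agent.Cor

open WeierstrassCurve WeierstrassCurve.Affine WeierstrassCurve.Affine.Point
open Fermat.Agent.Classic

variable {W : WeierstrassCurve ℤ} (hΔ : W.Δ ≠ 0) {p : ℕ} [hp : Fact p.Prime]

/-- **The mod `p` representation of a semistable elliptic curve with rational points of order two is surjective for
every prime `p ≥ 5`** (Mazur, Serre), matrix form. -/
theorem repP_surjective_of_two (h5 : 5 ≤ p) (hW : W.IsSemistableModel)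
    (h2 : ∀ x : Mazur.Pt W, 2 • x = 0 → ∀ σ : K1.Gam, σ • x = x) :
    Function.Surjective (repP p hΔ) :=
  repP_surjective hΔ hW (by omega) (Small.modRepIsIrreducible_of_two hp.out h5 hΔ hW h2)

include hΔ in
/-- All automorphisms of `W[p]` come from `Gal(ℚ̄/ℚ)`. -/
theorem surjMod_of_two (h5 : 5 ≤ p) (hW : W.IsSemistableModel)
    (h2 : ∀ x : Mazur.Pt W, 2 • x = 0 → ∀ σ : K1.Gam, σ • x = x) : SurjMod W p := fun g =>
  exists_smul_eq_of_repP_surjective hΔ (repP_surjective_of_two hΔ h5 hW h2) g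

include hΔ in
/-- All automorphisms of `W[p ^ n]` come from `Gal(ℚ̄/ℚ)`. -/
theorem surjMod_pow_of_two (h5 : 5 ≤ p) (hW : W.IsSemistableModel)
    (h2 : ∀ x : Mazur.Pt W, 2 • x = 0 → ∀ σ : K1.Gam, σ • x = x) (n : ℕ) : SurjMod W (p ^ n) :=
  (surjMod_of_two hΔ h5 hW h2).pow hΔ h5 n

/-- **The `p`-adic representation of a semistable elliptic curve with rational points of order two is surjective for
every prime `p ≥ 5`.** -/
theorem tate_surjective_of_two (h5 : 5 ≤ p) (hW : W.IsSemistableModel)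
    (h2 : ∀ x : Mazur.Pt W, 2 • x = 0 → ∀ σ : K1.Gam, σ • x = x)
    (e : Tate.TMod p ((W.map (Int.castRingHom ℚ))⁄(AlgebraicClosure ℚ)).Point
      ≃ₗ[ℤ_[p]] Tate.TMod p ((W.map (Int.castRingHom ℚ))⁄(AlgebraicClosure ℚ)).Point) :
    ∃ σ : AlgebraicClosure ℚ ≃ₐ[ℚ] AlgebraicClosure ℚ,
      (Tate.tateRep (W.map (Int.castRingHom ℚ)) (Tate.map_Δ_ne_zero hΔ) p).ρ σ = e.toLinearMap :=
  (surjMod_of_two hΔ h5 hW h2).tate hΔ h5 e

/-- **Frey curves**: for every coprime triple `A + B + C = 0`, normalised by `A ≡ -1 mod 4` and `16 ∣ B`, and every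
prime `p ≥ 5`, the representation of `Gal(ℚ̄/ℚ)` on the `p`-torsion of the Frey curve is surjective. -/
theorem FreyTriple.repP_surjective {A B C : ℤ} (h : FreyTriple A B C) (h5 : 5 ≤ p) :
    Function.Surjective (repP p h.Δ_ne_zero) :=
  repP_surjective_of_two h.Δ_ne_zero h5 h.isSemistableModel h.two_torsion_fixed

/-- The `p`-adic representation of the Frey curve is surjective for every prime `p ≥ 5`. -/
theorem FreyTriple.tate_surjective {A B C : ℤ} (h : FreyTriple A B C) (h5 : 5 ≤ p)
    (e : Tate.TMod p (((fA A B).map (Int.castRingHom ℚ))⁄(AlgebraicClosure ℚ)).Point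
      ≃ₗ[ℤ_[p]] Tate.TMod p (((fA A B).map (Int.castRingHom ℚ))⁄(AlgebraicClosure ℚ)).Point) :
    ∃ σ : AlgebraicClosure ℚ ≃ₐ[ℚ] AlgebraicClosure ℚ,
      (Tate.tateRep ((fA A B).map (Int.castRingHom ℚ)) (Tate.map_Δ_ne_zero h.Δ_ne_zero) p).ρ σ =
        e.toLinearMap :=
  tate_surjective_of_two h.Δ_ne_zero h5 h.isSemistableModel h.two_torsion_fixed e

end Fermat.Agent.Cor
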