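import Mathlib

/-!
# Corollaries, K4P: the curve `X_1(13)` and the discriminant

For a point of order `13` in Tate's normal form `y ^ 2 + (1 - c) x y - b y = x ^ 3 - b x ^ 2` there is a
number `T` with `T = Δ k ^ 2` and `T ^ 2 + 6 T + 13 = w ^ 2`.
-/

set_option autoImplicit false

namespace Fermat.Agent.Cor.Small

/-- the discriminant of `y ^ 2 + (1 - c) x y - b y = x ^ 3 - b x ^ 2` -/
def disc (b c : ℚ) : ℚ :=
  b ^ 3 * ((1 - c) ^ 4 - (1 - c) ^ 3 - 8 * b * (1 - c) ^ 2 + 36 * b * (1 - c) - 27 * b + 16 * b ^ 2)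

/-- the equation of `X_1(13)`, with `r = 1 - x y`, `S = y + 1 - x y` -/
theorem alg13_xy {x y c : ℚ} (hR : y ^ 2 + (x ^ 3 + x ^ 2 + 1) * y - x ^ 2 - x = 0)
    (hx : x ≠ 0) (hx1 : x + 1 ≠ 0) (hy : y ≠ 0) (hy1 : y + 1 ≠ 0) (hr : 1 - x * y ≠ 0)
    (hS : y + 1 - x * y ≠ 0) (hc : c * (y + 1) = -(x * y * (y + 1 - x * y))) :
    ∃ T w k : ℚ, w ^ 2 = T ^ 2 + 6 * T + 13 ∧ k ≠ 0 ∧ T = disc ((1 - x * y) * c) c * k ^ 2 := by
  refine ⟨-(x ^ 3 + 4 * x ^ 2 + x - 1) / (x * (x + 1)),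
    (2 * y + x ^ 3 + x ^ 2 + 1) / (x * (x + 1)),
    (1 - x * y) * (y + 1) ^ 2 / (y ^ 7 * (y + 1 - x * y) ^ 3), ?_, ?_, ?_⟩
  · field_simp
    linear_combination (4 : ℚ) * hR
  · exact div_ne_zero (mul_ne_zero hr (pow_ne_zero _ hy1))
      (mul_ne_zero (pow_ne_zero _ hy) (pow_ne_zero _ hS))
  · have hrel : (1 - x * y) * (x * (x + 1)) = y * (y + 1) := by linear_combination -hR
    -- the cubic factor of the discriminant
    have hcc : c = -(x * y * (y + 1 - x * y)) / (y + 1) := by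
      rw [eq_div_iff hy1, hc]
    have hD : ((1 - c) ^ 3 + 8 * (1 - x * y) * (1 - c) ^ 2 - 36 * (1 - x * y) * (1 - c)
        + 27 * (1 - x * y) - 16 * (1 - x * y) ^ 2 * c) * (y + 1) ^ 5 =
        (x ^ 3 + 4 * x ^ 2 + x - 1) * (x + 1) ^ 4 * y ^ 5 * (y + 1 - x * y) ^ 2 := by
      rw [hcc]
      field_simp
      linear_combination (y^4 + y^5 + x*y^3 + 3*x*y^4 + x*y^5 - 7*x^2*y^4 - 8*x^2*y^5 + 14*x^3*y^5
        + 9*x^3*y^6 + 7*x^4*y^5 - 3*x^4*y^6 + x^5*y^5 - 5*x^5*y^6 - x^6*y^6) * hR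
    have hdisc : disc ((1 - x * y) * c) c * (y + 1) ^ 9 =
        -((1 - x * y) ^ 3 * (x ^ 3 + 4 * x ^ 2 + x - 1) * x ^ 4 * (x + 1) ^ 4 * y ^ 9 *
          (y + 1 - x * y) ^ 6) := by
      have h1 : disc ((1 - x * y) * c) c * (y + 1) ^ 9 = -((1 - x * y) ^ 3 * (c * (y + 1)) ^ 4 *
          (((1 - c) ^ 3 + 8 * (1 - x * y) * (1 - c) ^ 2 - 36 * (1 - x * y) * (1 - c)
        + 27 * (1 - x * y) - 16 * (1 - x * y) ^ 2 * c) * (y + 1) ^ 5)) := by
        rw [disc]; ring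
      rw [h1, hD, hc]
      ring
    have hdisc' : disc ((1 - x * y) * c) c = -((1 - x * y) ^ 3 * (x ^ 3 + 4 * x ^ 2 + x - 1) * x ^ 4
        * (x + 1) ^ 4 * y ^ 9 * (y + 1 - x * y) ^ 6) / (y + 1) ^ 9 := by
      rw [eq_div_iff (pow_ne_zero _ hy1), hdisc]
    rw [hdisc', div_pow, mul_pow, mul_pow, ← pow_mul, ← pow_mul, ← pow_mul, div_mul_div_comm,
      div_eq_div_iff (mul_ne_zero hx hx1) (mul_ne_zero (pow_ne_zero _ hy1)
        (mul_ne_zero (pow_ne_zero _ hy) (pow_ne_zero _ hS)))]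
    have h5 : ((1 - x * y) * (x * (x + 1))) ^ 5 = (y * (y + 1)) ^ 5 := by rw [hrel]
    linear_combination ((x ^ 3 + 4 * x ^ 2 + x - 1) * y ^ 9 * (y + 1) ^ 4 * (y + 1 - x * y) ^ 6) * h5

/-- **A point of order `13`.** -/
theorem alg13 {b c : ℚ} (hb : b ≠ 0)
    (h : b * c * (2 * b ^ 2 - 3 * b * c - b * c ^ 2 + c ^ 2) * (b - c - c ^ 2) ^ 3 +
      (b - c) * (c ^ 3 - b ^ 2 + b * c) ^ 3 = 0) :
    ∃ T w k : ℚ, w ^ 2 = T ^ 2 + 6 * T + 13 ∧ k ≠ 0 ∧ T = disc b c * k ^ 2 := by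
  have hc : c ≠ 0 := by
    rintro rfl
    exact pow_ne_zero 7 hb (by linear_combination -h)
  have hbc : b - c ≠ 0 := by
    intro h0
    have h1 : c = b := by linear_combination -h0
    rw [h1] at h
    exact pow_ne_zero 11 hb (by linear_combination h)
  obtain ⟨r, hr⟩ : ∃ r, b = r * c := ⟨b / c, by field_simp⟩
  have hr0 : r ≠ 0 := by rintro rfl; exact hb (by rw [hr, zero_mul])
  have hr1 : r - 1 ≠ 0 := by
    intro h0
    exact hbc (by rw [hr]; linear_combination c * h0)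
  obtain ⟨s, hs⟩ : ∃ s, c = s * (r - 1) := ⟨c / (r - 1), by field_simp⟩
  have hs0 : s ≠ 0 := by rintro rfl; exact hc (by rw [hs, zero_mul])
  have hG : r * (2 * r - 1 - r * s) * (1 - s) ^ 3 + (s - r) ^ 3 = 0 := by
    have h1 : s ^ 7 * (r - 1) ^ 11 * (r * (2 * r - 1 - r * s) * (1 - s) ^ 3 + (s - r) ^ 3) = 0 := by
      rw [← h, hr, hs]
      ring
    exact (mul_eq_zero.mp h1).resolve_left (mul_ne_zero (pow_ne_zero _ hs0) (pow_ne_zero _ hr1))
  have hs1 : 1 - s ≠ 0 := by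
    intro h0
    have h1 : s = 1 := by linear_combination -h0
    rw [h1] at hG
    exact pow_ne_zero 3 hr1 (by linear_combination -hG)
  have hsr : s - r ≠ 0 := by
    intro h0
    have h1 : s = r := by linear_combination h0
    rw [h1] at hG
    exact mul_ne_zero hr0 (pow_ne_zero 5 hr1) (by linear_combination hG)
  -- the coordinates of `X_1(13)`
  obtain ⟨y, hy⟩ : ∃ y, s - r = y * (1 - s) := ⟨(s - r) / (1 - s), by field_simp⟩
  have hy0 : y ≠ 0 := by rintro rfl; exact hsr (by rw [hy, zero_mul])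
  have hy1 : y + 1 ≠ 0 := by
    intro h0
    exact hr1 (by linear_combination hy * (-1) - (1 - s) * h0)
  obtain ⟨x, hx⟩ : ∃ x, 1 - r = x * y := ⟨(1 - r) / y, by field_simp⟩
  have hx0 : x ≠ 0 := by
    rintro rfl
    exact hr1 (by linear_combination -hx)
  have hr' : r = 1 - x * y := by linear_combination -hx
  have hs' : (1 - s) * (y + 1) = x * y := by linear_combination hx - hy
  have hs'' : s * (y + 1) = y + 1 - x * y := by linear_combination -hs'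
  have hS : y + 1 - x * y ≠ 0 := by
    rw [← hs'']
    exact mul_ne_zero hs0 hy1
  have hR : y ^ 2 + (x ^ 3 + x ^ 2 + 1) * y - x ^ 2 - x = 0 := by
    have h1 : (1 - s) ^ 3 * (y * (y * (y ^ 2 + (x ^ 3 + x ^ 2 + 1) * y - x ^ 2 - x))) = 0 := by
      have e1 : y * (y * (y ^ 2 + (x ^ 3 + x ^ 2 + 1) * y - x ^ 2 - x)) =
          y ^ 4 + y ^ 3 - (x * y) ^ 2 - (x * y) * y + (x * y) ^ 3 + (x * y) ^ 2 * y := by ring
      have e2 : r = 1 - (1 - s) * (y + 1) := by rw [hs', hr']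
      rw [e1, ← hs']
      rw [e2] at hG
      linear_combination (y + 1) * hG
    have h2 := (mul_eq_zero.mp h1).resolve_left (pow_ne_zero _ hs1)
    exact (mul_eq_zero.mp ((mul_eq_zero.mp h2).resolve_left hy0)).resolve_left hy0
  have hx1 : x + 1 ≠ 0 := by
    intro h0
    have h1 : x = -1 := by linear_combination h0
    rw [h1] at hR
    exact mul_ne_zero hy0 hy1 (by linear_combination hR)
  have hc' : c * (y + 1) = -(x * y * (y + 1 - x * y)) := by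
    rw [hs, hr']
    linear_combination (-(x * y)) * hs''
  have hb' : b = (1 - x * y) * c := by rw [hr, hr']
  rw [hb']
  exact alg13_xy hR hx0 hx1 hy0 hy1 (by rw [← hr']; exact hr0) hS hc'

end Fermat.Agent.Cor.Small
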