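import Mathlib

/-!
# Seven-torsion and a rational point of order two: the algebra

A point of order `7` (`c ^ 3 + b c = b ^ 2` in the normal form of Tate) together with a rational
root of the `2`-division polynomial gives a rational point on `y ^ 2 = Z (Z ^ 2 - 11 Z + 32)`
with `Z ≠ 0, 4, 8`.
-/

set_option autoImplicit false

namespace Fermat.Agent.Cor.Small

/-- the quadratic equation -/
theorem alg7_quad {r ρ : ℚ} (hr0 : r ≠ 0) (hr1 : r ≠ 1)
    (h : (2 * ρ + 1) * (r ^ 2 * ρ ^ 2 - r * (ρ ^ 2 + 1)) = ρ ^ 2)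
    (H : ∀ Z y : ℚ, y ^ 2 = Z * (Z ^ 2 - 11 * Z + 32) → Z = 0 ∨ Z = 4 ∨ Z = 8) : False := by
  by_cases hρ1 : ρ + 1 = 0
  · have h1 : ρ = -1 := by linarith
    subst h1
    have h2 : (r - 1) ^ 2 = 0 := by linear_combination -h
    exact hr1 (by linarith [pow_eq_zero_iff (two_ne_zero) |>.mp h2])
  · have h1 : (4 * (2 * (2 * ρ + 1) * ρ ^ 2 * r - (2 * ρ + 1) * (ρ ^ 2 + 1)) / (ρ + 1) ^ 3) ^ 2 =
        (4 * (2 * ρ + 1) / (ρ + 1)) * ((4 * (2 * ρ + 1) / (ρ + 1)) ^ 2 -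
          11 * (4 * (2 * ρ + 1) / (ρ + 1)) + 32) := by
      field_simp
      linear_combination (16 * (2 * ρ + 1) * ρ ^ 2) * h
    rcases H _ _ h1 with h2 | h2 | h2
    · rw [div_eq_zero_iff, or_iff_left hρ1] at h2
      have h3 : 2 * ρ + 1 = 0 := by linarith
      rw [h3, zero_mul] at h
      have h4 : ρ = 0 := pow_eq_zero_iff (two_ne_zero) |>.mp h.symm
      rw [h4] at h3
      norm_num at h3
    · rw [div_eq_iff hρ1] at h2
      have h3 : ρ = 0 := by linarith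
      subst h3
      apply hr0
      linear_combination -h
    · rw [div_eq_iff hρ1] at h2
      linarith

/-- **Seven-torsion and a rational point of order two.** -/
theorem alg7 {b c X : ℚ} (hb : b ≠ 0) (h7 : c ^ 3 + b * c = b ^ 2)
    (hX : 4 * X ^ 3 + ((1 - c) ^ 2 - 4 * b) * X ^ 2 - 2 * b * (1 - c) * X + b ^ 2 = 0)
    (H : ∀ Z y : ℚ, y ^ 2 = Z * (Z ^ 2 - 11 * Z + 32) → Z = 0 ∨ Z = 4 ∨ Z = 8) : False := by
  have hc : c ≠ 0 := by
    rintro rfl
    have h1 : b ^ 2 = 0 := by linear_combination -h7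
    exact hb (pow_eq_zero_iff (two_ne_zero) |>.mp h1)
  have hX0 : X ≠ 0 := by
    rintro rfl
    have h1 : b ^ 2 = 0 := by linear_combination hX
    exact hb (pow_eq_zero_iff (two_ne_zero) |>.mp h1)
  obtain ⟨r, hr⟩ : ∃ r : ℚ, b = r * c := ⟨b / c, by field_simp⟩
  subst hr
  have hcr : c = r ^ 2 - r := by
    have h1 : c ^ 2 * (c - (r ^ 2 - r)) = 0 := by linear_combination h7
    rcases mul_eq_zero.mp h1 with h2 | h2
    · exact absurd (pow_eq_zero_iff (two_ne_zero) |>.mp h2) hc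
    · linarith
  have hr0 : r ≠ 0 := by
    rintro rfl
    exact hb (zero_mul c)
  have hr1 : r ≠ 1 := by
    rintro rfl
    exact hc (by rw [hcr]; norm_num)
  obtain ⟨v, hv⟩ : ∃ v : ℚ, 2 * X * v = (1 - c) * X - r * c := ⟨((1 - c) * X - r * c) / (2 * X), by
    field_simp⟩
  have hv2 : X = r * c - v ^ 2 := by
    have h1 : 4 * X ^ 2 * (v ^ 2 - (r * c - X)) = 0 := by
      linear_combination (2 * X * v + (1 - c) * X - r * c) * hv + hX
    have h2 : (4 : ℚ) * X ^ 2 ≠ 0 := by positivity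
    linarith [(mul_eq_zero.mp h1).resolve_left h2]
  obtain ⟨ρ, hρ⟩ : ∃ ρ : ℚ, v = ρ * c := ⟨v / c, by field_simp⟩
  subst hρ
  refine alg7_quad hr0 hr1 ?_ H (ρ := ρ)
  have h1 : c ^ 2 * ((2 * ρ + 1) * (ρ ^ 2 * c - r) - ρ ^ 2) = 0 := by
    rw [hv2] at hv
    linear_combination -hv
  have h2 : (2 * ρ + 1) * (ρ ^ 2 * c - r) - ρ ^ 2 = 0 :=
    (mul_eq_zero.mp h1).resolve_left (pow_ne_zero 2 hc)
  rw [hcr] at h2
  linear_combination h2

end Fermat.Agent.Cor.Small
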