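import Fermat.Agent.Corollaries.K4.Small.DescAux

/-!
# `m ^ 4 + 6 * m ^ 2 * e ^ 2 + 13 * e ^ 4 = w ^ 2` has only the trivial coprime solutions
-/

set_option autoImplicit false

namespace Fermat.Agent.Cor.Small

/-- One step of the descent. -/
theorem desc13_step {m f w : ℤ} (hm : ¬ Even m) (h : IsCoprime m f) (hf : f ≠ 0)
    (hw : m ^ 4 + 6 * m ^ 2 * (2 * f) ^ 2 + 13 * (2 * f) ^ 4 = w ^ 2) :
    ∃ g k w' : ℤ, IsCoprime k g ∧ g ≠ 0 ∧ g ^ 2 ≤ f ^ 2 ∧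
      k ^ 4 + 6 * k ^ 2 * g ^ 2 + 13 * g ^ 4 = w' ^ 2 := by
  obtain ⟨a, ha⟩ := odd_sq_eq hm
  -- `w > 0`
  wlog hw0 : 0 ≤ w generalizing w
  · exact this (w := -w) (by rw [hw]; ring) (by omega)
  set A : ℤ := m ^ 2 + 12 * f ^ 2 with hA
  have hAodd : ¬ Even A := by
    rw [hA, ha, Int.not_even_iff_odd]
    exact ⟨4 * a + 6 * f ^ 2, by ring⟩
  have hwA : w ^ 2 = A ^ 2 + 4 * (16 * f ^ 4) := by rw [← hw, hA]; ring
  have hwodd : ¬ Even w := by
    intro h2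
    obtain ⟨b, hb⟩ := odd_sq_eq hAodd
    obtain ⟨c, hc⟩ := h2
    rw [hc, hb] at hwA
    have : (c + c) ^ 2 = 4 * c ^ 2 := by ring
    omega
  have hcf : IsCoprime A f := by
    rw [hA, show m ^ 2 + 12 * f ^ 2 = m ^ 2 + f * (12 * f) by ring]
    exact IsCoprime.add_mul_left_left_iff.mpr h.pow_left
  have hc2 : IsCoprime A 2 := by
    obtain ⟨b, hb⟩ := Int.not_even_iff_odd.mp hAodd
    exact ⟨1, -b, by rw [hb]; ring⟩
  have hc : IsCoprime A (16 * f ^ 4) := by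
    rw [show (16 * f ^ 4 : ℤ) = 2 ^ 4 * f ^ 4 by ring]
    exact hc2.pow_right.mul_right hcf.pow_right
  obtain ⟨x, y, hxyw, hxyA, hxy, hcop⟩ := halves hwodd hAodd hwA hc
  have hf4 : 0 < f ^ 4 := by positivity
  have hA0 : 0 < A := by rw [hA]; positivity
  have hpos : 0 < x ∧ 0 < y := by
    have h1 : 0 < x * y := by rw [hxy]; positivity
    rcases pos_and_pos_or_neg_and_neg_of_mul_pos h1 with h2 | h2
    · exact h2
    · omega
  obtain ⟨k, l, hkl, hf2, h3⟩ := split_pow4 (f := f) Nat.prime_two 4 hpos.1 hpos.2 hcop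
    (by rw [hxy]; norm_num)
  norm_num at h3
  -- the equation `m² = l⁴ - 12 k² l² - 16 k⁴`
  have hm2 : m ^ 2 = l ^ 4 - 12 * k ^ 2 * l ^ 2 - 16 * k ^ 4 := by
    rcases h3 with ⟨h4, h5⟩ | ⟨h4, h5⟩
    · have h6 : A = l ^ 4 - 16 * k ^ 4 := by rw [← hxyA, h4, h5]
      have h7 : f ^ 2 = k ^ 2 * l ^ 2 := by rw [← hf2]; ring
      rw [hA, h7] at h6
      linarith
    · exfalso
      have h6 : A = 16 * k ^ 4 - l ^ 4 := by rw [← hxyA, h4, h5]
      have h7 : f ^ 2 = k ^ 2 * l ^ 2 := by rw [← hf2]; ring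
      rw [hA, h7, ha] at h6
      by_cases hl : Even l
      · obtain ⟨r, hr⟩ := hl
        have h8 : l ^ 4 = 2 * (8 * r ^ 4) := by rw [hr]; ring
        have h9 : 12 * (k ^ 2 * l ^ 2) = 2 * (6 * (k ^ 2 * l ^ 2)) := by ring
        omega
      · obtain ⟨b, hb⟩ := odd_sq_eq hl
        have h8 : l ^ 4 = 4 * (16 * b ^ 2 + 4 * b) + 1 := by
          rw [show l ^ 4 = (l ^ 2) ^ 2 by ring, hb]
          ring
        have h9 : 12 * (k ^ 2 * l ^ 2) = 4 * (3 * (k ^ 2 * l ^ 2)) := by ring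
        omega
  have hk0 : k ≠ 0 := by
    rintro rfl
    rw [zero_mul] at hf2
    exact hf (pow_eq_zero_iff (two_ne_zero) |>.mp (by rw [← hf2]; norm_num))
  have hlodd : ¬ Even l := by
    rintro ⟨r, hr⟩
    have h4 : m ^ 2 = 2 * (8 * r ^ 4 - 6 * k ^ 2 * l ^ 2 - 8 * k ^ 4) := by
      rw [hm2, hr]
      ring
    omega
  have hkf : k ^ 2 ≤ f ^ 2 := by
    have h1 : l ≠ 0 := by
      rintro rfl
      exact hlodd (by simp)
    have h2 : 1 ≤ l ^ 2 := by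
      have : 0 < l ^ 2 := by positivity
      omega
    rw [← hf2, mul_pow]
    nlinarith [sq_nonneg k]
  -- second step
  set B : ℤ := l ^ 2 - 6 * k ^ 2 with hB
  have hBm : B ^ 2 = m ^ 2 + 4 * (13 * k ^ 4) := by rw [hm2, hB]; ring
  have hBodd : ¬ Even B := by
    obtain ⟨b, hb⟩ := odd_sq_eq hlodd
    rw [hB, hb, Int.not_even_iff_odd]
    exact ⟨4 * b - 3 * k ^ 2, by ring⟩
  have hck : IsCoprime B k := by
    rw [hB, show l ^ 2 - 6 * k ^ 2 = l ^ 2 + k * (-(6 * k)) by ring]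
    exact IsCoprime.add_mul_left_left_iff.mpr hkl.symm.pow_left
  have hmk : IsCoprime m k := by
    have h1 : IsCoprime m ((k * l) ^ 2) := by
      rw [hf2]
      exact h.pow_right
    exact ((IsCoprime.pow_right_iff (by norm_num)).mp h1).of_mul_right_left
  have hp13 : Prime (13 : ℤ) := Nat.prime_iff_prime_int.mp (by norm_num : Nat.Prime 13)
  have hm13 : IsCoprime m 13 := by
    refine ((Prime.coprime_iff_not_dvd hp13).mpr fun hdvd => ?_).symm
    obtain ⟨m', hm'⟩ := hdvd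
    have h1 : (13 : ℤ) ∣ B := hp13.dvd_of_dvd_pow (n := 2)
      ⟨13 * m' ^ 2 + 4 * k ^ 4, by rw [hBm, hm']; ring⟩
    obtain ⟨b', hb'⟩ := h1
    have h2 : (13 : ℤ) ∣ k ^ 4 * 4 := ⟨b' ^ 2 - m' ^ 2, by
      have h3 := hBm
      rw [hb', hm'] at h3
      linarith⟩
    have h4 : (13 : ℤ) ∣ k := by
      rcases hp13.dvd_or_dvd h2 with h5 | h5
      · exact hp13.dvd_of_dvd_pow h5
      · norm_num at h5
    exact hp13.not_isUnit (hck.isUnit_of_dvd' ⟨b', hb'⟩ h4)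
  have hcm : IsCoprime m (13 * k ^ 4) := hm13.mul_right hmk.pow_right
  obtain ⟨x', y', hxyB, -, hxy', hcop'⟩ := halves hBodd hm hBm hcm
  have hpos' : 0 < x' * y' := by rw [hxy']; positivity
  have fin : ∀ {x' y' : ℤ}, 0 < x' → 0 < y' → x' * y' = 13 * k ^ 4 → IsCoprime x' y' →
      ∃ g r : ℤ, IsCoprime g r ∧ (g * r) ^ 2 = k ^ 2 ∧ x' + y' = 13 * g ^ 4 + r ^ 4 := by
    intro x' y' h1 h2 h3 h4
    obtain ⟨g, r, h5, h6, h7⟩ := split_pow4 (f := k) (by norm_num : Nat.Prime 13) 1 h1 h2 h4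
      (by rw [h3]; norm_num)
    norm_num at h7
    refine ⟨g, r, h5, h6, ?_⟩
    rcases h7 with ⟨h8, h9⟩ | ⟨h8, h9⟩
    · rw [h8, h9]
    · rw [h8, h9, add_comm]
  have hl0 : 0 < l ^ 2 := by
    have h1 : l ≠ 0 := by
      rintro rfl
      exact hlodd (by simp)
    positivity
  rcases pos_and_pos_or_neg_and_neg_of_mul_pos hpos' with ⟨h1, h2⟩ | ⟨h1, h2⟩
  · obtain ⟨g, r, h4, h5, h6⟩ := fin h1 h2 hxy' hcop'
    rw [hxyB] at h6
    have hg0 : g ≠ 0 := by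
      rintro rfl
      rw [zero_mul] at h5
      exact hk0 (pow_eq_zero_iff (two_ne_zero) |>.mp (by rw [← h5]; norm_num))
    have hr0 : r ≠ 0 := by
      rintro rfl
      rw [mul_zero] at h5
      exact hk0 (pow_eq_zero_iff (two_ne_zero) |>.mp (by rw [← h5]; norm_num))
    refine ⟨g, r, l, h4.symm, hg0, ?_, ?_⟩
    · refine le_trans ?_ hkf
      have h7 : 1 ≤ r ^ 2 := by
        have : 0 < r ^ 2 := by positivity
        omega
      rw [← h5, mul_pow]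
      nlinarith [sq_nonneg g]
    · have h7 : l ^ 2 = B + 6 * k ^ 2 := by rw [hB]; ring
      rw [h7, h6, ← h5]
      ring
  · exfalso
    obtain ⟨g, r, h4, h5, h6⟩ := fin (x' := -x') (y' := -y') (by omega) (by omega)
      (by rw [neg_mul_neg, hxy']) hcop'.neg_neg
    have h7 : l ^ 2 = B + 6 * k ^ 2 := by rw [hB]; ring
    have h8 : B = -(13 * g ^ 4 + r ^ 4) := by rw [← h6, ← hxyB]; ring
    rw [h8, ← h5] at h7
    have h9 : l ^ 2 = -((r ^ 2 - 3 * g ^ 2) ^ 2 + 4 * g ^ 4) := by rw [h7]; ring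
    have h10 : 0 ≤ (r ^ 2 - 3 * g ^ 2) ^ 2 + 4 * g ^ 4 := by positivity
    omega

/-- **The descent.** -/
theorem desc13 {m e w : ℤ} (h : IsCoprime m e)
    (hw : m ^ 4 + 6 * m ^ 2 * e ^ 2 + 13 * e ^ 4 = w ^ 2) : e = 0 := by
  induction' hn : e.natAbs using Nat.strong_induction_on with n ih generalizing m e w
  by_cases he : Even e
  · obtain ⟨f, hf⟩ := he
    rw [← two_mul] at hf
    have hm : ¬ Even m := by
      rintro ⟨m', hm'⟩
      rw [← two_mul] at hm'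
      have h1 : (2 : ℤ) ∣ m := ⟨m', hm'⟩
      have h2 := h.isUnit_of_dvd' h1 ⟨f, hf⟩
      rw [Int.isUnit_iff] at h2
      omega
    by_contra he0
    have hf0 : f ≠ 0 := by
      rintro rfl
      exact he0 (by rw [hf, mul_zero])
    have hmf : IsCoprime m f := by
      rw [hf] at h
      exact h.of_mul_right_right
    rw [hf] at hw
    obtain ⟨g, k, w', h1, h2, h3, h4⟩ := desc13_step hm hmf hf0 hw
    refine h2 (ih g.natAbs ?_ h1 h4 rfl)
    have h5 : g.natAbs ≤ f.natAbs := Int.natAbs_le_iff_sq_le.mpr h3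
    have h6 : e.natAbs = 2 * f.natAbs := by rw [hf, Int.natAbs_mul]; rfl
    have h7 : 0 < f.natAbs := Int.natAbs_pos.mpr hf0
    omega
  · exfalso
    obtain ⟨b, hb⟩ := odd_sq_eq he
    by_cases hm : Even m
    · obtain ⟨k, hk⟩ := hm
      have h1 : w ^ 2 = 8 * (2 * k ^ 4 + 3 * k ^ 2 * e ^ 2 + 104 * b ^ 2 + 26 * b + 1) + 5 := by
        rw [← hw, hk, show (13 : ℤ) * e ^ 4 = 13 * (e ^ 2) ^ 2 by ring, hb]
        ring
      by_cases hwe : Even w
      · obtain ⟨r, hr⟩ := hwe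
        have h2 : w ^ 2 = 2 * (2 * r ^ 2) := by rw [hr]; ring
        omega
      · obtain ⟨c, hc⟩ := odd_sq_eq hwe
        omega
    · obtain ⟨a, ha⟩ := odd_sq_eq hm
      have h1 : w ^ 2 = 4 * (16 * (a ^ 2 + a + 6 * a * b + 4 * b + 13 * b ^ 2) + 5) := by
        rw [← hw, show m ^ 4 = (m ^ 2) ^ 2 by ring,
          show (13 : ℤ) * e ^ 4 = 13 * (e ^ 2) ^ 2 by ring, ha, hb]
        ring
      by_cases hwe : Even w
      · obtain ⟨r, hr⟩ := hwe
        have h2 : w ^ 2 = 4 * r ^ 2 := by rw [hr]; ring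
        by_cases hre : Even r
        · obtain ⟨q, hq⟩ := hre
          have h3 : r ^ 2 = 2 * (2 * q ^ 2) := by rw [hq]; ring
          omega
        · obtain ⟨c, hc⟩ := odd_sq_eq hre
          omega
      · obtain ⟨c, hc⟩ := odd_sq_eq hwe
        omega

/-- The curve `y ^ 2 = t * (t ^ 2 + 6 * t + 13)` has no rational point with `t ≠ 0`. -/
theorem no_sq13 {t y : ℚ} (ht : t ≠ 0) : y ^ 2 ≠ t * (t ^ 2 + 6 * t + 13) := by
  intro h
  -- the case of a square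
  have key : ∀ {q y : ℚ}, q ≠ 0 → y ^ 2 ≠ q ^ 2 * ((q ^ 2) ^ 2 + 6 * q ^ 2 + 13) := by
    intro q y hq h
    have h1 : (((q.num ^ 4 + 6 * q.num ^ 2 * (q.den : ℤ) ^ 2 + 13 * (q.den : ℤ) ^ 4 : ℤ)) : ℚ) =
        (y / q * q.den ^ 2) ^ 2 := by
      rw [mul_pow, div_pow, h]
      push_cast
      rw [← Rat.mul_den_eq_num q]
      field_simp
    obtain ⟨w, hw⟩ : IsSquare (q.num ^ 4 + 6 * q.num ^ 2 * (q.den : ℤ) ^ 2 + 13 * (q.den : ℤ) ^ 4) :=
      Rat.isSquare_intCast_iff.mp ⟨y / q * q.den ^ 2, by rw [h1]; ring⟩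
    have hc : IsCoprime q.num (q.den : ℤ) := by
      rw [Int.isCoprime_iff_gcd_eq_one]
      exact q.reduced
    have := desc13 hc (hw.trans (pow_two w).symm)
    exact q.den_ne_zero (by exact_mod_cast this)
  have hQ : 0 < t ^ 2 + 6 * t + 13 := by nlinarith [sq_nonneg (t + 3)]
  have ht0 : 0 < t := by
    rcases lt_or_gt_of_ne ht with h1 | h1
    · nlinarith [sq_nonneg y, mul_neg_of_neg_of_pos h1 hQ]
    · exact h1
  obtain ⟨u, q, hu, hu13, hq⟩ := exists_sq_mul (A := 6) (B := 13) ht0 (by push_cast; exact h)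
  have hu' : u ∣ 13 := by exact_mod_cast hu13
  have hq0 : q ≠ 0 := by
    rintro rfl
    rw [hq] at ht
    exact ht (by ring)
  rcases (Nat.dvd_prime (by norm_num : Nat.Prime 13)).mp hu' with rfl | rfl
  · rw [Nat.cast_one, one_mul] at hq
    rw [hq] at h
    exact key hq0 h
  · have h2 : (13 * y / t ^ 2) ^ 2 = q⁻¹ ^ 2 * ((q⁻¹ ^ 2) ^ 2 + 6 * q⁻¹ ^ 2 + 13) := by
      rw [div_pow, mul_pow, h, hq]
      push_cast
      field_simp
      ring
    exact key (inv_ne_zero hq0) h2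

end Fermat.Agent.Cor.Small
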