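import Fermat.Agent.Corollaries.K4.Small.Split

/-!
# Corollaries, K4P: the descent for `m ^ 4 - 11 m ^ 2 e ^ 2 - e ^ 4 = w ^ 2`
-/

set_option autoImplicit false

namespace Fermat.Agent.Cor.Small

theorem zmod8_five : ∀ m e w : ZMod 8, m ^ 4 - 11 * m ^ 2 * e ^ 2 - e ^ 4 = w ^ 2 → 4 * e = 0 := by
  decide

theorem zmod5_five : ∀ m f : ZMod 5, m ^ 2 - 22 * f ^ 2 = 0 → m = 0 ∧ f = 0 := by
  decide

theorem even_of_zmod8 {e : ℤ} (h : (4 * e : ZMod 8) = 0) : ∃ f, e = 2 * f := by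
  have h1 : ((4 * e : ℤ) : ZMod 8) = 0 := by push_cast; exact h
  have h2 := (ZMod.intCast_zmod_eq_zero_iff_dvd _ 8).mp h1
  obtain ⟨k, hk⟩ := h2
  exact ⟨k, by push_cast at hk; omega⟩

/-- two integers with `2 ∣ a ^ 2 - b ^ 2` have the same parity -/
theorem exists_half {a b c : ℤ} (h : a ^ 2 - b ^ 2 = 2 * c) :
    ∃ u v : ℤ, a - b = 2 * u ∧ a + b = 2 * v := by
  have h1 : (2 : ℤ) ∣ (a - b) * (a + b) := ⟨c, by rw [← h]; ring⟩
  rcases Int.prime_two.dvd_mul.mp h1 with h2 | h2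
  · obtain ⟨u, hu⟩ := h2
    exact ⟨u, u + b, hu, by rw [mul_add, ← hu]; ring⟩
  · obtain ⟨v, hv⟩ := h2
    exact ⟨v - b, v, by rw [mul_sub, ← hv]; ring, hv⟩

/-- The second half of a step: `M ^ 2 = z ^ 2 + 4 h ^ 4` with `z` coprime to `h`. -/
theorem half_step {M z h : ℤ} (hh : h ≠ 0) (hz : IsCoprime z h)
    (heq : M ^ 2 = z ^ 2 + 4 * h ^ 4) :
    ∃ k l : ℤ, h = k * l ∧ IsCoprime l k ∧ l ^ 4 - k ^ 4 = z := by
  wlog hpos : 0 ≤ M generalizing M
  · exact this (M := -M) (by rw [← heq]; ring) (by omega)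
  obtain ⟨u, v, hu, hv⟩ := exists_half (a := M) (b := z) (c := 2 * h ^ 4) (by rw [heq]; ring)
  have huv : u * v = h ^ 4 := by
    have h1 : (M - z) * (M + z) = 4 * h ^ 4 := by linear_combination heq
    rw [hu, hv] at h1
    linarith
  have hz' : v - u = z := by linarith
  have hcop : IsCoprime u v := isCoprime_of_prime fun q hq h1 h2 => by
    have h3 : q ∣ h := hq.dvd_of_dvd_pow (huv ▸ h1.mul_right v)
    have h4 : q ∣ z := hz' ▸ dvd_sub h2 h1
    exact hq.not_isUnit (hz.isUnit_of_dvd' h4 h3)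
  obtain ⟨k, l, ε, h1, h2, h3, h4⟩ := split_pow hh hcop huv
  have hk : k ≠ 0 := by rintro rfl; exact hh (by rw [h1, zero_mul])
  have hε : ε = 1 := by
    rcases h2 with h2 | h2
    · exact h2
    · exfalso
      have h5 : M = u + v := by linarith
      rw [h3, h4, h2] at h5
      have h6 : 0 < k ^ 4 := by positivity
      have h7 : 0 ≤ l ^ 4 := by positivity
      omega
  rw [hε, one_mul] at h3 h4
  refine ⟨k, l, h1, ?_, by rw [← h3, ← h4, hz']⟩
  rw [h3, h4] at hcop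
  exact ((IsCoprime.pow_iff (by norm_num) (by norm_num)).mp hcop).symm

/-- **Descent**: `m ^ 4 - 11 m ^ 2 e ^ 2 - e ^ 4` is a square, `m`, `e` coprime, only for `e = 0`. -/
theorem desc5 {m e w : ℤ} (hcop : IsCoprime m e)
    (hw : m ^ 4 - 11 * m ^ 2 * e ^ 2 - e ^ 4 = w ^ 2) : e = 0 := by
  induction hn : e.natAbs using Nat.strong_induction_on generalizing m e w with
  | _ n ih =>
  by_contra he
  obtain ⟨f, rfl⟩ : ∃ f, e = 2 * f := by
    refine even_of_zmod8 (zmod8_five m e w ?_)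
    have := congrArg (Int.cast : ℤ → ZMod 8) hw
    push_cast at this
    exact this
  have hf : f ≠ 0 := by rintro rfl; exact he (by ring)
  obtain ⟨v, u, hv, hu⟩ := exists_half (a := m ^ 2 - 22 * f ^ 2) (b := w) (c := 250 * f ^ 4)
    (by rw [← hw]; ring)
  have huv : u * v = 5 ^ 3 * f ^ 4 := by
    have h1 : (m ^ 2 - 22 * f ^ 2 + w) * (m ^ 2 - 22 * f ^ 2 - w) = 500 * f ^ 4 := by
      linear_combination hw
    rw [hu, hv] at h1
    linarith
  have hsum : u + v = m ^ 2 - 22 * f ^ 2 := by linarith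
  have hmf : ∀ q : ℤ, Prime q → q ∣ m → q ∣ f → False := fun q hq h1 h2 =>
    hq.not_isUnit (hcop.isUnit_of_dvd' h1 (h2.mul_left 2))
  have huvc : IsCoprime u v := isCoprime_of_prime fun q hq h1 h2 => by
    have h3 : q ∣ m ^ 2 - 22 * f ^ 2 := hsum ▸ dvd_add h1 h2
    have h4 : q ∣ 5 ^ 3 * f ^ 4 := huv ▸ h1.mul_right v
    rcases hq.dvd_mul.mp h4 with h4 | h4
    · have h5 : (5 : ℤ) ∣ q := by
        have h6 : q ∣ 5 := hq.dvd_of_dvd_pow h4
        exact ((hq.dvd_prime_iff_associated (by norm_num : Prime (5 : ℤ))).mp h6).symm.dvd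
      have h6 : (5 : ℤ) ∣ m ^ 2 - 22 * f ^ 2 := h5.trans h3
      have h7 := zmod5_five (m : ZMod 5) (f : ZMod 5) (by
        have := (ZMod.intCast_zmod_eq_zero_iff_dvd _ 5).mpr h6
        push_cast at this
        exact this)
      exact hmf 5 (by norm_num) ((ZMod.intCast_zmod_eq_zero_iff_dvd _ 5).mp h7.1)
        ((ZMod.intCast_zmod_eq_zero_iff_dvd _ 5).mp h7.2)
    · have h5 : q ∣ f := hq.dvd_of_dvd_pow h4
      have h6 : q ∣ m ^ 2 := by
        have := dvd_add h3 ((h5.mul_right f).mul_left 22)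
        have h8 : m ^ 2 - 22 * f ^ 2 + 22 * (f * f) = m ^ 2 := by ring
        rwa [h8] at this
      exact hmf q hq (hq.dvd_of_dvd_pow h6) h5
  obtain ⟨g, h, ε, hfgh, hgh, hε, hcase⟩ := split4 (by norm_num : Prime (5 : ℤ)) 3 hf huvc huv
  have hg : g ≠ 0 := by rintro rfl; exact hf (by rw [hfgh, zero_mul])
  have hh : h ≠ 0 := by rintro rfl; exact hf (by rw [hfgh, mul_zero])
  have hs : ε * (g ^ 4 + 125 * h ^ 4) = m ^ 2 - 22 * (g * h) ^ 2 := by
    rw [← hfgh, ← hsum]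
    rcases hcase with ⟨h1, h2⟩ | ⟨h1, h2⟩ <;> rw [h1, h2] <;> ring
  have hε1 : ε = 1 := by
    rcases hε with h1 | h1
    · exact h1
    · exfalso
      rw [h1] at hs
      have h2 : 0 < h ^ 4 := by positivity
      have h3 : m ^ 2 + (g ^ 2 - 11 * h ^ 2) ^ 2 + 4 * h ^ 4 = 0 := by linear_combination -hs
      have h4 : 0 ≤ m ^ 2 := sq_nonneg m
      have h5 : 0 ≤ (g ^ 2 - 11 * h ^ 2) ^ 2 := sq_nonneg _
      linarith
  rw [hε1] at hs
  have hM : m ^ 2 = (g ^ 2 + 11 * h ^ 2) ^ 2 + 4 * h ^ 4 := by linear_combination -hs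
  obtain ⟨k, l, hkl, hlk, hz⟩ := half_step hh (isCoprime_of_prime fun q hq h1 h2 => by
    have h3 : q ∣ g ^ 2 := by
      have := dvd_sub h1 ((h2.mul_right h).mul_left 11)
      have h8 : g ^ 2 + 11 * h ^ 2 - 11 * (h * h) = g ^ 2 := by ring
      rwa [h8] at this
    exact hq.not_isUnit (hgh.isUnit_of_dvd' (hq.dvd_of_dvd_pow h3) h2)) hM
  have hk : k ≠ 0 := by rintro rfl; exact hh (by rw [hkl, zero_mul])
  have hl : l ≠ 0 := by rintro rfl; exact hh (by rw [hkl, mul_zero])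
  refine hk (ih k.natAbs ?_ hlk (w := g) ?_ rfl)
  · rw [← hn, hfgh, hkl, Int.natAbs_mul, Int.natAbs_mul, Int.natAbs_mul]
    have h1 : 0 < g.natAbs := Int.natAbs_pos.mpr hg
    have h2 : 0 < l.natAbs := Int.natAbs_pos.mpr hl
    have h3 : 0 < k.natAbs := Int.natAbs_pos.mpr hk
    have h4 : k.natAbs * 1 ≤ k.natAbs * l.natAbs := Nat.mul_le_mul_left _ h2
    have h5 : 1 * (k.natAbs * l.natAbs) ≤ g.natAbs * (k.natAbs * l.natAbs) :=
      Nat.mul_le_mul_right _ h1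
    have h6 : (2 : ℤ).natAbs = 2 := rfl
    rw [h6]
    omega
  · rw [hkl] at hz
    linear_combination hz

/-- a product of three pairwise coprime integers is a square only if each is a square up to sign -/
theorem sq_of_mul3 {a b c y : ℤ} (hab : IsCoprime a b) (hac : IsCoprime a c) (hbc : IsCoprime b c)
    (ha : a ≠ 0) (hb : 0 < b) (h : a * b * c = y ^ 2) :
    ∃ ε m e w : ℤ, (ε = 1 ∨ ε = -1) ∧ a = ε * m ^ 2 ∧ b = e ^ 2 ∧ c = ε * w ^ 2 := by
  obtain ⟨m, hm⟩ := Int.sq_of_isCoprime (hab.mul_right hac) (show a * (b * c) = y ^ 2 by rw [← h]; ring)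
  obtain ⟨e, he⟩ := Int.sq_of_isCoprime (hab.symm.mul_right hbc)
    (show b * (a * c) = y ^ 2 by rw [← h]; ring)
  obtain ⟨w, hw⟩ := Int.sq_of_isCoprime (hac.symm.mul_right hbc.symm)
    (show c * (a * b) = y ^ 2 by rw [← h]; ring)
  have he' : b = e ^ 2 := by
    rcases he with he | he
    · exact he
    · exfalso
      have := sq_nonneg e
      omega
  have hy : 0 ≤ y ^ 2 := sq_nonneg y
  have hm0 : m ≠ 0 := by rintro rfl; rcases hm with hm | hm <;> exact ha (by rw [hm]; ring)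
  have he0 : e ≠ 0 := by rintro rfl; exact hb.ne' (by rw [he']; ring)
  have hpos : 0 < m ^ 2 * e ^ 2 := by positivity
  rcases hm with hm | hm <;> rcases hw with hw | hw
  · exact ⟨1, m, e, w, Or.inl rfl, by rw [one_mul, hm], he', by rw [one_mul, hw]⟩
  · have h1 : m ^ 2 * e ^ 2 * w ^ 2 ≤ 0 := by
      have : m ^ 2 * e ^ 2 * w ^ 2 = -(a * b * c) := by rw [hm, he', hw]; ring
      rw [this, h]; linarith
    have h2 : w ^ 2 = 0 := le_antisymm (by nlinarith [sq_nonneg w]) (sq_nonneg w)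
    exact ⟨1, m, e, w, Or.inl rfl, by rw [one_mul, hm], he', by rw [hw, h2]; ring⟩
  · have h1 : m ^ 2 * e ^ 2 * w ^ 2 ≤ 0 := by
      have : m ^ 2 * e ^ 2 * w ^ 2 = -(a * b * c) := by rw [hm, he', hw]; ring
      rw [this, h]; linarith
    have h2 : w ^ 2 = 0 := le_antisymm (by nlinarith [sq_nonneg w]) (sq_nonneg w)
    exact ⟨-1, m, e, w, Or.inr rfl, by rw [hm]; ring, he', by rw [hw, h2]; ring⟩
  · exact ⟨-1, m, e, w, Or.inr rfl, by rw [hm]; ring, he', by rw [hw]; ring⟩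

/-- an integer which is a rational square is the square of an integer -/
theorem exists_sq_of_rat {n : ℤ} {y : ℚ} (h : y ^ 2 = n) : ∃ z : ℤ, n = z ^ 2 := by
  have h1 : IsSquare (n : ℚ) := ⟨y, by rw [← h]; ring⟩
  obtain ⟨z, hz⟩ := Rat.isSquare_intCast_iff.mp h1
  exact ⟨z, by rw [hz]; ring⟩

/-- **The curve `y ^ 2 = t (t ^ 2 - 11 t - 1)`** has no rational point with `t ≠ 0`. -/
theorem no_sq5 {t y : ℚ} (ht : t ≠ 0) : y ^ 2 ≠ t * (t ^ 2 - 11 * t - 1) := by
  intro h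
  set a : ℤ := t.num with ha
  set b : ℤ := (t.den : ℤ) with hb
  have hb0 : 0 < b := by rw [hb]; exact_mod_cast t.den_pos
  have hbq : (b : ℚ) ≠ 0 := by exact_mod_cast hb0.ne'
  have htab : t = a / b := by rw [ha, hb]; exact (Rat.num_div_den t).symm
  have ha0 : a ≠ 0 := by rw [ha]; exact Rat.num_ne_zero.mpr ht
  have hab : IsCoprime a b := by
    rw [ha, hb, Int.isCoprime_iff_gcd_eq_one]
    exact t.reduced
  have h1 : (y * b ^ 2) ^ 2 = ((a * b * (a ^ 2 - 11 * a * b - b ^ 2) : ℤ) : ℚ) := by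
    rw [mul_pow, h, htab]
    push_cast
    field_simp
  obtain ⟨z, hz⟩ := exists_sq_of_rat h1
  have hac : IsCoprime a (a ^ 2 - 11 * a * b - b ^ 2) := by
    have h2 : IsCoprime a (-b ^ 2) := (hab.pow_right (n := 2)).neg_right
    have := h2.add_mul_left_right (a - 11 * b)
    rwa [show -b ^ 2 + a * (a - 11 * b) = a ^ 2 - 11 * a * b - b ^ 2 by ring] at this
  have hbc : IsCoprime b (a ^ 2 - 11 * a * b - b ^ 2) := by
    have h2 : IsCoprime b (a ^ 2) := hab.symm.pow_right (n := 2)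
    have := h2.add_mul_left_right (-11 * a - b)
    rwa [show a ^ 2 + b * (-11 * a - b) = a ^ 2 - 11 * a * b - b ^ 2 by ring] at this
  obtain ⟨ε, m, e, w, hε, h2, h3, h4⟩ := sq_of_mul3 hab hac hbc ha0 hb0 hz
  have hm0 : m ≠ 0 := by rintro rfl; exact ha0 (by rw [h2]; ring)
  have he0 : e ≠ 0 := by rintro rfl; exact hb0.ne' (by rw [h3]; ring)
  have hε2 : ε * ε = 1 := by rcases hε with rfl | rfl <;> norm_num
  have hme : IsCoprime m e := by
    rw [h2, h3] at hab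
    exact (IsCoprime.pow_iff (by norm_num) (by norm_num)).mp hab.of_mul_left_right
  rw [h2, h3] at h4
  rcases hε with hε | hε
  · rw [hε] at h4
    exact he0 (desc5 hme (w := w) (by linear_combination h4))
  · rw [hε] at h4
    exact hm0 (desc5 hme.symm (w := w) (by linear_combination -h4))

end Fermat.Agent.Cor.Small
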