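import Mathlib.AlgebraicGeometry.EllipticCurve.DivisionPolynomial.Basic

/-!
# The division polynomials `ψ₅`, `ψ₇`, `ψ₁₃` of the Tate normal form at `x = 0`

For `y² + a₁ x y + a₃ y = x³ + a₂ x²` with `a₁ = u (1 - c)`, `a₂ = - u² b`, `a₃ = - u³ b` the values
at `x = 0` of the division polynomials are the equations of the modular curves `X₁(5)`, `X₁(7)`,
`X₁(13)`.
-/

set_option autoImplicit false

noncomputable section

open Polynomial WeierstrassCurve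

namespace Fermat.Agent.Cor.Small

universe u

variable {R : Type u} [CommRing R] (V : WeierstrassCurve R)

section

variable {V}

theorem eval_pre_three (h4 : V.a₄ = 0) (h6 : V.a₆ = 0) :
    (V.preΨ' 3).eval 0 = V.a₂ * V.a₃ ^ 2 := by
  rw [preΨ'_three]
  simp only [WeierstrassCurve.Ψ₃, eval_add, eval_mul, eval_pow, eval_X, eval_C, eval_ofNat,
    WeierstrassCurve.b₂, WeierstrassCurve.b₄, WeierstrassCurve.b₆, WeierstrassCurve.b₈, h4, h6]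
  ring

theorem eval_pre_four (h4 : V.a₄ = 0) (h6 : V.a₆ = 0) :
    (V.preΨ' 4).eval 0 = V.a₃ ^ 3 * (V.a₁ * V.a₂ - V.a₃) := by
  rw [preΨ'_four]
  simp only [WeierstrassCurve.preΨ₄, eval_add, eval_mul, eval_pow, eval_X, eval_C, eval_ofNat,
    WeierstrassCurve.b₂, WeierstrassCurve.b₄, WeierstrassCurve.b₆, WeierstrassCurve.b₈, h4, h6]
  ring

theorem eval_two_sq (h6 : V.a₆ = 0) : V.Ψ₂Sq.eval 0 = V.a₃ ^ 2 := by
  simp only [WeierstrassCurve.Ψ₂Sq, eval_add, eval_mul, eval_pow, eval_X, eval_C,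
    WeierstrassCurve.b₂, WeierstrassCurve.b₄, WeierstrassCurve.b₆, h6]
  ring

theorem eval_pre_odd (h6 : V.a₆ = 0) (m : ℕ) : (V.preΨ' (2 * (m + 2) + 1)).eval 0 =
    (V.preΨ' (m + 4)).eval 0 * (V.preΨ' (m + 2)).eval 0 ^ 3 * (if Even m then V.a₃ ^ 4 else 1) -
      (V.preΨ' (m + 1)).eval 0 * (V.preΨ' (m + 3)).eval 0 ^ 3 *
        (if Even m then 1 else V.a₃ ^ 4) := by
  rw [preΨ'_odd]
  split_ifs <;>
    simp only [eval_sub, eval_mul, eval_pow, eval_one, eval_two_sq h6] <;> ring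

theorem eval_pre_even (m : ℕ) : (V.preΨ' (2 * (m + 3))).eval 0 =
    (V.preΨ' (m + 2)).eval 0 ^ 2 * (V.preΨ' (m + 3)).eval 0 * (V.preΨ' (m + 5)).eval 0 -
      (V.preΨ' (m + 1)).eval 0 * (V.preΨ' (m + 3)).eval 0 * (V.preΨ' (m + 4)).eval 0 ^ 2 := by
  rw [preΨ'_even]
  simp only [eval_sub, eval_mul, eval_pow]

theorem eval_pre_five' (h6 : V.a₆ = 0) :
    (V.preΨ' 5).eval 0 = (V.preΨ' 4).eval 0 * V.a₃ ^ 4 - (V.preΨ' 3).eval 0 ^ 3 := by
  have h := eval_pre_odd h6 0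
  simp only [zero_add, mul_two, Nat.reduceAdd, Even.zero, if_true, preΨ'_two,
    preΨ'_one, eval_one, one_pow, mul_one, one_mul] at h
  exact h

theorem eval_pre_six' : (V.preΨ' 6).eval 0 =
    (V.preΨ' 3).eval 0 * (V.preΨ' 5).eval 0 - (V.preΨ' 3).eval 0 * (V.preΨ' 4).eval 0 ^ 2 := by
  have h := eval_pre_even (V := V) 0
  simp only [zero_add, Nat.reduceMul, preΨ'_two, preΨ'_one, eval_one, one_pow, one_mul] at h
  exact h

theorem eval_pre_seven' (h6 : V.a₆ = 0) : (V.preΨ' 7).eval 0 =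
    (V.preΨ' 5).eval 0 * (V.preΨ' 3).eval 0 ^ 3 - (V.preΨ' 4).eval 0 ^ 3 * V.a₃ ^ 4 := by
  have h := eval_pre_odd h6 1
  simp only [Nat.reduceAdd, Nat.reduceMul, Nat.not_even_one, if_false, preΨ'_two,
    eval_one, mul_one, one_mul] at h
  exact h

theorem eval_pre_eight' : (V.preΨ' 8).eval 0 =
    (V.preΨ' 3).eval 0 ^ 2 * (V.preΨ' 4).eval 0 * (V.preΨ' 6).eval 0 -
      (V.preΨ' 4).eval 0 * (V.preΨ' 5).eval 0 ^ 2 := by
  have h := eval_pre_even (V := V) 1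
  simp only [Nat.reduceAdd, Nat.reduceMul, preΨ'_two, eval_one, one_mul] at h
  exact h

theorem eval_pre_thirteen' (h6 : V.a₆ = 0) : (V.preΨ' 13).eval 0 =
    (V.preΨ' 8).eval 0 * (V.preΨ' 6).eval 0 ^ 3 * V.a₃ ^ 4 -
      (V.preΨ' 5).eval 0 * (V.preΨ' 7).eval 0 ^ 3 := by
  have h := eval_pre_odd h6 4
  have h5 : Even 4 := by decide
  simp only [Nat.reduceAdd, Nat.reduceMul, if_pos h5, mul_one] at h
  exact h

/-! ### The degenerate case `a₂ = 0` -/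

theorem eval_pre_five_of_a₂ (h2 : V.a₂ = 0) (h4 : V.a₄ = 0) (h6 : V.a₆ = 0) :
    (V.preΨ' 5).eval 0 = -V.a₃ ^ 8 := by
  rw [eval_pre_five' h6, eval_pre_four h4 h6, eval_pre_three h4 h6, h2]
  ring

theorem eval_pre_six_of_a₂ (h2 : V.a₂ = 0) (h4 : V.a₄ = 0) (h6 : V.a₆ = 0) :
    (V.preΨ' 6).eval 0 = 0 := by
  rw [eval_pre_six', eval_pre_three h4 h6, h2]
  ring

theorem eval_pre_seven_of_a₂ (h2 : V.a₂ = 0) (h4 : V.a₄ = 0) (h6 : V.a₆ = 0) :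
    (V.preΨ' 7).eval 0 = V.a₃ ^ 16 := by
  rw [eval_pre_seven' h6, eval_pre_five_of_a₂ h2 h4 h6, eval_pre_four h4 h6,
    eval_pre_three h4 h6, h2]
  ring

theorem eval_pre_thirteen_of_a₂ (h2 : V.a₂ = 0) (h4 : V.a₄ = 0) (h6 : V.a₆ = 0) :
    (V.preΨ' 13).eval 0 = V.a₃ ^ 56 := by
  rw [eval_pre_thirteen' h6, eval_pre_six_of_a₂ h2 h4 h6, eval_pre_seven_of_a₂ h2 h4 h6,
    eval_pre_five_of_a₂ h2 h4 h6]
  ring

/-! ### The Tate normal form -/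

section Tate

variable {b c u : R} (h1 : V.a₁ = u * (1 - c)) (h2 : V.a₂ = -(u ^ 2 * b))
  (h3 : V.a₃ = -(u ^ 3 * b)) (h4 : V.a₄ = 0) (h6 : V.a₆ = 0)

include h2 h3 h4 h6 in
theorem eval_three_tate : (V.preΨ' 3).eval 0 = -(u ^ 8 * b ^ 3) := by
  rw [eval_pre_three h4 h6, h2, h3]
  ring

include h1 h2 h3 h4 h6

theorem eval_four_tate : (V.preΨ' 4).eval 0 = -(u ^ 12 * b ^ 4 * c) := by
  rw [eval_pre_four h4 h6, h1, h2, h3]
  ring

theorem eval_five_tate : (V.preΨ' 5).eval 0 = u ^ 24 * b ^ 8 * (b - c) := by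
  rw [eval_pre_five' h6, eval_four_tate h1 h2 h3 h4 h6, eval_three_tate h2 h3 h4 h6, h3]
  ring

theorem eval_six_tate : (V.preΨ' 6).eval 0 = -(u ^ 32 * b ^ 11 * (b - c - c ^ 2)) := by
  rw [eval_pre_six', eval_five_tate h1 h2 h3 h4 h6, eval_four_tate h1 h2 h3 h4 h6,
    eval_three_tate h2 h3 h4 h6]
  ring

theorem eval_seven_tate : (V.preΨ' 7).eval 0 =
    u ^ 48 * b ^ 16 * (c ^ 3 - b ^ 2 + b * c) := by
  rw [eval_pre_seven' h6, eval_five_tate h1 h2 h3 h4 h6, eval_four_tate h1 h2 h3 h4 h6,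
    eval_three_tate h2 h3 h4 h6, h3]
  ring

theorem eval_eight_tate : (V.preΨ' 8).eval 0 =
    u ^ 60 * b ^ 20 * (c * (2 * b ^ 2 - 3 * b * c - b * c ^ 2 + c ^ 2)) := by
  rw [eval_pre_eight', eval_six_tate h1 h2 h3 h4 h6, eval_five_tate h1 h2 h3 h4 h6,
    eval_four_tate h1 h2 h3 h4 h6, eval_three_tate h2 h3 h4 h6]
  ring

theorem eval_thirteen_tate : (V.preΨ' 13).eval 0 =
    -(u ^ 168 * b ^ 56 * (b * c * (2 * b ^ 2 - 3 * b * c - b * c ^ 2 + c ^ 2) *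
        (b - c - c ^ 2) ^ 3 + (b - c) * (c ^ 3 - b ^ 2 + b * c) ^ 3)) := by
  rw [eval_pre_thirteen' h6, eval_eight_tate h1 h2 h3 h4 h6, eval_seven_tate h1 h2 h3 h4 h6,
    eval_six_tate h1 h2 h3 h4 h6, eval_five_tate h1 h2 h3 h4 h6, h3]
  generalize 2 * b ^ 2 - 3 * b * c - b * c ^ 2 + c ^ 2 = q
  generalize b - c - c ^ 2 = r
  generalize c ^ 3 - b ^ 2 + b * c = s
  ring

end Tate

end

end Fermat.Agent.Cor.Small

end
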