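import Fermat.Agent.Corollaries.Mazur.Defs
import Fermat.Agent.Corollaries.K4.Small.EdsEval
import Fermat.Agent.S12.AtP

/-!
# The Tate normal form of a curve with a rational point of order `5`, `7` or `13`
-/

set_option autoImplicit false

noncomputable section

open Polynomial WeierstrassCurve WeierstrassCurve.Affine WeierstrassCurve.Affine.Point

namespace Fermat.Agent.Cor.Small

/-- The division polynomial vanishes at the `x`-coordinate of the point of order `p`. -/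
theorem eval_pre_eq_zero {p : ℕ} {W : WeierstrassCurve ℤ} {Q : Mazur.Pt W}
    (h : Mazur.Normal p W Q) (hodd : ¬ Even p) :
    ((W.map (Int.castRingHom ℚ)).preΨ' p).eval 0 = 0 := by
  obtain ⟨hns, hQ⟩ := h.hQ
  have h0 : p • (Point.some 0 0 hns : Mazur.Pt W) = 0 := by
    have h1 := addOrderOf_nsmul_eq_zero Q
    rw [h.ord] at h1
    rwa [hQ] at h1
  have h1 := S12val.aeval_preΨ'_eq_zero (W := W) hodd (r := 0) (by rw [_root_.map_zero]) h0
  rw [aeval_def] at h1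
  rw [WeierstrassCurve.map_preΨ', eval_map]
  exact h1

/-- **The Tate normal form**: the coefficients in terms of `b`, `c` and the scaling `u`, and the
equations of `X₁(5)`, `X₁(7)`, `X₁(13)`. -/
theorem exists_tate {p : ℕ} {W : WeierstrassCurve ℤ} {Q : Mazur.Pt W} (h : Mazur.Normal p W Q)
    (hp : p = 5 ∨ p = 7 ∨ p = 13) : ∃ b c u : ℚ, b ≠ 0 ∧ u ≠ 0 ∧ (W.a₁ : ℚ) = u * (1 - c) ∧
      (W.a₂ : ℚ) = -(u ^ 2 * b) ∧ (W.a₃ : ℚ) = -(u ^ 3 * b) ∧ (p = 5 → b = c) ∧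
      (p = 7 → c ^ 3 + b * c = b ^ 2) ∧
      (p = 13 → b * c * (2 * b ^ 2 - 3 * b * c - b * c ^ 2 + c ^ 2) * (b - c - c ^ 2) ^ 3 +
        (b - c) * (c ^ 3 - b ^ 2 + b * c) ^ 3 = 0) := by
  have hodd : ¬ Even p := by rcases hp with rfl | rfl | rfl <;> decide
  have hev := eval_pre_eq_zero h hodd
  set V : WeierstrassCurve ℚ := W.map (Int.castRingHom ℚ) with hV
  have v1 : V.a₁ = (W.a₁ : ℚ) := rfl
  have v2 : V.a₂ = (W.a₂ : ℚ) := rfl
  have v3 : V.a₃ = (W.a₃ : ℚ) := rfl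
  have v4 : V.a₄ = 0 := by
    have : V.a₄ = (W.a₄ : ℚ) := rfl
    rw [this, h.h4, Int.cast_zero]
  have v6 : V.a₆ = 0 := by
    have : V.a₆ = (W.a₆ : ℚ) := rfl
    rw [this, h.h6, Int.cast_zero]
  have h3 : W.a₃ ≠ 0 := by
    intro h3
    apply h.hΔ
    simp only [WeierstrassCurve.Δ, WeierstrassCurve.b₂, WeierstrassCurve.b₄, WeierstrassCurve.b₆,
      WeierstrassCurve.b₈, h.h4, h.h6, h3]
    ring
  have h3' : (W.a₃ : ℚ) ≠ 0 := by exact_mod_cast h3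
  have h2 : W.a₂ ≠ 0 := by
    intro h2
    have w2 : V.a₂ = 0 := by rw [v2, h2, Int.cast_zero]
    rcases hp with rfl | rfl | rfl
    · rw [eval_pre_five_of_a₂ w2 v4 v6, v3, neg_eq_zero] at hev
      exact h3' (pow_eq_zero_iff (by norm_num) |>.mp hev)
    · rw [eval_pre_seven_of_a₂ w2 v4 v6, v3] at hev
      exact h3' (pow_eq_zero_iff (by norm_num) |>.mp hev)
    · rw [eval_pre_thirteen_of_a₂ w2 v4 v6, v3] at hev
      exact h3' (pow_eq_zero_iff (by norm_num) |>.mp hev)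
  have h2' : (W.a₂ : ℚ) ≠ 0 := by exact_mod_cast h2
  obtain ⟨b, hb⟩ : ∃ b : ℚ, b = -((W.a₂ : ℚ) ^ 3 / (W.a₃ : ℚ) ^ 2) := ⟨_, rfl⟩
  obtain ⟨c, hc⟩ : ∃ c : ℚ, c = 1 - (W.a₁ : ℚ) * W.a₂ / W.a₃ := ⟨_, rfl⟩
  obtain ⟨u, hu⟩ : ∃ u : ℚ, u = (W.a₃ : ℚ) / W.a₂ := ⟨_, rfl⟩
  have hb0 : b ≠ 0 := by
    rw [hb]
    exact neg_ne_zero.mpr (div_ne_zero (pow_ne_zero _ h2') (pow_ne_zero _ h3'))
  have hu0 : u ≠ 0 := by
    rw [hu]
    exact div_ne_zero h3' h2'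
  have e1 : (W.a₁ : ℚ) = u * (1 - c) := by rw [hu, hc]; field_simp; ring
  have e2 : (W.a₂ : ℚ) = -(u ^ 2 * b) := by rw [hu, hb]; field_simp
  have e3 : (W.a₃ : ℚ) = -(u ^ 3 * b) := by rw [hu, hb]; field_simp
  refine ⟨b, c, u, hb0, hu0, e1, e2, e3, ?_, ?_, ?_⟩
  · rintro rfl
    rw [eval_five_tate (v1.trans e1) (v2.trans e2) (v3.trans e3) v4 v6] at hev
    have h5 := (mul_eq_zero.mp hev).resolve_left
      (mul_ne_zero (pow_ne_zero _ hu0) (pow_ne_zero _ hb0))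
    exact sub_eq_zero.mp h5
  · rintro rfl
    rw [eval_seven_tate (v1.trans e1) (v2.trans e2) (v3.trans e3) v4 v6] at hev
    have h5 := (mul_eq_zero.mp hev).resolve_left
      (mul_ne_zero (pow_ne_zero _ hu0) (pow_ne_zero _ hb0))
    linear_combination h5
  · rintro rfl
    rw [eval_thirteen_tate (v1.trans e1) (v2.trans e2) (v3.trans e3) v4 v6, neg_eq_zero] at hev
    exact (mul_eq_zero.mp hev).resolve_left
      (mul_ne_zero (pow_ne_zero _ hu0) (pow_ne_zero _ hb0))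

end Fermat.Agent.Cor.Small

end
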