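import Fermat.Agent.S15.Val
import Fermat.Agent.Isog.FreyData

/-!
# Curves with rational two-torsion: the discriminant is a square

If all points of order two of an elliptic curve over `ℚ` are rational, then the two-division
polynomial splits over `ℚ` and the discriminant is a square.
-/

set_option autoImplicit false

namespace Fermat.Agent.Cor.Small

open WeierstrassCurve WeierstrassCurve.Affine WeierstrassCurve.Affine.Point
open Fermat.Agent.Isog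
open Fermat.Agent.S15x (exists_split split_Δ)

local notation "ℚbar" => AlgebraicClosure ℚ

/-- The roots of the two-division polynomial, for a curve over `ℚ` with rational two-torsion. -/
theorem exists_roots_of_two {E : WeierstrassCurve ℚ} (hΔ : E.Δ ≠ 0)
    (h2 : ∀ x : (E⁄(AlgebraicClosure ℚ)).Point, 2 • x = 0 →
      ∀ σ : AlgebraicClosure ℚ ≃ₐ[ℚ] AlgebraicClosure ℚ, σ • x = x) :
    ∃ r r' r'' : ℚ, E.b₂ = -4 * (r + r' + r'') ∧ E.b₄ = 2 * (r * r' + r * r'' + r' * r'') ∧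
      E.b₆ = -4 * (r * r' * r'') ∧ E.Δ = 16 * ((r - r') * (r - r'') * (r' - r'')) ^ 2 := by
  have hΔ' : (E⁄ℚbar).Δ ≠ 0 := by
    have h : (E⁄ℚbar).Δ = algebraMap ℚ ℚbar E.Δ := WeierstrassCurve.map_Δ E _
    rw [h]
    exact (map_ne_zero _).mpr hΔ
  obtain ⟨e, e', e'', hs⟩ := exists_split (F := ℚbar) (W := E⁄ℚbar) two_ne_zero hΔ'
  have key : ∀ {e : ℚbar} {T : (E⁄ℚbar).Point}, IsTwo T e → ∃ r : ℚ, algebraMap ℚ ℚbar r = e := by
    intro e T hT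
    refine exists_rat_of_fixed fun σ => ?_
    rw [← hT.x, ← xc_smul, h2 T (by rw [two_smul]; exact hT.add_self) σ]
  obtain ⟨T, hT⟩ := hs.exists_two
  obtain ⟨T', hT'⟩ := hs.rot.exists_two
  obtain ⟨T'', hT''⟩ := hs.rot.rot.exists_two
  obtain ⟨r, rfl⟩ := key hT
  obtain ⟨r', rfl⟩ := key hT'
  obtain ⟨r'', rfl⟩ := key hT''
  have hinj := (algebraMap ℚ ℚbar).injective
  have b2 : (E⁄ℚbar).b₂ = algebraMap ℚ ℚbar E.b₂ := WeierstrassCurve.map_b₂ E _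
  have b4 : (E⁄ℚbar).b₄ = algebraMap ℚ ℚbar E.b₄ := WeierstrassCurve.map_b₄ E _
  have b6 : (E⁄ℚbar).b₆ = algebraMap ℚ ℚbar E.b₆ := WeierstrassCurve.map_b₆ E _
  have hD : (E⁄ℚbar).Δ = algebraMap ℚ ℚbar E.Δ := WeierstrassCurve.map_Δ E _
  refine ⟨r, r', r'', hinj ?_, hinj ?_, hinj ?_, hinj ?_⟩
  · rw [← b2, hs.b₂]
    simp only [map_mul, map_add, _root_.map_neg, map_ofNat]
  · rw [← b4, hs.b₄]
    simp only [map_mul, map_add, map_ofNat]
  · rw [← b6, hs.b₆]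
    simp only [map_mul, _root_.map_neg, map_ofNat]
  · rw [← hD, split_Δ hs]
    simp only [map_mul, map_sub, map_pow, map_ofNat]

/-- the discriminant of a curve over `ℚ` with rational two-torsion is a square. -/
theorem isSquare_Δ_of_two_rat {E : WeierstrassCurve ℚ} (hΔ : E.Δ ≠ 0)
    (h2 : ∀ x : (E⁄(AlgebraicClosure ℚ)).Point, 2 • x = 0 →
      ∀ σ : AlgebraicClosure ℚ ≃ₐ[ℚ] AlgebraicClosure ℚ, σ • x = x) : IsSquare E.Δ := by
  obtain ⟨r, r', r'', -, -, -, h⟩ := exists_roots_of_two hΔ h2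
  exact ⟨4 * ((r - r') * (r - r'') * (r' - r'')), by rw [h]; ring⟩

/-- a rational root of the two-division polynomial. -/
theorem exists_root_of_two_rat {E : WeierstrassCurve ℚ} (hΔ : E.Δ ≠ 0)
    (h2 : ∀ x : (E⁄(AlgebraicClosure ℚ)).Point, 2 • x = 0 →
      ∀ σ : AlgebraicClosure ℚ ≃ₐ[ℚ] AlgebraicClosure ℚ, σ • x = x) :
    ∃ x₀ : ℚ, 4 * x₀ ^ 3 + E.b₂ * x₀ ^ 2 + 2 * E.b₄ * x₀ + E.b₆ = 0 := by
  obtain ⟨r, r', r'', h₂, h₄, h₆, -⟩ := exists_roots_of_two hΔ h2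
  exact ⟨r, by rw [h₂, h₄, h₆]; ring⟩

section int

variable {W : WeierstrassCurve ℤ}

private lemma map_Δ_ne (hΔ : W.Δ ≠ 0) : (W.map (Int.castRingHom ℚ)).Δ ≠ 0 := by
  rw [WeierstrassCurve.map_Δ]
  simpa using hΔ

/-- the roots of the two-division polynomial of an integral model with rational two-torsion. -/
theorem exists_roots_of_two_int (hΔ : W.Δ ≠ 0)
    (h2 : ∀ x : ((W.map (Int.castRingHom ℚ))⁄(AlgebraicClosure ℚ)).Point, 2 • x = 0 →
      ∀ σ : AlgebraicClosure ℚ ≃ₐ[ℚ] AlgebraicClosure ℚ, σ • x = x) :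
    ∃ r r' r'' : ℚ, (W.b₂ : ℚ) = -4 * (r + r' + r'') ∧
      (W.b₄ : ℚ) = 2 * (r * r' + r * r'' + r' * r'') ∧
      (W.b₆ : ℚ) = -4 * (r * r' * r'') ∧
      (W.Δ : ℚ) = 16 * ((r - r') * (r - r'') * (r' - r'')) ^ 2 := by
  have h := exists_roots_of_two (map_Δ_ne hΔ) h2
  rw [WeierstrassCurve.map_b₂, WeierstrassCurve.map_b₄, WeierstrassCurve.map_b₆,
    WeierstrassCurve.map_Δ] at h
  simpa only [eq_intCast] using h

/-- the discriminant of an integral model with rational two-torsion is a square. -/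
theorem isSquare_Δ_of_two (hΔ : W.Δ ≠ 0)
    (h2 : ∀ x : ((W.map (Int.castRingHom ℚ))⁄(AlgebraicClosure ℚ)).Point, 2 • x = 0 →
      ∀ σ : AlgebraicClosure ℚ ≃ₐ[ℚ] AlgebraicClosure ℚ, σ • x = x) : IsSquare (W.Δ : ℚ) := by
  obtain ⟨r, r', r'', -, -, -, h⟩ := exists_roots_of_two_int hΔ h2
  exact ⟨4 * ((r - r') * (r - r'') * (r' - r'')), by rw [h]; ring⟩

/-- a rational root of the two-division polynomial of an integral model. -/
theorem exists_root_of_two (hΔ : W.Δ ≠ 0)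
    (h2 : ∀ x : ((W.map (Int.castRingHom ℚ))⁄(AlgebraicClosure ℚ)).Point, 2 • x = 0 →
      ∀ σ : AlgebraicClosure ℚ ≃ₐ[ℚ] AlgebraicClosure ℚ, σ • x = x) :
    ∃ x₀ : ℚ, 4 * x₀ ^ 3 + (W.b₂ : ℚ) * x₀ ^ 2 + 2 * (W.b₄ : ℚ) * x₀ + (W.b₆ : ℚ) = 0 := by
  obtain ⟨r, r', r'', h₂, h₄, h₆, -⟩ := exists_roots_of_two_int hΔ h2
  exact ⟨r, by rw [h₂, h₄, h₆]; ring⟩

end int

end Fermat.Agent.Cor.Small
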