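import Fermat.Agent.Corollaries.K4.Small.Quot
import Fermat.Agent.Corollaries.K4.Small.Two
import Fermat.Agent.Corollaries.K4.Small.Eds
import Fermat.Agent.Corollaries.K4.Small.Alg7
import Fermat.Agent.Corollaries.K4.Small.Alg13
import Fermat.Agent.Corollaries.K4.Small.Desc5
import Fermat.Agent.Corollaries.K4.Small.Desc7
import Fermat.Agent.Corollaries.K4.Small.Desc13
import Fermat.Agent.Corollaries.Mazur.Main

/-!
# Corollaries, K4P: points of order `5`, `7`, `13` and rational points of order two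

An elliptic curve over `ℚ` with all its points of order two rational has no rational point of order `5`, `7` or `13`;
with Mazur's theorem it has none of prime order `p ≥ 5`. For a semistable curve with rational points of order two the
mod `p` representation is irreducible for every prime `p ≥ 5`.
-/

set_option autoImplicit false

noncomputable section

open WeierstrassCurve WeierstrassCurve.Affine

namespace Fermat.Agent.Cor.Small

open Fermat.Agent.Cor.K1 (Gam Pts Quotients)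
open Fermat.Agent.Cor.Mazur (Pt Normal exists_normal)

/-- the discriminant in terms of Tate's parameters `b`, `c` -/
theorem Δ_eq_disc {W : WeierstrassCurve ℤ} (h4 : W.a₄ = 0) (h6 : W.a₆ = 0) {b c u : ℚ}
    (h1 : (W.a₁ : ℚ) = u * (1 - c)) (h2 : (W.a₂ : ℚ) = -(u ^ 2 * b))
    (h3 : (W.a₃ : ℚ) = -(u ^ 3 * b)) : (W.Δ : ℚ) = u ^ 12 * disc b c := by
  rw [WeierstrassCurve.Δ, WeierstrassCurve.b₂, WeierstrassCurve.b₄, WeierstrassCurve.b₆,
    WeierstrassCurve.b₈, h4, h6, disc]
  push_cast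
  rw [h1, h2, h3]
  ring

/-- the two-division polynomial in terms of Tate's parameters `b`, `c` -/
theorem exists_root_tate {W : WeierstrassCurve ℤ} (h4 : W.a₄ = 0) (h6 : W.a₆ = 0) {b c u : ℚ}
    (hu : u ≠ 0) (h1 : (W.a₁ : ℚ) = u * (1 - c)) (h2 : (W.a₂ : ℚ) = -(u ^ 2 * b))
    (h3 : (W.a₃ : ℚ) = -(u ^ 3 * b)) {x : ℚ}
    (hx : 4 * x ^ 3 + (W.b₂ : ℚ) * x ^ 2 + 2 * (W.b₄ : ℚ) * x + (W.b₆ : ℚ) = 0) :
    ∃ X : ℚ, 4 * X ^ 3 + ((1 - c) ^ 2 - 4 * b) * X ^ 2 - 2 * b * (1 - c) * X + b ^ 2 = 0 := by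
  obtain ⟨X, rfl⟩ : ∃ X, x = u ^ 2 * X := ⟨x / u ^ 2, by field_simp⟩
  refine ⟨X, ?_⟩
  rw [WeierstrassCurve.b₂, WeierstrassCurve.b₄, WeierstrassCurve.b₆, h4, h6] at hx
  push_cast at hx
  rw [h1, h2, h3] at hx
  refine (mul_eq_zero.mp (?_ : u ^ 6 * _ = 0)).resolve_left (pow_ne_zero _ hu)
  linear_combination hx

/-- **The normal form**: no normal form at a point of order `5`, `7` or `13` has rational points of order two. -/
theorem false_of_normal {p : ℕ} (hp : p = 5 ∨ p = 7 ∨ p = 13) {W : WeierstrassCurve ℤ} {Q : Pt W}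
    (h : Normal p W Q) (h2 : ∀ x : Pt W, 2 • x = 0 → ∀ σ : Gam, σ • x = x) : False := by
  obtain ⟨b, c, u, hb, hu, ha1, ha2, ha3, h5, h7, h13⟩ := exists_tate h hp
  have hΔ := Δ_eq_disc h.h4 h.h6 ha1 ha2 ha3
  have hΔ0 : (W.Δ : ℚ) ≠ 0 := by exact_mod_cast h.hΔ
  have hd0 : disc b c ≠ 0 := by
    intro h0
    rw [h0, mul_zero] at hΔ
    exact hΔ0 hΔ
  obtain ⟨d, hd⟩ := isSquare_Δ_of_two h.hΔ h2
  rw [hΔ] at hd
  obtain ⟨e, rfl⟩ : ∃ e, d = u ^ 6 * e := ⟨d / u ^ 6, by field_simp⟩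
  have he : disc b c = e ^ 2 := by
    refine mul_left_cancel₀ (pow_ne_zero 12 hu) ?_
    rw [hd]
    ring
  rcases hp with rfl | rfl | rfl
  · -- order `5`
    have hbc := h5 rfl
    rw [← hbc, disc] at he
    refine no_sq5 (t := b) (y := e / b ^ 2) hb ?_
    rw [div_pow, ← he]
    field_simp
    ring
  · -- order `7`
    obtain ⟨x, hx⟩ := exists_root_of_two h.hΔ h2
    obtain ⟨X, hX⟩ := exists_root_tate h.h4 h.h6 hu ha1 ha2 ha3 hx
    exact alg7 hb (h7 rfl) hX fun Z y hZ => no_sq7 hZ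
  · -- order `13`
    obtain ⟨T, w, k, hw, hk, hT⟩ := alg13 hb (h13 rfl)
    refine no_sq13 (t := T) (y := e * k * w) ?_ ?_
    · rw [hT]
      exact mul_ne_zero hd0 (pow_ne_zero _ hk)
    · rw [← hw, mul_pow, mul_pow, ← he, ← hT]

/-- **Points of order `5`, `7`, `13`** on an elliptic curve over `ℚ` with rational points of order two. -/
theorem noPoint_small {p : ℕ} (hp : p = 5 ∨ p = 7 ∨ p = 13) (E : WeierstrassCurve ℚ)
    [E.IsElliptic] (h2 : TwoFixed E) (P : Pts E) (hfix : ∀ σ : Gam, σ • P = P) :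
    addOrderOf P ≠ p := by
  intro hP
  have hpp : p.Prime := by rcases hp with rfl | rfl | rfl <;> norm_num
  obtain ⟨W, e, he, hN⟩ := exists_normal E hpp (by omega) P hP hfix
  refine false_of_normal hp hN fun x hx σ => ?_
  obtain ⟨y, rfl⟩ := e.surjective x
  have hy : 2 • y = 0 := by
    apply e.injective
    rw [map_nsmul, hx, map_zero]
  rw [← he, h2 y hy σ]

/-- **Points of prime order `p ≥ 5`** on an elliptic curve over `ℚ` with rational points of order two. -/
theorem noPoint {p : ℕ} (hp : p.Prime) (h5 : 5 ≤ p) (E : WeierstrassCurve ℚ)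
    [E.IsElliptic] (h2 : TwoFixed E) (P : Pts E) (hfix : ∀ σ : Gam, σ • P = P) :
    addOrderOf P ≠ p := by
  have key : ∀ q < 17, q.Prime → 5 ≤ q → (q = 5 ∨ q = 7 ∨ q = 13) ∨ q = 11 := by decide
  rcases lt_or_ge p 17 with h17 | h17
  · rcases key p h17 hp h5 with h | h
    · exact noPoint_small h E h2 P hfix
    · exact Mazur.noFixedPoint hp (Or.inl h) E P hfix
  · exact Mazur.noFixedPoint hp (Or.inr h17) E P hfix

/-- **Irreducibility for every prime `p ≥ 5`** of the mod `p` representation of a semistable elliptic curve over `ℚ`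
whose points of order two are rational. -/
theorem modRepIsIrreducible_of_two {p : ℕ} (hp : p.Prime) (h5 : 5 ≤ p) {W : WeierstrassCurve ℤ}
    (hΔ : W.Δ ≠ 0) (hW : W.IsSemistableModel)
    (h2 : ∀ x : Pt W, 2 • x = 0 → ∀ σ : Gam, σ • x = x) : W.ModRepIsIrreducible p :=
  modRepIsIrreducible_of_noPoint hp (by omega) (fun E _ h2 P hfix => noPoint hp h5 E h2 P hfix)
    (K1.quotients hp (by omega)) hΔ hW h2

end Fermat.Agent.Cor.Small
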