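import Mathlib

/-!
# Corollaries, K4P: the curve `X_1(15)`

For a point of order `15` in Tate's normal form `y ^ 2 + (1 - c) x y - b y = x ^ 3 - b x ^ 2` there is a non-zero
`v` with `(v ^ 2 + 3 v + 1) (v ^ 2 - v + 1)` a square.
-/

set_option autoImplicit false

namespace Fermat.Agent.Cor.Small

/-- **A point of order `15`.** -/
theorem alg15 {b c : ℚ} (hb : b ≠ 0) (hbc : b - c ≠ 0)
    (h : (c ^ 3 * (b - c - c ^ 2) + (b - c) ^ 3) * (c ^ 3 - b ^ 2 + b * c) ^ 3 +
      (b - c - c ^ 2) * (c * (2 * b ^ 2 - 3 * b * c - b * c ^ 2 + c ^ 2)) ^ 3 = 0) :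
    ∃ v w : ℚ, v ≠ 0 ∧ (v ^ 2 + 3 * v + 1) * (v ^ 2 - v + 1) = w ^ 2 := by
  have hc : c ≠ 0 := by
    rintro rfl
    exact pow_ne_zero 9 hb (by linear_combination -h)
  obtain ⟨r, hr⟩ : ∃ r, b = r * c := ⟨b / c, by field_simp⟩
  have hr0 : r ≠ 0 := by rintro rfl; exact hb (by rw [hr, zero_mul])
  have hr1 : r - 1 ≠ 0 := by
    intro h0
    exact hbc (by rw [hr]; linear_combination c * h0)
  obtain ⟨s, hs⟩ : ∃ s, c = s * (r - 1) := ⟨c / (r - 1), by field_simp⟩
  have hs0 : s ≠ 0 := by rintro rfl; exact hc (by rw [hs, zero_mul])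
  have hG : (r - 1 + s - s ^ 2) * (s - r) ^ 3 + s * (1 - s) * (2 * r - 1 - r * s) ^ 3 = 0 := by
    have h1 : s ^ 9 * (r - 1) ^ 14 *
        ((r - 1 + s - s ^ 2) * (s - r) ^ 3 + s * (1 - s) * (2 * r - 1 - r * s) ^ 3) = 0 := by
      rw [← h, hr, hs]
      ring
    exact (mul_eq_zero.mp h1).resolve_left (mul_ne_zero (pow_ne_zero _ hs0) (pow_ne_zero _ hr1))
  have hs1 : s - 1 ≠ 0 := by
    intro h0
    have h1 : s = 1 := by linear_combination h0
    rw [h1] at hG
    exact pow_ne_zero 4 hr1 (by linear_combination -hG)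
  have hsr : s - r ≠ 0 := by
    intro h0
    have h1 : s = r := by linear_combination h0
    rw [h1] at hG
    exact mul_ne_zero hr0 (pow_ne_zero 7 hr1) (by linear_combination hG)
  obtain ⟨v, hv⟩ : ∃ v, 2 * r - 1 - r * s = v * (s - r) := ⟨(2 * r - 1 - r * s) / (s - r), by
    field_simp⟩
  rw [hv] at hG
  have hG' : (r - 1 + s - s ^ 2) + s * (1 - s) * v ^ 3 = 0 := by
    have h1 : (s - r) ^ 3 * ((r - 1 + s - s ^ 2) + s * (1 - s) * v ^ 3) = 0 := by
      linear_combination hG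
    exact (mul_eq_zero.mp h1).resolve_left (pow_ne_zero _ hsr)
  -- `(r - 1) (2 + v - s) = (s - 1) (v + 1)`
  have h1 : (r - 1) * (2 + v - s) = (s - 1) * (v + 1) := by linear_combination hv
  have hv1 : v + 1 ≠ 0 := by
    intro h0
    rw [h0, mul_zero] at h1
    have h2 : 2 + v - s = 1 - s := by linear_combination h0
    rw [h2] at h1
    rcases mul_eq_zero.mp h1 with h3 | h3
    · exact hr1 h3
    · exact hs1 (by linear_combination -h3)
  have h2 : s * (2 + v - s) * (v ^ 2 - v + 1) = 1 := by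
    have h3 : (s - 1) * (v + 1) * (s * (2 + v - s) * (v ^ 2 - v + 1) - 1) = 0 := by
      linear_combination h1 - (2 + v - s) * hG'
    have h4 := (mul_eq_zero.mp h3).resolve_left (mul_ne_zero hs1 hv1)
    linear_combination h4
  have hv0 : v ≠ 0 := by
    rintro rfl
    have h3 : (s - 1) ^ 2 = 0 := by linear_combination -h2
    exact hs1 (pow_eq_zero_iff two_ne_zero |>.mp h3)
  refine ⟨v, (2 * s - v - 2) * (v ^ 2 - v + 1) / v, hv0, ?_⟩
  field_simp
  linear_combination (4 * (v ^ 2 - v + 1)) * h2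

end Fermat.Agent.Cor.Small
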