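import Mathlib

/-!
# Elementary lemmas for `2`-descent

* `exists_pow4_of_mul`, `split_pow4`: coprime factors of `p ^ j * f ^ 4`;
* `exists_sq_mul`: if `y ^ 2 = Z * (Z ^ 2 + A * Z + B)`, `Z > 0`, then `Z` is a square times a
  divisor of `B`.
-/

set_option autoImplicit false

namespace Fermat.Agent.Cor.Small

theorem odd_sq_eq {x : ℤ} (h : ¬ Even x) : ∃ k : ℤ, x ^ 2 = 8 * k + 1 := by
  rw [Int.not_even_iff_odd] at h
  obtain ⟨a, rfl⟩ := h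
  obtain ⟨r, hr⟩ := Int.even_mul_succ_self a
  exact ⟨r, by linear_combination 4 * hr⟩

theorem exists_pow4_of_mul {x y f : ℤ} (hx : 0 < x) (hy : 0 < y) (h : IsCoprime x y)
    (hxy : x * y = f ^ 4) :
    ∃ g k : ℤ, IsCoprime g k ∧ (g * k) ^ 2 = f ^ 2 ∧ x = g ^ 4 ∧ y = k ^ 4 := by
  lift x to ℕ using hx.le
  lift y to ℕ using hy.le
  have h1 : x * y = f.natAbs ^ 4 := by
    have h2 : ((x * y : ℕ) : ℤ) = ((f.natAbs ^ 4 : ℕ) : ℤ) := by
      push_cast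
      rw [hxy]
      exact (Even.pow_abs (by decide) f).symm
    exact_mod_cast h2
  have hc : Nat.Coprime x y := Nat.isCoprime_iff_coprime.mp h
  obtain ⟨g, hg⟩ := exists_eq_pow_of_mul_eq_pow (Nat.isUnit_iff.mpr hc) h1
  obtain ⟨k, hk⟩ := exists_eq_pow_of_mul_eq_pow (Nat.isUnit_iff.mpr hc.symm)
    ((mul_comm y x).trans h1)
  have h4 : g * k = f.natAbs := by
    have h5 : (g * k) ^ 4 = f.natAbs ^ 4 := by rw [mul_pow, ← hg, ← hk, h1]
    exact Nat.pow_left_injective (n := 4) (by norm_num) h5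
  refine ⟨g, k, ?_, ?_, by rw [hg]; push_cast; rfl, by rw [hk]; push_cast; rfl⟩
  · have h6 : IsCoprime ((g : ℤ) ^ 4) ((k : ℤ) ^ 4) := by
      rw [hg, hk] at h
      push_cast at h
      exact h
    exact (IsCoprime.pow_iff (by norm_num) (by norm_num)).mp h6
  · have h7 : ((g : ℤ) * k) = f.natAbs := by exact_mod_cast h4
    rw [h7, Int.natAbs_sq]

/-- Coprime factors of `p ^ j * f ^ 4`. -/
theorem split_pow4 {p : ℕ} (hp : p.Prime) (j : ℕ) {x y f : ℤ} (hx : 0 < x) (hy : 0 < y)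
    (h : IsCoprime x y) (hxy : x * y = (p : ℤ) ^ j * f ^ 4) :
    ∃ g k : ℤ, IsCoprime g k ∧ (g * k) ^ 2 = f ^ 2 ∧
      ((x = (p : ℤ) ^ j * g ^ 4 ∧ y = k ^ 4) ∨ (x = k ^ 4 ∧ y = (p : ℤ) ^ j * g ^ 4)) := by
  have hp0 : (0 : ℤ) < (p : ℤ) ^ j := by
    have := hp.pos
    positivity
  have hpz : Prime (p : ℤ) := Nat.prime_iff_prime_int.mp hp
  have key : ∀ {x y : ℤ}, 0 < x → 0 < y → IsCoprime x y → x * y = (p : ℤ) ^ j * f ^ 4 →
      IsCoprime (p : ℤ) y → ∃ g k : ℤ, IsCoprime g k ∧ (g * k) ^ 2 = f ^ 2 ∧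
        (x = (p : ℤ) ^ j * g ^ 4 ∧ y = k ^ 4) := by
    intro x y hx hy h hxy hpy
    have h1 : (p : ℤ) ^ j ∣ x :=
      (IsCoprime.pow_left (m := j) hpy).dvd_of_dvd_mul_right ⟨_, hxy⟩
    obtain ⟨x', rfl⟩ := h1
    have hx' : 0 < x' := (mul_pos_iff_of_pos_left hp0).mp hx
    have h2 : x' * y = f ^ 4 := by
      apply mul_left_cancel₀ hp0.ne'
      rw [← mul_assoc, hxy]
    obtain ⟨g, k, hgk, hf, h3, h4⟩ := exists_pow4_of_mul hx' hy h.of_mul_left_right h2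
    exact ⟨g, k, hgk, hf, by rw [h3], h4⟩
  by_cases hpx : (p : ℤ) ∣ x
  · obtain ⟨g, k, h1, h2, h3⟩ := key hx hy h hxy (h.of_isCoprime_of_dvd_left hpx)
    exact ⟨g, k, h1, h2, Or.inl h3⟩
  · obtain ⟨g, k, h1, h2, h3⟩ := key hy hx h.symm ((mul_comm y x).trans hxy)
      ((Prime.coprime_iff_not_dvd hpz).mpr hpx)
    exact ⟨g, k, h1, h2, Or.inr ⟨h3.2, h3.1⟩⟩

/-- The halves `(W - A) / 2`, `(W + A) / 2` of `W ^ 2 - A ^ 2 = 4 * c`. -/
theorem halves {W A c : ℤ} (hW : ¬ Even W) (hA : ¬ Even A) (h : W ^ 2 = A ^ 2 + 4 * c)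
    (hc : IsCoprime A c) :
    ∃ x y : ℤ, x + y = W ∧ y - x = A ∧ x * y = c ∧ IsCoprime x y := by
  rw [Int.not_even_iff_odd] at hW hA
  obtain ⟨a, ha⟩ := hW
  obtain ⟨b, hb⟩ := hA
  have h1 : (a - b) * (a + b + 1) = c := by
    rw [ha, hb] at h
    linarith
  refine ⟨a - b, a + b + 1, by rw [ha]; ring, by rw [hb]; ring, h1, ?_⟩
  have h2 : IsCoprime A ((a - b) * (a + b + 1)) := by rwa [h1]
  have h3 := h2.of_mul_right_left
  have h4 : (a + b + 1 : ℤ) = A + (a - b) * 1 := by rw [hb]; ring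
  rw [h4]
  exact (IsCoprime.add_mul_left_left_iff.mpr h3).symm

/-- If `y ^ 2 = Z * (Z ^ 2 + A * Z + B)` and `Z > 0`, then `Z` is a square times a squarefree divisor
of `B`. -/
theorem exists_sq_mul {A B : ℤ} {Z y : ℚ} (hZ : 0 < Z)
    (h : y ^ 2 = Z * (Z ^ 2 + A * Z + B)) :
    ∃ (u : ℕ) (q : ℚ), Squarefree u ∧ (u : ℤ) ∣ B ∧ Z = u * q ^ 2 := by
  obtain ⟨a, b, hb, hab, hZ'⟩ : ∃ a b : ℤ, 0 < b ∧ IsCoprime a b ∧ Z = a / b :=
    ⟨Z.num, Z.den, by exact_mod_cast Z.pos, by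
      rw [Int.isCoprime_iff_gcd_eq_one]
      exact Z.reduced, (Rat.num_div_den Z).symm⟩
  have hbQ : (0 : ℚ) < b := by exact_mod_cast hb
  have ha : 0 < a := by
    have h1 : (0 : ℚ) < a := by
      rw [hZ'] at hZ
      exact (div_pos_iff_of_pos_right hbQ).mp hZ
    exact_mod_cast h1
  obtain ⟨u, s, hus, hu⟩ := Nat.sq_mul_squarefree (a * b).toNat
  have hn : (a * b : ℤ) = s ^ 2 * u := by
    have h1 : (((a * b).toNat : ℕ) : ℤ) = a * b := Int.toNat_of_nonneg (mul_pos ha hb).le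
    rw [← h1, ← hus]
    push_cast
    rfl
  have hu0 : (u : ℤ) ≠ 0 := by exact_mod_cast hu.ne_zero
  have hs0 : (s : ℤ) ≠ 0 := by
    intro h0
    rw [h0] at hn
    have := (mul_pos ha hb).ne'
    rw [hn] at this
    simp at this
  set Q : ℤ := a ^ 2 + b * (A * a + B * b) with hQ
  -- `u * Q` is a square
  have h2 : ((u * Q : ℤ) : ℚ) = (y * b ^ 2 / s) ^ 2 := by
    have hs : (s : ℚ) ≠ 0 := by exact_mod_cast hs0
    have hnQ : (a * b : ℚ) = s ^ 2 * u := by exact_mod_cast hn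
    rw [div_pow, eq_div_iff (pow_ne_zero 2 hs), mul_pow, h, hZ', hQ]
    push_cast
    field_simp
    linear_combination (-(a ^ 2 + b * (A * a + B * b)) : ℚ) * hnQ
  obtain ⟨t, ht⟩ : IsSquare (u * Q : ℤ) := Rat.isSquare_intCast_iff.mp ⟨y * b ^ 2 / s, by rw [h2]; ring⟩
  have huz : Squarefree (u : ℤ) := Int.squarefree_natCast.mpr hu
  obtain ⟨t', rfl⟩ : (u : ℤ) ∣ t :=
    (huz.dvd_pow_iff_dvd (two_ne_zero)).mp ⟨Q, by rw [ht]; ring⟩
  have hQu : (u : ℤ) ∣ Q := ⟨t' ^ 2, by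
    apply mul_left_cancel₀ hu0
    rw [ht]
    ring⟩
  have hub : IsCoprime (u : ℤ) b := by
    refine IsCoprime.of_isCoprime_of_dvd_left ?_ hQu
    rw [hQ]
    exact IsCoprime.add_mul_left_left_iff.mpr hab.pow_left
  have hua : (u : ℤ) ∣ a := hub.dvd_of_dvd_mul_right ⟨s ^ 2, by rw [hn]; ring⟩
  have hBu : (u : ℤ) ∣ B := by
    refine (hub.pow_right (n := 2)).dvd_of_dvd_mul_right ?_
    have h3 : B * b ^ 2 = Q - a * (a + A * b) := by rw [hQ]; ring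
    rw [h3]
    exact dvd_sub hQu (hua.mul_right _)
  refine ⟨u, s / b, hu, hBu, ?_⟩
  have hnQ : (a * b : ℚ) = s ^ 2 * u := by exact_mod_cast hn
  rw [hZ', div_pow]
  field_simp
  linear_combination hnQ

end Fermat.Agent.Cor.Small
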