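import Fermat.Agent.Corollaries.K4.Small.EdsEval

/-!
# Corollaries, K4P: the division polynomials of index `9` and `15` at the origin of Tate's normal form
-/

set_option autoImplicit false

noncomputable section

open Polynomial WeierstrassCurve

namespace Fermat.Agent.Cor.Small

variable {R : Type*} [CommRing R] {V : WeierstrassCurve R}

theorem eval_pre_nine' (h6 : V.a₆ = 0) : (V.preΨ' 9).eval 0 =
    (V.preΨ' 6).eval 0 * (V.preΨ' 4).eval 0 ^ 3 * V.a₃ ^ 4 -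
      (V.preΨ' 3).eval 0 * (V.preΨ' 5).eval 0 ^ 3 := by
  have h := eval_pre_odd h6 2
  have h5 : Even 2 := by decide
  simp only [Nat.reduceAdd, Nat.reduceMul, if_pos h5, mul_one] at h
  exact h

theorem eval_pre_fifteen' (h6 : V.a₆ = 0) : (V.preΨ' 15).eval 0 =
    (V.preΨ' 9).eval 0 * (V.preΨ' 7).eval 0 ^ 3 -
      (V.preΨ' 6).eval 0 * (V.preΨ' 8).eval 0 ^ 3 * V.a₃ ^ 4 := by
  have h := eval_pre_odd h6 5
  have h5 : ¬ Even 5 := by decide
  simp only [Nat.reduceAdd, Nat.reduceMul, if_neg h5, mul_one] at h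
  exact h

variable {b c u : R} (h1 : V.a₁ = u * (1 - c)) (h2 : V.a₂ = -(u ^ 2 * b))
  (h3 : V.a₃ = -(u ^ 3 * b)) (h4 : V.a₄ = 0) (h6 : V.a₆ = 0)

include h1 h2 h3 h4 h6

theorem eval_nine_tate : (V.preΨ' 9).eval 0 =
    u ^ 80 * b ^ 27 * (c ^ 3 * (b - c - c ^ 2) + (b - c) ^ 3) := by
  rw [eval_pre_nine' h6, eval_six_tate h1 h2 h3 h4 h6, eval_four_tate h1 h2 h3 h4 h6,
    eval_three_tate h2 h3 h4 h6, eval_five_tate h1 h2 h3 h4 h6, h3]
  ring

theorem eval_fifteen_tate : (V.preΨ' 15).eval 0 =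
    u ^ 224 * b ^ 75 * ((c ^ 3 * (b - c - c ^ 2) + (b - c) ^ 3) * (c ^ 3 - b ^ 2 + b * c) ^ 3 +
      (b - c - c ^ 2) * (c * (2 * b ^ 2 - 3 * b * c - b * c ^ 2 + c ^ 2)) ^ 3) := by
  rw [eval_pre_fifteen' h6, eval_nine_tate h1 h2 h3 h4 h6, eval_seven_tate h1 h2 h3 h4 h6,
    eval_six_tate h1 h2 h3 h4 h6, eval_eight_tate h1 h2 h3 h4 h6, h3]
  generalize 2 * b ^ 2 - 3 * b * c - b * c ^ 2 + c ^ 2 = q
  generalize b - c - c ^ 2 = r
  generalize c ^ 3 - b ^ 2 + b * c = s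
  ring

end Fermat.Agent.Cor.Small

end
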