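import Fermat.Agent.Corollaries.K4.Small.Seven
import Fermat.Agent.Corollaries.K4.Small.NormalN
import Fermat.Agent.Corollaries.K4.Small.EdsFif
import Fermat.Agent.Corollaries.K4.Small.Alg15
import Fermat.Agent.Corollaries.K4.Small.Desc15

/-!
# Corollaries, K4P: no rational points of order `15`

An elliptic curve over `ℚ` has no rational point of order `15` (Mazur, Kubert). If a semistable elliptic curve over
`ℚ` has a rational point of order three, its mod `5` representation is irreducible and surjective.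
-/

set_option autoImplicit false

noncomputable section

open Polynomial WeierstrassCurve WeierstrassCurve.Affine

namespace Fermat.Agent.Cor.Small

open Fermat.Agent.Cor.K1
open Fermat.Agent.Cor.Mazur (Pt Normal)

local notation "ℚbar" => AlgebraicClosure ℚ

/-- if the division polynomial vanishes at the origin, the origin is killed by `n` -/
theorem nsmul_eq_zero_of_eval {W : WeierstrassCurve ℤ} {n : ℕ} (hodd : ¬ Even n)
    {hns : ((W.map (Int.castRingHom ℚ))⁄ℚbar).Nonsingular 0 0}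
    (h : ((W.map (Int.castRingHom ℚ)).preΨ' n).eval 0 = 0) :
    n • (Point.some 0 0 hns : Pt W) = 0 := by
  refine (Torsion.nsmul_eq_zero_iff hns n).mpr ?_
  rw [WeierstrassCurve.ΨSq_ofNat, if_neg hodd, mul_one, eval_pow]
  have h1 : (((W.map (Int.castRingHom ℚ))⁄ℚbar).preΨ' n).eval 0 =
      algebraMap ℚ ℚbar (((W.map (Int.castRingHom ℚ)).preΨ' n).eval 0) := by
    rw [show ((W.map (Int.castRingHom ℚ))⁄ℚbar : WeierstrassCurve ℚbar) =
      (W.map (Int.castRingHom ℚ)).map (algebraMap ℚ ℚbar) from rfl, WeierstrassCurve.map_preΨ',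
      eval_zero_map]
  rw [h1, h, map_zero]
  norm_num

/-- Tate's normal form, for a point which is not killed by `3`. -/
theorem exists_tate_of_three {V : WeierstrassCurve ℚ} (h4 : V.a₄ = 0) (h6 : V.a₆ = 0)
    (hΔ : V.Δ ≠ 0) (e3 : (V.preΨ' 3).eval 0 ≠ 0) : ∃ b c u : ℚ, b ≠ 0 ∧ u ≠ 0 ∧
      V.a₁ = u * (1 - c) ∧ V.a₂ = -(u ^ 2 * b) ∧ V.a₃ = -(u ^ 3 * b) := by
  have h3' : V.a₃ ≠ 0 := by
    intro h3
    apply hΔ
    simp only [WeierstrassCurve.Δ, WeierstrassCurve.b₂, WeierstrassCurve.b₄, WeierstrassCurve.b₆,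
      WeierstrassCurve.b₈, h4, h6, h3]
    ring
  have h2' : V.a₂ ≠ 0 := by
    intro h2
    apply e3
    rw [WeierstrassCurve.preΨ'_three, WeierstrassCurve.Ψ₃]
    simp [WeierstrassCurve.b₂, WeierstrassCurve.b₄, WeierstrassCurve.b₆,
      WeierstrassCurve.b₈, h4, h6, h2]
  refine ⟨-(V.a₂ ^ 3 / V.a₃ ^ 2), 1 - V.a₁ * V.a₂ / V.a₃, V.a₃ / V.a₂, ?_, div_ne_zero h3' h2',
    ?_, ?_, ?_⟩
  · exact neg_ne_zero.mpr (div_ne_zero (pow_ne_zero _ h2') (pow_ne_zero _ h3'))
  · field_simp
    ring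
  · field_simp
  · field_simp

/-- There is no curve with `ψ₁₅ = 0` at the origin and `ψ₃`, `ψ₅` not zero at the origin. -/
theorem false_of_eval_fifteen {V : WeierstrassCurve ℚ} (h4 : V.a₄ = 0) (h6 : V.a₆ = 0)
    (hΔ : V.Δ ≠ 0) (e3 : (V.preΨ' 3).eval 0 ≠ 0) (e5 : (V.preΨ' 5).eval 0 ≠ 0)
    (hev : (V.preΨ' 15).eval 0 = 0) : False := by
  obtain ⟨b, c, u, hb0, hu0, e1, e2, e4⟩ := exists_tate_of_three h4 h6 hΔ e3
  rw [eval_five_tate e1 e2 e4 h4 h6] at e5
  have hbc : b - c ≠ 0 := fun h0 => e5 (by rw [h0, mul_zero])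
  rw [eval_fifteen_tate e1 e2 e4 h4 h6] at hev
  have h15 := (mul_eq_zero.mp hev).resolve_left
    (mul_ne_zero (pow_ne_zero _ hu0) (pow_ne_zero _ hb0))
  obtain ⟨v, w, hv, hvw⟩ := alg15 hb0 hbc h15
  exact hv (no_sq15 hvw)

/-- the division polynomial of odd index does not vanish at the origin unless the order divides it -/
theorem eval_pre_ne_zero {p : ℕ} {W : WeierstrassCurve ℤ} {Q : Pt W} (h : Normal p W Q) {n : ℕ}
    (hn : ¬ p ∣ n) (hodd : ¬ Even n) :
    ((W.map (Int.castRingHom ℚ)).preΨ' n).eval 0 ≠ 0 := by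
  intro h0
  obtain ⟨hns, hQ⟩ := h.hQ
  have h1 : n • Q = 0 := by
    rw [hQ]
    exact nsmul_eq_zero_of_eval hodd h0
  have h2 := addOrderOf_dvd_of_nsmul_eq_zero h1
  rw [h.ord] at h2
  exact hn h2

/-- There is no normal form with a point of order `15`. -/
theorem false_of_normal_fifteen {W : WeierstrassCurve ℤ} {Q : Pt W} (h : Normal 15 W Q) :
    False := by
  refine false_of_eval_fifteen (V := W.map (Int.castRingHom ℚ)) ?_ ?_ ?_
    (eval_pre_ne_zero h (by decide) (by decide)) (eval_pre_ne_zero h (by decide) (by decide))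
    (eval_pre_eq_zero h (by decide))
  · rw [WeierstrassCurve.map_a₄, h.h4, map_zero]
  · rw [WeierstrassCurve.map_a₆, h.h6, map_zero]
  · rw [WeierstrassCurve.map_Δ]
    simpa using h.hΔ

/-- **No point of order `15`** over `ℚ̄` fixed by Galois. -/
theorem noPoint_fifteen (E : WeierstrassCurve ℚ) [E.IsElliptic] (P : Pts E)
    (hfix : ∀ σ : Gam, σ • P = P) : addOrderOf P ≠ 15 := by
  intro hP
  obtain ⟨W, e, -, hN⟩ := exists_normal_order E (by norm_num : 3 ≤ 15) P hP hfix
  exact false_of_normal_fifteen hN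

/-- **No rational point of order `5` together with one of order `3`.** -/
theorem noPoint_five_of_three (E : WeierstrassCurve ℚ) [E.IsElliptic] (h3 : HasPoint 3 E)
    (P : Pts E) (hfix : ∀ σ : Gam, σ • P = P) : addOrderOf P ≠ 5 := by
  intro hP
  obtain ⟨T, hT0, hT, hTfix⟩ := h3
  have hF : Fact (Nat.Prime 3) := ⟨by norm_num⟩
  have h1 : addOrderOf T = 3 := addOrderOf_eq_prime hT hT0
  refine noPoint_fifteen E (T + P) (fun σ => by
    rw [Point.algEquiv_smul_def, map_add, ← Point.algEquiv_smul_def, ← Point.algEquiv_smul_def,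
      hTfix, hfix]) ?_
  rw [(AddCommute.all T P).addOrderOf_add_eq_mul_addOrderOf_of_coprime (by
    rw [h1, hP]; norm_num), h1, hP]

/-- a rational point of order three, from a rational point of the curve over `ℚ` -/
theorem hasPoint_of_rat {n : ℕ} {E : WeierstrassCurve ℚ} {P : (E⁄ℚ).Point} (hP : P ≠ 0)
    (h : n • P = 0) : HasPoint n E := by
  refine ⟨Point.baseChange ℚ (AlgebraicClosure ℚ) P, fun h0 => hP ?_, ?_, fun σ =>
    smul_baseChange E σ P⟩
  · have h1 := addOrderOf_baseChange E P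
    rw [show (Point.baseChange ℚ (AlgebraicClosure ℚ) P : Pts E) = 0 from h0,
      addOrderOf_zero] at h1
    exact AddMonoid.addOrderOf_eq_one_iff.mp h1.symm
  · have h1 := map_nsmul (Point.baseChange ℚ (AlgebraicClosure ℚ) (W' := E.toAffine)) n P
    rw [h, map_zero] at h1
    exact h1.symm

/-- the origin of `y ^ 2 + a₁ x y + a₃ y = x ^ 3` is a rational point of order three -/
theorem hasPoint_three {W : WeierstrassCurve ℤ} (hΔ : W.Δ ≠ 0) (h2 : W.a₂ = 0) (h4 : W.a₄ = 0)
    (h6 : W.a₆ = 0) : HasPoint 3 (W.map (Int.castRingHom ℚ)) := by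
  have h00 : ((W.map (Int.castRingHom ℚ))⁄ℚbar).Nonsingular 0 0 := by
    have hΔ' : ((W.map (Int.castRingHom ℚ))⁄ℚbar : WeierstrassCurve ℚbar).Δ ≠ 0 := by
      rw [show ((W.map (Int.castRingHom ℚ))⁄ℚbar : WeierstrassCurve ℚbar) =
        (W.map (Int.castRingHom ℚ)).map (algebraMap ℚ ℚbar) from rfl, WeierstrassCurve.map_Δ,
        WeierstrassCurve.map_Δ]
      simpa using hΔ
    refine (equation_iff_nonsingular_of_Δ_ne_zero hΔ').mp ?_
    rw [equation_zero]
    change algebraMap ℚ ℚbar (Int.castRingHom ℚ W.a₆) = 0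
    rw [h6, map_zero, map_zero]
  refine ⟨Point.some 0 0 h00, Point.some_ne_zero h00,
    nsmul_eq_zero_of_eval (W := W) (by decide) ?_, fun σ => ?_⟩
  · rw [WeierstrassCurve.preΨ'_three, WeierstrassCurve.Ψ₃]
    simp [WeierstrassCurve.b₂, WeierstrassCurve.b₄, WeierstrassCurve.b₆,
      WeierstrassCurve.b₈, h2, h4, h6]
  · obtain ⟨h', hσ⟩ := Fermat.Agent.S51gal.smul_some (W := W.map (Int.castRingHom ℚ)) σ h00
    rw [hσ]
    simp only [map_zero]

theorem noPoint_fifteen_rat (E : WeierstrassCurve ℚ) [E.IsElliptic] (P : (E⁄ℚ).Point) :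
    addOrderOf P ≠ 15 := by
  rw [← addOrderOf_baseChange]
  exact noPoint_fifteen E _ fun σ => smul_baseChange E σ P

end Fermat.Agent.Cor.Small

namespace Fermat.Agent.Cor

open Fermat.Agent.Cor.K1

/-- **Points of order `15`** (Mazur, Kubert): an elliptic curve over `ℚ` has no rational point of order `15`. -/
theorem no_point_fifteen (E : WeierstrassCurve ℚ) [E.IsElliptic] (P : E.toAffine.Point) :
    addOrderOf P ≠ 15 := by
  have h1 : ∀ (C : WeierstrassCurve ℚ), C = (E⁄ℚ) → ∀ P : C.toAffine.Point,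
        addOrderOf P ≠ 15 := by
    rintro C rfl P
    exact Small.noPoint_fifteen_rat E P
  exact h1 E E.map_id.symm P

/-- The order of a rational torsion point is not divisible by `15`. -/
theorem not_fifteen_dvd_addOrderOf (E : WeierstrassCurve ℚ) [E.IsElliptic]
    {P : E.toAffine.Point} (hP : addOrderOf P ≠ 0) : ¬ 15 ∣ addOrderOf P := by
  rintro ⟨m, hm⟩
  have hm0 : m ≠ 0 := fun h0 => hP (by rw [hm, h0, mul_zero])
  have h1 : addOrderOf (m • P) = 15 := by
    rw [addOrderOf_nsmul_of_dvd hm0 ⟨15, by rw [hm, mul_comm]⟩, hm,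
      Nat.mul_div_cancel _ (Nat.pos_of_ne_zero hm0)]
  exact no_point_fifteen E (m • P) h1

/-- **Irreducibility at `5`**: if a semistable elliptic curve over `ℚ` has a rational point of order three, its mod `5`
representation is irreducible. -/
theorem irreducible_five_of_point_three {W : WeierstrassCurve ℤ} (hΔ : W.Δ ≠ 0)
    (hW : W.IsSemistableModel) (h3 : Small.HasPoint 3 (W.map (Int.castRingHom ℚ))) :
    W.ModRepIsIrreducible 5 :=
  Small.modRepIsIrreducible_of_property (by norm_num) (by norm_num) (Small.HasPoint 3)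
    (fun _ _ φ _ hφ hker h => h.of_hom (by norm_num) φ hφ hker)
    (fun E _ h P hfix => Small.noPoint_five_of_three E h P hfix)
    (K1.quotients (by norm_num) (by norm_num)) hΔ hW h3

/-- The same for an equation `y ^ 2 + a₁ x y + a₃ y = x ^ 3`. -/
theorem irreducible_five_of_coeff {W : WeierstrassCurve ℤ} (hΔ : W.Δ ≠ 0)
    (hW : W.IsSemistableModel) (h2 : W.a₂ = 0) (h4 : W.a₄ = 0) (h6 : W.a₆ = 0) :
    W.ModRepIsIrreducible 5 :=
  irreducible_five_of_point_three hΔ hW (Small.hasPoint_three hΔ h2 h4 h6)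

/-- **Primes with a rational point of order three**: a semistable elliptic curve over `ℚ` with a rational point of
order three has irreducible mod `p` representation for `p = 5`, `p = 11` and every prime `p ≥ 17`. -/
theorem irreducible_of_point_three {W : WeierstrassCurve ℤ} (hΔ : W.Δ ≠ 0)
    (hW : W.IsSemistableModel) (h3 : Small.HasPoint 3 (W.map (Int.castRingHom ℚ))) {p : ℕ}
    (hp : p.Prime) (h : p = 5 ∨ p = 11 ∨ 17 ≤ p) : W.ModRepIsIrreducible p := by
  rcases h with rfl | h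
  · exact irreducible_five_of_point_three hΔ hW h3
  · exact modRepIsIrreducible hp h hΔ hW

end Fermat.Agent.Cor
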