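import Fermat.Agent.Corollaries.Mazur.Defs
import Fermat.Agent.Corollaries.Mazur.Irred

/-!
# Corollaries, K4P: reducible mod `p` representations and rational points, with the points of order two

If `W` is semistable with rational points of order two and `W[p]` is reducible, `p` odd, then there is an elliptic
curve over `ℚ` with a rational point of order `p` and rational points of order two.
-/

set_option autoImplicit false

noncomputable section

open WeierstrassCurve WeierstrassCurve.Affine

namespace Fermat.Agent.Cor.Small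

open Fermat.Agent.Cor.K1 (Gam Pts Quotients)
open Fermat.Agent.Cor.Mazur (Pt exists_point_or_line)

local notation "ℚbar" => AlgebraicClosure ℚ

/-- all points of order two are rational -/
def TwoFixed (E : WeierstrassCurve ℚ) : Prop := ∀ x : Pts E, 2 • x = 0 → ∀ σ : Gam, σ • x = x

/-- a surjection of odd degree maps the points of order two onto the points of order two -/
theorem twoFixed_of_surjective {E E' : WeierstrassCurve ℚ} {p : ℕ} (hodd : Odd p)
    (h2 : TwoFixed E) (φ : Pts E →+ Pts E') (hsurj : Function.Surjective φ)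
    (hφ : ∀ (σ : Gam) (x : Pts E), φ (σ • x) = σ • φ x)
    (hker : ∀ x ∈ φ.ker, p • x = 0) : TwoFixed E' := by
  intro y hy σ
  obtain ⟨x, rfl⟩ := hsurj y
  have h1 : φ (p • x) = φ x := by
    obtain ⟨k, hk⟩ := hodd
    rw [map_nsmul, hk, add_nsmul, one_nsmul, mul_nsmul, hy, nsmul_zero, zero_add]
  have h3 : 2 • (p • x) = 0 := by
    rw [smul_comm]
    exact hker _ (by rw [AddMonoidHom.mem_ker, map_nsmul, hy])
  rw [← h1, ← hφ, h2 _ h3 σ]

/-- **Reducible representations.** -/
theorem modRepIsIrreducible_of_noPoint {p : ℕ} (hp : p.Prime) (hp2 : p ≠ 2)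
    (HF : ∀ (E : WeierstrassCurve ℚ) [E.IsElliptic], TwoFixed E → ∀ P : Pts E,
      (∀ σ : Gam, σ • P = P) → addOrderOf P ≠ p)
    (HQ : Quotients p) {W : WeierstrassCurve ℤ} (hΔ : W.Δ ≠ 0) (hW : W.IsSemistableModel)
    (h2 : ∀ x : Pt W, 2 • x = 0 → ∀ σ : Gam, σ • x = x) : W.ModRepIsIrreducible p := by
  by_contra hred
  have hF : Fact p.Prime := ⟨hp⟩
  set E : WeierstrassCurve ℚ := W.map (Int.castRingHom ℚ) with hE
  have hEΔ : E.Δ ≠ 0 := by
    rw [hE, WeierstrassCurve.map_Δ]
    simpa using hΔ
  have hEll : E.IsElliptic := ⟨isUnit_iff_ne_zero.mpr hEΔ⟩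
  rcases exists_point_or_line hΔ hW hp hp2 hred with ⟨Q, hQ, hfix⟩ | ⟨L, hcard, hst, hquot⟩
  · exact HF E h2 Q hfix hQ
  · obtain ⟨E', hE', φ, hsurj, hφ, hker⟩ := HQ E L hcard hst
    -- a point of `E[p]` outside `L`
    have hc : Nat.card {P : Pts E // p • P = 0} = p ^ 2 := by
      have hΔ' : (E⁄ℚbar : WeierstrassCurve ℚbar).Δ ≠ 0 := by
        rw [show (E⁄ℚbar : WeierstrassCurve ℚbar) = E.map (algebraMap ℚ ℚbar) from rfl,
          WeierstrassCurve.map_Δ]
        simpa using hEΔ
      exact Torsion.card_torsion hΔ' (by exact_mod_cast hp.ne_zero)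
    have hfinL : Finite L := Nat.finite_of_card_ne_zero (by rw [hcard]; exact hp.ne_zero)
    have hex : ∃ S : Pts E, p • S = 0 ∧ S ∉ L := by
      by_contra hcon
      push Not at hcon
      have h1 : Nat.card {P : Pts E // p • P = 0} ≤ Nat.card L :=
        Nat.card_le_card_of_injective
          (fun x : {P : Pts E // p • P = 0} => (⟨x.1, hcon x.1 x.2⟩ : L))
          fun a b hab => Subtype.ext (congrArg (fun z : L => (z : Pts E)) hab)
      rw [hc, hcard] at h1
      nlinarith [hp.two_le]
    obtain ⟨S, hS, hSL⟩ := hex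
    have hkp : ∀ x ∈ φ.ker, p • x = 0 := by
      intro x hx
      rw [hker] at hx
      have h1 : p • (⟨x, hx⟩ : L) = 0 := by
        rw [← hcard]
        exact card_nsmul_eq_zero'
      exact congrArg (fun z : L => (z : Pts E)) h1
    refine HF E' (twoFixed_of_surjective (hp.odd_of_ne_two hp2) h2 φ hsurj hφ hkp) (φ S)
      (fun σ => ?_) (addOrderOf_eq_prime (by rw [← map_nsmul, hS, map_zero]) fun h0 => hSL ?_)
    · rw [← hφ, ← sub_eq_zero, ← map_sub, ← AddMonoidHom.mem_ker, hker]
      exact hquot S hS σ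
    · rw [← hker]
      exact AddMonoidHom.mem_ker.mpr h0

end Fermat.Agent.Cor.Small
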