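import Fermat.Agent.Corollaries.K4.Small.Main

/-!
# Corollaries, K4P: rational points on elliptic curves with four rational points of order dividing two
-/

set_option autoImplicit false

noncomputable section

open WeierstrassCurve WeierstrassCurve.Affine

namespace Fermat.Agent.Cor.Small

open Fermat.Agent.Cor.K1

/-- four rational points killed by two: all points of order two are rational -/
theorem twoFixed_of_card {E : WeierstrassCurve ℚ} [E.IsElliptic]
    (h : Nat.card {P : (E⁄ℚ).Point // 2 • P = 0} = 4) : TwoFixed E := by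
  intro x hx σ
  have hΔ' : (E⁄(AlgebraicClosure ℚ) : WeierstrassCurve (AlgebraicClosure ℚ)).Δ ≠ 0 := by
    rw [show (E⁄(AlgebraicClosure ℚ) : WeierstrassCurve (AlgebraicClosure ℚ)) =
      E.map (algebraMap ℚ (AlgebraicClosure ℚ)) from rfl, WeierstrassCurve.map_Δ]
    simpa using E.isUnit_Δ.ne_zero
  have hc : Nat.card {P : Pts E // 2 • P = 0} = 2 ^ 2 :=
    Torsion.card_torsion hΔ' (by norm_num)
  have hfin : Finite {P : Pts E // 2 • P = 0} := Nat.finite_of_card_ne_zero (by rw [hc]; norm_num)
  let f : {P : (E⁄ℚ).Point // 2 • P = 0} → {P : Pts E // 2 • P = 0} := fun P =>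
    ⟨Point.baseChange ℚ (AlgebraicClosure ℚ) P.1, by rw [← map_nsmul, P.2, map_zero]⟩
  have hinj : Function.Injective f := fun a b hab =>
    Subtype.ext (Point.map_injective (W' := E) _ (congrArg Subtype.val hab))
  have hbij : Function.Bijective f :=
    (Nat.bijective_iff_injective_and_card f).mpr ⟨hinj, by rw [h, hc]; norm_num⟩
  obtain ⟨P, hP⟩ := hbij.2 ⟨x, hx⟩
  have h1 : x = Point.baseChange ℚ (AlgebraicClosure ℚ) P.1 := (congrArg Subtype.val hP).symm
  rw [h1]
  exact smul_baseChange E σ P.1

theorem noPoint_rat (E : WeierstrassCurve ℚ) [E.IsElliptic]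
    (h : Nat.card {P : (E⁄ℚ).Point // 2 • P = 0} = 4) {p : ℕ} (hp : p.Prime) (h5 : 5 ≤ p)
    (P : (E⁄ℚ).Point) : addOrderOf P ≠ p := by
  intro hP
  exact noPoint hp h5 E (twoFixed_of_card h) (Point.baseChange ℚ (AlgebraicClosure ℚ) P)
    (fun σ => smul_baseChange E σ P) (by rw [addOrderOf_baseChange, hP])

end Fermat.Agent.Cor.Small

namespace Fermat.Agent.Cor

/-- **Elliptic curves with rational points of order two** (Mazur, Kubert): if an elliptic curve over `ℚ` has four
rational points killed by `2`, it has no rational point of prime order `p ≥ 5`. -/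
theorem no_point_of_full_two (E : WeierstrassCurve ℚ) [E.IsElliptic]
    (h : Nat.card {P : E.toAffine.Point // 2 • P = 0} = 4) {p : ℕ} (hp : p.Prime) (h5 : 5 ≤ p)
    (P : E.toAffine.Point) : addOrderOf P ≠ p := by
  have h1 : ∀ (C : WeierstrassCurve ℚ), C = (E⁄ℚ) →
      Nat.card {P : C.toAffine.Point // 2 • P = 0} = 4 → ∀ P : C.toAffine.Point,
        addOrderOf P ≠ p := by
    rintro C rfl hC P
    exact Small.noPoint_rat E hC hp h5 P
  exact h1 E E.map_id.symm h P

/-- The order of a rational torsion point on an elliptic curve over `ℚ` with four rational points killed by `2` has no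
prime factors besides `2` and `3`. -/
theorem prime_dvd_addOrderOf_of_full_two (E : WeierstrassCurve ℚ) [E.IsElliptic]
    (h : Nat.card {P : E.toAffine.Point // 2 • P = 0} = 4) {P : E.toAffine.Point}
    (hP : addOrderOf P ≠ 0) {q : ℕ} (hq : q.Prime) (hd : q ∣ addOrderOf P) : q = 2 ∨ q = 3 := by
  obtain ⟨m, hm⟩ := hd
  have hm0 : m ≠ 0 := fun h0 => hP (by rw [hm, h0, mul_zero])
  have h1 : addOrderOf (m • P) = q := by
    rw [addOrderOf_nsmul_of_dvd hm0 ⟨q, by rw [hm, mul_comm]⟩, hm,
      Nat.mul_div_cancel _ (Nat.pos_of_ne_zero hm0)]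
  by_contra hcon
  push Not at hcon
  have h5 : 5 ≤ q := by
    have key : ∀ q < 5, q.Prime → q = 2 ∨ q = 3 := by decide
    by_contra h2
    rcases key q (by omega) hq with h3 | h3
    · exact hcon.1 h3
    · exact hcon.2 h3
  exact no_point_of_full_two E h hq h5 (m • P) h1

end Fermat.Agent.Cor
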