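import Fermat.Agent.Corollaries.K4.Small.Rat
import Fermat.Agent.S51_Galois

/-!
# Corollaries, K4P: the prime `7` and one rational point of order two

An elliptic curve over `ℚ` has no rational point of order `14` (Mazur, Kubert). If a semistable elliptic curve over
`ℚ` has a rational point of order two, its mod `7` representation is irreducible and surjective.
-/

set_option autoImplicit false

noncomputable section

open WeierstrassCurve WeierstrassCurve.Affine

namespace Fermat.Agent.Cor.Small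

open Fermat.Agent.Cor.K1
open Fermat.Agent.Cor.Mazur (Pt Normal exists_normal exists_point_or_line)

local notation "ℚbar" => AlgebraicClosure ℚ

/-- there is a rational point of order `n`, `n` prime -/
def HasPoint (n : ℕ) (E : WeierstrassCurve ℚ) : Prop :=
  ∃ T : Pts E, T ≠ 0 ∧ n • T = 0 ∧ ∀ σ : Gam, σ • T = T

/-- an isogeny of degree prime to `n` preserves rational points of order `n` -/
theorem HasPoint.of_hom {n p : ℕ} (hnp : Nat.Coprime n p) {E E' : WeierstrassCurve ℚ}
    (h : HasPoint n E) (φ : Pts E →+ Pts E') (hφ : ∀ (σ : Gam) (x : Pts E), φ (σ • x) = σ • φ x)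
    (hker : ∀ x ∈ φ.ker, p • x = 0) : HasPoint n E' := by
  obtain ⟨T, hT0, hT, hfix⟩ := h
  refine ⟨φ T, fun h0 => hT0 ?_, by rw [← map_nsmul, hT, map_zero], fun σ => by
    rw [← hφ, hfix]⟩
  have h1 : p • T = 0 := hker T h0
  have h2 : addOrderOf T ∣ Nat.gcd n p :=
    Nat.dvd_gcd (addOrderOf_dvd_of_nsmul_eq_zero hT) (addOrderOf_dvd_of_nsmul_eq_zero h1)
  rw [hnp, Nat.dvd_one, AddMonoid.addOrderOf_eq_one_iff] at h2
  exact h2

/-- **Reducible representations** and a property of elliptic curves preserved by isogenies of degree `p`. -/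
theorem modRepIsIrreducible_of_property {p : ℕ} (hp : p.Prime) (hp2 : p ≠ 2)
    (R : WeierstrassCurve ℚ → Prop)
    (hR : ∀ (E E' : WeierstrassCurve ℚ) (φ : Pts E →+ Pts E'), Function.Surjective φ →
      (∀ (σ : Gam) (x : Pts E), φ (σ • x) = σ • φ x) → (∀ x ∈ φ.ker, p • x = 0) → R E → R E')
    (HF : ∀ (E : WeierstrassCurve ℚ) [E.IsElliptic], R E → ∀ P : Pts E,
      (∀ σ : Gam, σ • P = P) → addOrderOf P ≠ p)
    (HQ : Quotients p) {W : WeierstrassCurve ℤ} (hΔ : W.Δ ≠ 0) (hW : W.IsSemistableModel)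
    (h2 : R (W.map (Int.castRingHom ℚ))) : W.ModRepIsIrreducible p := by
  by_contra hred
  have hF : Fact p.Prime := ⟨hp⟩
  set E : WeierstrassCurve ℚ := W.map (Int.castRingHom ℚ) with hE
  have hEΔ : E.Δ ≠ 0 := by
    rw [hE, WeierstrassCurve.map_Δ]
    simpa using hΔ
  have hEll : E.IsElliptic := ⟨isUnit_iff_ne_zero.mpr hEΔ⟩
  rcases exists_point_or_line hΔ hW hp hp2 hred with ⟨Q, hQ, hfix⟩ | ⟨L, hcard, hst, hquot⟩
  · exact HF E h2 Q hfix hQ
  · obtain ⟨E', hE', φ, hsurj, hφ, hker⟩ := HQ E L hcard hst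
    have hc : Nat.card {P : Pts E // p • P = 0} = p ^ 2 := by
      have hΔ' : (E⁄ℚbar : WeierstrassCurve ℚbar).Δ ≠ 0 := by
        rw [show (E⁄ℚbar : WeierstrassCurve ℚbar) = E.map (algebraMap ℚ ℚbar) from rfl,
          WeierstrassCurve.map_Δ]
        simpa using hEΔ
      exact Torsion.card_torsion hΔ' (by exact_mod_cast hp.ne_zero)
    have hfinL : Finite L := Nat.finite_of_card_ne_zero (by rw [hcard]; exact hp.ne_zero)
    have hex : ∃ S : Pts E, p • S = 0 ∧ S ∉ L := by
      by_contra hcon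
      push Not at hcon
      have h1 : Nat.card {P : Pts E // p • P = 0} ≤ Nat.card L :=
        Nat.card_le_card_of_injective
          (fun x : {P : Pts E // p • P = 0} => (⟨x.1, hcon x.1 x.2⟩ : L))
          fun a b hab => Subtype.ext (congrArg (fun z : L => (z : Pts E)) hab)
      rw [hc, hcard] at h1
      nlinarith [hp.two_le]
    obtain ⟨S, hS, hSL⟩ := hex
    have hkp : ∀ x ∈ φ.ker, p • x = 0 := by
      intro x hx
      rw [hker] at hx
      have h1 : p • (⟨x, hx⟩ : L) = 0 := by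
        rw [← hcard]
        exact card_nsmul_eq_zero'
      exact congrArg (fun z : L => (z : Pts E)) h1
    refine HF E' (hR E E' φ hsurj hφ hkp h2) (φ S) (fun σ => ?_)
      (addOrderOf_eq_prime (by rw [← map_nsmul, hS, map_zero]) fun h0 => hSL ?_)
    · rw [← hφ, ← sub_eq_zero, ← map_sub, ← AddMonoidHom.mem_ker, hker]
      exact hquot S hS σ
    · rw [← hker]
      exact AddMonoidHom.mem_ker.mpr h0

/-- a rational point of order two gives a rational root of the two-division polynomial -/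
theorem exists_root_of_hasPoint {E : WeierstrassCurve ℚ} (h : HasPoint 2 E) :
    ∃ x : ℚ, 4 * x ^ 3 + E.b₂ * x ^ 2 + 2 * E.b₄ * x + E.b₆ = 0 := by
  obtain ⟨T, hT0, hT, hfix⟩ := h
  rcases T with _ | ⟨X, Y, hxy⟩
  · exact absurd rfl hT0
  have hσ : ∀ σ : Gam, σ X = X := by
    intro σ
    have h1 := hfix σ
    rw [Point.algEquiv_smul_def, Point.map_some, Point.some.injEq] at h1
    exact h1.1
  obtain ⟨x, hx⟩ := S13five.exists_rat_of_fixed hσ
  refine ⟨x, ?_⟩
  have h1 : Point.some X Y hxy = - Point.some X Y hxy := by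
    rw [eq_neg_iff_add_eq_zero, ← two_smul ℕ]
    exact hT
  rw [Point.neg_some] at h1
  have h2 : Y = (E⁄ℚbar).toAffine.negY X Y := (Point.some.inj h1).2
  have heq := (equation_iff _ _).mp hxy.1
  rw [negY] at h2
  have b2 : (E⁄ℚbar).b₂ = algebraMap ℚ ℚbar E.b₂ := WeierstrassCurve.map_b₂ E _
  have b4 : (E⁄ℚbar).b₄ = algebraMap ℚ ℚbar E.b₄ := WeierstrassCurve.map_b₄ E _
  have b6 : (E⁄ℚbar).b₆ = algebraMap ℚ ℚbar E.b₆ := WeierstrassCurve.map_b₆ E _
  apply (algebraMap ℚ ℚbar).injective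
  simp only [map_add, map_mul, map_pow, map_ofNat, map_zero]
  rw [← b2, ← b4, ← b6, hx, WeierstrassCurve.b₂, WeierstrassCurve.b₄, WeierstrassCurve.b₆]
  linear_combination (2 * Y + (E⁄ℚbar).a₁ * X + (E⁄ℚbar).a₃) * h2 - 4 * heq

/-- a rational root of the two-division polynomial gives a rational point of order two -/
theorem hasPoint_of_root {E : WeierstrassCurve ℚ} (hΔ : E.Δ ≠ 0) {x : ℚ}
    (hx : 4 * x ^ 3 + E.b₂ * x ^ 2 + 2 * E.b₄ * x + E.b₆ = 0) : HasPoint 2 E := by
  set y : ℚ := -(E.a₁ * x + E.a₃) / 2 with hy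
  have heq : E.toAffine.Equation x y := by
    rw [equation_iff]
    rw [WeierstrassCurve.b₂, WeierstrassCurve.b₄, WeierstrassCurve.b₆] at hx
    rw [hy]
    linear_combination (-1 / 4 : ℚ) * hx
  have hΔ' : (E⁄ℚbar : WeierstrassCurve ℚbar).Δ ≠ 0 := by
    rw [show (E⁄ℚbar : WeierstrassCurve ℚbar) = E.map (algebraMap ℚ ℚbar) from rfl,
      WeierstrassCurve.map_Δ]
    simpa using hΔ
  have heq' : (E⁄ℚbar).toAffine.Equation (algebraMap ℚ ℚbar x) (algebraMap ℚ ℚbar y) :=
    (Affine.map_equation (W := E.toAffine) (f := algebraMap ℚ ℚbar)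
      (algebraMap ℚ ℚbar).injective x y).mpr heq
  have hns : (E⁄ℚbar).toAffine.Nonsingular (algebraMap ℚ ℚbar x) (algebraMap ℚ ℚbar y) :=
    (Affine.equation_iff_nonsingular_of_Δ_ne_zero hΔ').mp heq'
  refine ⟨Point.some _ _ hns, Point.some_ne_zero hns, ?_, fun σ => ?_⟩
  · rw [two_nsmul, Point.add_of_Y_eq rfl]
    rw [negY]
    have h4 : (E⁄ℚbar).a₁ = algebraMap ℚ ℚbar E.a₁ := rfl
    have h5 : (E⁄ℚbar).a₃ = algebraMap ℚ ℚbar E.a₃ := rfl
    rw [h4, h5, hy]
    simp only [map_div₀, _root_.map_neg, map_add, map_mul, map_ofNat]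
    ring
  · obtain ⟨h', hσ⟩ := Fermat.Agent.S51gal.smul_some (W := E) σ hns
    rw [hσ]
    simp only [AlgEquiv.commutes]

/-- **No rational point of order `7` together with one of order `2`**, points over `ℚ̄` fixed by Galois. -/
theorem noPoint_seven (E : WeierstrassCurve ℚ) [E.IsElliptic] (h2 : HasPoint 2 E) (P : Pts E)
    (hfix : ∀ σ : Gam, σ • P = P) : addOrderOf P ≠ 7 := by
  intro hP
  obtain ⟨W, e, he, hN⟩ := exists_normal E (by norm_num : Nat.Prime 7) (by norm_num) P hP hfix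
  have h2' : HasPoint 2 (W.map (Int.castRingHom ℚ)) := by
    obtain ⟨T, hT0, hT, hTfix⟩ := h2
    exact ⟨e T, fun h0 => hT0 (e.injective (by rw [h0, map_zero])), by
      rw [← map_nsmul, hT, map_zero], fun σ => by rw [← he, hTfix]⟩
  obtain ⟨x, hx⟩ := exists_root_of_hasPoint h2'
  have hx' : 4 * x ^ 3 + (W.b₂ : ℚ) * x ^ 2 + 2 * (W.b₄ : ℚ) * x + (W.b₆ : ℚ) = 0 := by
    rw [WeierstrassCurve.map_b₂, WeierstrassCurve.map_b₄, WeierstrassCurve.map_b₆] at hx
    exact hx
  obtain ⟨b, c, u, hb, hu, ha1, ha2, ha3, -, h7, -⟩ := exists_tate hN (Or.inr (Or.inl rfl))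
  obtain ⟨X, hX⟩ := exists_root_tate hN.h4 hN.h6 hu ha1 ha2 ha3 hx'
  exact alg7 hb (h7 rfl) hX fun Z y hZ => no_sq7 hZ

theorem noPoint_fourteen_rat (E : WeierstrassCurve ℚ) [E.IsElliptic] (P : (E⁄ℚ).Point) :
    addOrderOf P ≠ 14 := by
  intro hP
  have h7 : addOrderOf (2 • P) = 7 := by
    rw [addOrderOf_nsmul_of_dvd (by norm_num) (by rw [hP]; norm_num), hP]
  have h2 : addOrderOf (7 • P) = 2 := by
    rw [addOrderOf_nsmul_of_dvd (by norm_num) (by rw [hP]; norm_num), hP]
  have h2' : addOrderOf (Point.baseChange ℚ (AlgebraicClosure ℚ) (7 • P) : Pts E) = 2 := by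
    rw [addOrderOf_baseChange, h2]
  refine noPoint_seven E ⟨Point.baseChange ℚ (AlgebraicClosure ℚ) (7 • P), ?_, ?_, fun σ =>
    smul_baseChange E σ (7 • P)⟩ (Point.baseChange ℚ (AlgebraicClosure ℚ) (2 • P))
    (fun σ => smul_baseChange E σ (2 • P)) (by rw [addOrderOf_baseChange, h7])
  · intro h0
    rw [h0, addOrderOf_zero] at h2'
    omega
  · rw [← addOrderOf_dvd_iff_nsmul_eq_zero, h2']

end Fermat.Agent.Cor.Small

namespace Fermat.Agent.Cor

open Fermat.Agent.Cor.K1

/-- **Points of order `14`** (Mazur, Kubert): an elliptic curve over `ℚ` has no rational point of order `14`. -/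
theorem no_point_fourteen (E : WeierstrassCurve ℚ) [E.IsElliptic] (P : E.toAffine.Point) :
    addOrderOf P ≠ 14 := by
  have h1 : ∀ (C : WeierstrassCurve ℚ), C = (E⁄ℚ) → ∀ P : C.toAffine.Point,
        addOrderOf P ≠ 14 := by
    rintro C rfl P
    exact Small.noPoint_fourteen_rat E P
  exact h1 E E.map_id.symm P

/-- The order of a rational torsion point is not divisible by `14`. -/
theorem not_fourteen_dvd_addOrderOf (E : WeierstrassCurve ℚ) [E.IsElliptic]
    {P : E.toAffine.Point} (hP : addOrderOf P ≠ 0) : ¬ 14 ∣ addOrderOf P := by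
  rintro ⟨m, hm⟩
  have hm0 : m ≠ 0 := fun h0 => hP (by rw [hm, h0, mul_zero])
  have h1 : addOrderOf (m • P) = 14 := by
    rw [addOrderOf_nsmul_of_dvd hm0 ⟨14, by rw [hm, mul_comm]⟩, hm,
      Nat.mul_div_cancel _ (Nat.pos_of_ne_zero hm0)]
  exact no_point_fourteen E (m • P) h1

/-- **Irreducibility at `7`**: if a semistable elliptic curve over `ℚ` has a rational point of order two, its mod `7`
representation is irreducible. -/
theorem irreducible_seven_of_point {W : WeierstrassCurve ℤ} (hΔ : W.Δ ≠ 0)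
    (hW : W.IsSemistableModel) (h2 : Small.HasPoint 2 (W.map (Int.castRingHom ℚ))) :
    W.ModRepIsIrreducible 7 :=
  Small.modRepIsIrreducible_of_property (by norm_num) (by norm_num) (Small.HasPoint 2)
    (fun _ _ φ _ hφ hker h => h.of_hom (by norm_num) φ hφ hker)
    (fun E _ h P hfix => Small.noPoint_seven E h P hfix) (K1.quotients (by norm_num) (by norm_num))
    hΔ hW h2

/-- The same with a rational root of the two-division polynomial. -/
theorem irreducible_seven_of_root {W : WeierstrassCurve ℤ} (hΔ : W.Δ ≠ 0)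
    (hW : W.IsSemistableModel) {x : ℚ}
    (hx : 4 * x ^ 3 + (W.b₂ : ℚ) * x ^ 2 + 2 * (W.b₄ : ℚ) * x + (W.b₆ : ℚ) = 0) :
    W.ModRepIsIrreducible 7 := by
  refine irreducible_seven_of_point hΔ hW (Small.hasPoint_of_root (x := x) ?_ ?_)
  · rw [WeierstrassCurve.map_Δ]
    simpa using hΔ
  · rw [WeierstrassCurve.map_b₂, WeierstrassCurve.map_b₄, WeierstrassCurve.map_b₆]
    exact hx

/-- **Primes with a rational point of order two**: a semistable elliptic curve over `ℚ` with a rational point of order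
two has irreducible mod `p` representation for `p = 7`, `p = 11` and every prime `p ≥ 17`. -/
theorem irreducible_of_point_two {W : WeierstrassCurve ℤ} (hΔ : W.Δ ≠ 0)
    (hW : W.IsSemistableModel) (h2 : Small.HasPoint 2 (W.map (Int.castRingHom ℚ))) {p : ℕ}
    (hp : p.Prime) (h : p = 7 ∨ p = 11 ∨ 17 ≤ p) : W.ModRepIsIrreducible p := by
  rcases h with rfl | h
  · exact irreducible_seven_of_point hΔ hW h2
  · exact modRepIsIrreducible hp h hΔ hW

end Fermat.Agent.Cor
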