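import Mathlib

/-!
# Corollaries, K15: coprime integers `u`, `v` with `u v = q ^ k f ^ 4`
-/

set_option autoImplicit false

namespace Fermat.Agent.Cor.Small

/-- `u v = f ^ 4`, `u`, `v` coprime, `f ≠ 0`: `u = ± g ^ 4`, `v = ± h ^ 4` with the same sign and `f = g h`. -/
theorem split_pow {u v f : ℤ} (hf : f ≠ 0) (hcop : IsCoprime u v) (h : u * v = f ^ 4) :
    ∃ g h ε : ℤ, f = g * h ∧ (ε = 1 ∨ ε = -1) ∧ u = ε * g ^ 4 ∧ v = ε * h ^ 4 := by
  obtain ⟨g, hg⟩ := exists_associated_pow_of_mul_eq_pow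
    ((gcd_isUnit_iff u v).mpr hcop) h
  obtain ⟨k, hk⟩ := exists_associated_pow_of_mul_eq_pow
    ((gcd_isUnit_iff v u).mpr hcop.symm) (show v * u = f ^ 4 by rw [mul_comm, h])
  rw [Int.associated_iff] at hg hk
  have hf4 : 0 < f ^ 4 := by positivity
  have key : ∀ ε : ℤ, (ε = 1 ∨ ε = -1) → u = ε * g ^ 4 → v = ε * k ^ 4 →
      ∃ g h ε : ℤ, f = g * h ∧ (ε = 1 ∨ ε = -1) ∧ u = ε * g ^ 4 ∧ v = ε * h ^ 4 := by
    intro ε hε hu hv
    have hε2 : ε * ε = 1 := by rcases hε with rfl | rfl <;> norm_num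
    have h4 : f ^ 4 = (g * k) ^ 4 := by
      rw [← h, hu, hv]
      linear_combination (g ^ 4 * k ^ 4) * hε2
    have h2 : f = g * k ∨ f = -(g * k) := by
      have := (pow_eq_pow_iff_of_ne_zero (show (4 : ℕ) ≠ 0 by norm_num)).mp h4
      rcases this with h | ⟨h, -⟩
      · exact Or.inl h
      · exact Or.inr h
    rcases h2 with h2 | h2
    · exact ⟨g, k, ε, h2, hε, hu, hv⟩
    · exact ⟨-g, k, ε, by rw [h2]; ring, hε, by rw [hu]; ring, hv⟩
  rcases hg with hg | hg <;> rcases hk with hk | hk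
  · exact key 1 (Or.inl rfl) (by rw [one_mul, hg]) (by rw [one_mul, hk])
  · exfalso
    have h1 : u * v = -(g ^ 4 * k ^ 4) := by rw [← hg]; linear_combination (g ^ 4) * hk
    have h2 : 0 ≤ g ^ 4 * k ^ 4 := by positivity
    omega
  · exfalso
    have h1 : u * v = -(g ^ 4 * k ^ 4) := by rw [← hk]; linear_combination (k ^ 4) * hg
    have h2 : 0 ≤ g ^ 4 * k ^ 4 := by positivity
    omega
  · exact key (-1) (Or.inr rfl) (by linear_combination hg) (by linear_combination hk)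

/-- **`u v = q ^ k f ^ 4`**, `q` prime, `u`, `v` coprime, `f ≠ 0`: up to exchange `u = ε g ^ 4`,
`v = ε q ^ k h ^ 4` with `f = g h`, `g`, `h` coprime and `ε = ± 1`. -/
theorem split4 {q : ℤ} (hq : Prime q) (k : ℕ) {u v f : ℤ} (hf : f ≠ 0) (hcop : IsCoprime u v)
    (h : u * v = q ^ k * f ^ 4) :
    ∃ g h ε : ℤ, f = g * h ∧ IsCoprime g h ∧ (ε = 1 ∨ ε = -1) ∧
      ((u = ε * g ^ 4 ∧ v = ε * (q ^ k * h ^ 4)) ∨ (u = ε * (q ^ k * h ^ 4) ∧ v = ε * g ^ 4)) := by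
  have hq0 : q ^ k ≠ 0 := pow_ne_zero _ hq.ne_zero
  have key : ∀ {u v : ℤ}, IsCoprime u v → u * v = q ^ k * f ^ 4 → ¬ q ∣ u →
      ∃ g h ε : ℤ, f = g * h ∧ IsCoprime g h ∧ (ε = 1 ∨ ε = -1) ∧
        (u = ε * g ^ 4 ∧ v = ε * (q ^ k * h ^ 4)) := by
    intro u v hcop h hqu
    have hc : IsCoprime (q ^ k) u :=
      IsCoprime.pow_left ((Irreducible.coprime_iff_not_dvd hq.irreducible).mpr hqu)
    have hd : q ^ k ∣ v := hc.dvd_of_dvd_mul_left (Dvd.intro _ h.symm)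
    obtain ⟨w, rfl⟩ := hd
    have h' : u * w = f ^ 4 := mul_left_cancel₀ hq0 (by rw [← h]; ring)
    have hcop' : IsCoprime u w := hcop.of_mul_right_right
    obtain ⟨g, l, ε, h1, h2, h3, h4⟩ := split_pow hf hcop' h'
    refine ⟨g, l, ε, h1, ?_, h2, h3, by rw [h4]; ring⟩
    rw [h3, h4] at hcop'
    have := hcop'.of_mul_left_right.of_mul_right_right
    exact (IsCoprime.pow_iff (by norm_num) (by norm_num)).mp this
  by_cases hqu : q ∣ u
  · have hqv : ¬ q ∣ v := fun hv => hq.not_isUnit (hcop.isUnit_of_dvd' hqu hv)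
    obtain ⟨g, l, ε, h1, h2, h3, h4, h5⟩ := key hcop.symm (by rw [mul_comm, h]) hqv
    exact ⟨g, l, ε, h1, h2, h3, Or.inr ⟨h5, h4⟩⟩
  · obtain ⟨g, l, ε, h1, h2, h3, h4, h5⟩ := key hcop h hqu
    exact ⟨g, l, ε, h1, h2, h3, Or.inl ⟨h4, h5⟩⟩

/-- two integers are coprime if no prime divides both -/
theorem isCoprime_of_prime {u v : ℤ} (h : ∀ q : ℤ, Prime q → q ∣ u → q ∣ v → False) :
    IsCoprime u v := by
  rcases eq_or_ne u 0 with rfl | hu
  · rcases eq_or_ne v 0 with rfl | hv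
    · exact absurd (h 2 Int.prime_two (dvd_zero _) (dvd_zero _)) id
    · exact isCoprime_of_prime_dvd (fun h => hv h.2) fun q hq h1 h2 => h q hq h1 h2
  · exact isCoprime_of_prime_dvd (fun h => hu h.1) fun q hq h1 h2 => h q hq h1 h2

end Fermat.Agent.Cor.Small
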